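/-
GATE-E (S59) / ENGINE-INST item (i) (helper51): **the Taylor–Wiles module `F_Q : FreeLevel` over a
base module `M_∅` that does NOT depend on the Taylor–Wiles set `Q`.**

helper12's `GE6/Inst/OfUnit.twDepthEOfUnit` consumes `F : FreeLevel 𝒪 𝕋 M0 act0 r (fun j => p ^ E j)`
with ONE base module `M0` for all depths.  GATE-B's tower (`GB/B3/Plug.bigLevel`) has the base
`Final.M0 Sy 𝔪 … = Hom(Γ_H(θ₀), O)_{𝔪_Q}` at the BIG level `N_Q = M ∏ qv`; helper49's
`GB/B8/LevelIter.exists_baseEquiv` brings it down to `LevelStage.locSub (actN O (prSy Q.Sy) _ M)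
(ker Q.lamBase) ⊆ Hom(Γ₀(M), O)`, still cut out by a polynomial ring whose index type depends on `Q`;
`GE6/Inst/BaseIndep` removes that dependence.

PART A (abstract, any `Sy : Symbols N`):
* `genOp_congr`, `actN_comp_rename` : the uniform action only sees the PRIMES of the symbols;
* `exists_baseEquiv_M0` : `Final.M0 Sy 𝔪 Δs ψ ≃ₗ[O] locSub (actN O pr' hpr' M) (ker lam')` for ANY
  surjective relabelling `f : Sy.ι₁ ⊕ Sy.ι₂ → σ'` of the symbols by their primes, equivariant up to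
  `rename f ∘ ρ` (`ρ` the substitution of `exists_baseEquiv`);
* `castN` : transport of a `FreeLevel` along an equality of the diamond orders, with `rfl`-lemmas.

PART B (at `Q : G1.TWSet P g n`, the objects of record of GATE-B's provider):
* `I0 W p M`, `pr0`, `lam0 P`, **`Mbase P`**, **`actBase P`** : the good primes `ℓ ∤ M p`, the residual
  eigensystem `T_ℓ ↦ a_ℓ(W)`, and `M_∅ = Hom(Γ₀(M), O)_{𝔪_∅}` with its Hecke action — `Q`-FREE;
* `sigQ Q`, `sigQ_surjective`, `lamBase_eq`, `actN_eq` : the relabelling at `Q`;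
* `rRev`, `eRev`, `primeDataE Q E hE` : prime data at `Q` with PER-PRIME exponents `E j` (any
  `p ^ E j ∣ qv j - 1`, e.g. the full `v_p(qv j - 1)` needed by `g_pow`), primes fed in REVERSE order so
  that the `j`-th diamond of the tower (newest first) is the diamond of `qv j`;
* `Nfun_eq_E` : the orders are `fun j => p ^ E j`;
* **`FQ Q hp3 E hE act0' e he`**, **`exists_FQ`** : the level over `Mbase P`, with
  `(FQ …).M = (bigLevel …).M`, same diamonds and Hecke action (`rfl`-lemmas), `π = e ∘ π`, and the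
  existence of `(ρ, e)` with the equivariance `he` for `act0' = actBase ∘ rename sigQ ∘ ρ`.
-/
import Mathlib
import Fermat.Agent.GB.B8.LevelIter
import Fermat.Agent.GE8.P3B.GB.B3.Plug
import Fermat.Agent.GE8.P3B.GB.B9.ProviderFlat.G1
import Fermat.Agent.GB.B9.ProviderFlat.H1
import Fermat.Agent.GE8.P3B.GB.B8.LevelPlug
import Fermat.Agent.GE6.Inst.BaseIndep
import Fermat.Agent.GE6.Inst.MapBase
import Fermat.Agent.GE8.P3B.StepGen
import Fermat.Agent.GE8.P3B.Ok3W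

/- TWIN (helper6 B4 generator; conventions of helper24 / helper86) of `Fermat.Agent.GE6.Inst.FreeLevelInst` with `p ≠ 3` relaxed to `Ok3A Sy 𝔪 p` / `Ok3W p W` (RISK-5 fix (B), step B4); everything below lives in the wrapper namespace `Fermat.Agent.GE8.P3B`. -/
set_option linter.dupNamespace false
open Fermat Fermat.Agent Fermat.Agent.GB Fermat.Agent.GB.B3 Fermat.Agent.GB.B3.HeckeActH Fermat.Agent.GB.B3.RealLevel Fermat.Agent.GB.B3.TWChars Fermat.Agent.GB.B3.TWLevel Fermat.Agent.GB.B8 Fermat.Agent.GB.B8.LevelGen Fermat.Agent.GB.B8.LevelIter Fermat.Agent.GB.B9 Fermat.Agent.GB.B9.ProviderFlat Fermat.Agent.GB.B9.ProviderFlat.H1 Fermat.Agent.GB.Setup Fermat.Agent.GB.Setup.SetupPkg Fermat.Agent.GE6 Fermat.Agent.GE6.Inst Fermat.Agent.GE6.Inst.BaseIndep Fermat.Agent.GE6.Inst.MapBase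

namespace Fermat.Agent.GE8.P3B

set_option autoImplicit false
set_option linter.unusedSectionVars false
set_option linter.unusedVariables false
set_option linter.style.haveILetI false

open scoped MatrixGroups
open CongruenceSubgroup

namespace GE6.Inst.FreeLevelInst

open MvPolynomial
open GB.B3 GB.B3.TWLevel GB.B3.RealLevel
  GB.B3.HeckeActH GB.B3.TWChars GB.B3.FinalTW
  GB.B3.Final GB.B3.Tower
  GB.B8.LevelIter GB.B8.LevelGen
  GE6.Inst.BaseIndep GE6.Inst.MapBase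

/-! ## PART A : abstract -/

section GenOp

variable (O : Type) [CommRing O]

/-- the generator only depends on the prime -/
theorem genOp_congr (N : ℕ) {l l' : ℕ} (h : l = l') [hl : Fact l.Prime] [hl' : Fact l'.Prime] :
    genOp O N l = genOp O N l' := by
  subst h
  rfl

variable {σ σ' : Type} (pr : σ → ℕ) (hpr : ∀ s, (pr s).Prime) (pr' : σ' → ℕ)
  (hpr' : ∀ s, (pr' s).Prime) (f : σ → σ') (hf : ∀ s, pr' (f s) = pr s)

include hf in
/-- **the uniform action only sees the primes of the symbols** -/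
theorem actN_comp_rename (N : ℕ) :
    actN O pr hpr N = (actN O pr' hpr' N).comp (rename f : MvPolynomial σ O →ₐ[O] _) := by
  refine MvPolynomial.algHom_ext fun s => ?_
  rw [AlgHom.comp_apply, rename_X, actN_X, actN_X]
  unfold gen
  haveI : Fact (pr s).Prime := ⟨hpr s⟩
  haveI : Fact (pr' (f s)).Prime := ⟨hpr' (f s)⟩
  exact genOp_congr O N (hf s).symm

end GenOp

section Base

variable {N : ℕ} (Sy : Symbols N)
variable {O : Type} [CommRing O] [IsLocalRing O] [IsNoetherianRing O]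
  [IsAdicComplete (IsLocalRing.maximalIdeal O) O]
variable {κ : Type} [Field κ] [Algebra O κ]
variable [DecidableEq Sy.ι₁] [DecidableEq Sy.ι₂]
variable (Δs : ℕ → Type) [∀ i, CommGroup (Δs i)] (ψ : ∀ i, (ZMod N)ˣ →* Δs i)

/-- **the base of the Taylor–Wiles tower is the primary part at the base level `M`, for ANY
surjective relabelling of the symbols by their primes.** -/
theorem exists_baseEquiv_M0 (hℓ : Function.Injective Sy.ℓ) (hr : Function.Injective Sy.r)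
    (hsurj : Function.Surjective (algebraMap O κ)) (M : ℕ) [NeZero M]
    (lamBase lamTop : Sy.𝕋 O →ₐ[O] κ) (α β : Sy.ι₁ ⊕ Sy.ι₂ → O) (Q : Finset (Sy.ι₁ ⊕ Sy.ι₂))
    (hN : N = M * ∏ s ∈ Q, prSy Sy s) (hQM : ∀ s ∈ Q, ¬ prSy Sy s ∣ M)
    (hTW : ∀ s ∈ Q, TWCond (prSy Sy) lamBase lamTop α β s)
    (haway : ∀ s, s ∉ Q → lamTop (X s) = lamBase (X s))
    (𝔪 : Ideal (Sy.𝕋 O)) (h𝔪 : 𝔪 = RingHom.ker (lamTop : Sy.𝕋 O →+* κ))
    {σ' : Type} (pr' : σ' → ℕ) (hpr' : ∀ s, (pr' s).Prime) (f : Sy.ι₁ ⊕ Sy.ι₂ → σ')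
    (hf : ∀ s, pr' (f s) = prSy Sy s) (hfs : Function.Surjective f)
    (lam' : MvPolynomial σ' O →ₐ[O] κ)
    (hlam : lamBase = lam'.comp (rename f : Sy.𝕋 O →ₐ[O] MvPolynomial σ' O)) :
    ∃ (e : M0 Sy 𝔪 Δs ψ ≃ₗ[O] GB.B8.LevelStage.locSub (actN O pr' hpr' M)
          (RingHom.ker (lam' : MvPolynomial σ' O →+* κ)))
      (ρ : Sy.𝕋 O →ₐ[O] Sy.𝕋 O),
      (∀ t y, e (act0 Sy 𝔪 Δs ψ t y)
        = GB.B8.LevelStage.locAct (actN O pr' hpr' M)
            (RingHom.ker (lam' : MvPolynomial σ' O →+* κ))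
            (rename f (ρ t)) (e y)) ∧
      (∀ s, s ∉ Q → ρ (X s) = X s) ∧ lamBase.comp ρ = lamTop := by
  subst h𝔪
  obtain ⟨e₁, ρ, he₁, hρ, hlamρ⟩ :=
    exists_baseEquiv Sy hℓ hr hsurj M lamBase lamTop α β Q hN hQM hTW haway
  -- the relabelling
  have hren : Function.Surjective
      (rename f : Sy.𝕋 O →ₐ[O] MvPolynomial σ' O) := rename_surjective f hfs
  have hact : actN O (prSy Sy) (prSy_prime Sy) M
      = (actN O pr' hpr' M).comp (rename f : Sy.𝕋 O →ₐ[O] MvPolynomial σ' O) :=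
    actN_comp_rename O (prSy Sy) (prSy_prime Sy) pr' hpr' f hf M
  let e₂ := locSubEquivKer (rename f : Sy.𝕋 O →ₐ[O] MvPolynomial σ' O) hren
    (actN O (prSy Sy) (prSy_prime Sy) M) (actN O pr' hpr' M) hact lamBase lam' hlam
  -- the base of the tower
  let e₀ := BaseGamma0.baseEquiv Sy (RingHom.ker (lamTop : Sy.𝕋 O →+* κ)) (Theta Δs ψ 0)
  refine ⟨(e₀.symm.trans e₁.symm).trans e₂, ρ, fun t y => ?_, hρ, hlamρ⟩
  -- equivariance
  have h0 : e₀.symm (act0 Sy (RingHom.ker (lamTop : Sy.𝕋 O →+* κ)) Δs ψ t y)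
      = Base.locSubAct (HeckeActH.act0 Sy O) (RingHom.ker (lamTop : Sy.𝕋 O →+* κ)) t
          (e₀.symm y) := by
    apply e₀.injective
    rw [LinearEquiv.apply_symm_apply]
    show _ = BaseGamma0.baseEquiv Sy _ (Theta Δs ψ 0) _
    rw [BaseGamma0.baseEquiv_act]
    show _ = Base.locSubAct _ _ t (e₀ (e₀.symm y))
    rw [LinearEquiv.apply_symm_apply]
  have h1 : e₁.symm (Base.locSubAct (HeckeActH.act0 Sy O)
        (RingHom.ker (lamTop : Sy.𝕋 O →+* κ)) t (e₀.symm y))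
      = GB.B8.LevelStage.locAct (actN O (prSy Sy) (prSy_prime Sy) M)
          (RingHom.ker (lamBase : Sy.𝕋 O →+* κ)) (ρ t) (e₁.symm (e₀.symm y)) := by
    apply e₁.injective
    rw [LinearEquiv.apply_symm_apply, he₁, LinearEquiv.apply_symm_apply]
  rw [LinearEquiv.trans_apply, LinearEquiv.trans_apply, h0, h1]
  exact locSubEquivKer_act _ hren _ _ hact lamBase lam' hlam (ρ t) _

end Base


/-! ### transport of a `FreeLevel` along an equality of the diamond orders -/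

section CastN

variable {O : Type} [CommRing O] {𝕋 : Type} [CommRing 𝕋] [Algebra O 𝕋]
  {M0 : Type} [AddCommGroup M0] [Module O M0] {act0 : 𝕋 →ₐ[O] Module.End O M0}
  {k : ℕ} {N₁ N₂ : Fin k → ℕ}

/-- the index equivalence induced by an equality of the orders -/
def idxCongr (h : N₁ = N₂) (d : ℕ) :
    ((∀ i : Fin k, Fin (N₁ i)) × Fin d) ≃ ((∀ i : Fin k, Fin (N₂ i)) × Fin d) :=
  Equiv.prodCongr (Equiv.piCongrRight fun i => finCongr (congrFun h i)) (Equiv.refl _)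

theorem idxCongr_symm_val (h : N₁ = N₂) (d : ℕ) (a : ∀ i : Fin k, Fin (N₂ i)) (j : Fin d)
    (i : Fin k) : ((((idxCongr h d).symm (a, j)).1 i : Fin (N₁ i)) : ℕ) = (a i : ℕ) := by
  subst h
  rfl

theorem idxCongr_symm_snd (h : N₁ = N₂) (d : ℕ) (a : ∀ i : Fin k, Fin (N₂ i)) (j : Fin d) :
    ((idxCongr h d).symm (a, j)).2 = j := rfl

/-- **transport of a `FreeLevel` along `N₁ = N₂`**: SAME module, diamonds, Hecke action, rank,
projection (all by `rfl`). -/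
noncomputable def castN (h : N₁ = N₂) (F : FreeLevel O 𝕋 M0 act0 k N₁) :
    FreeLevel O 𝕋 M0 act0 k N₂ where
  M := F.M
  act := F.act
  D := F.D
  D_pow := fun i => by
    have := F.D_pow i
    rwa [congrFun h i] at this
  D_comm := F.D_comm
  act_D := F.act_D
  d := F.d
  e := F.e
  basis := F.basis.reindex (idxCongr h F.d)
  basis_eq := by
    intro a j
    rw [Module.Basis.reindex_apply, ← Prod.mk.eta (p := (idxCongr h F.d).symm (a, j)),
      F.basis_eq, idxCongr_symm_snd]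
    have hfun : (fun i => ((((idxCongr h F.d).symm (a, j)).1 i : Fin (N₁ i)) : ℕ))
        = fun i => ((a i : Fin (N₂ i)) : ℕ) := funext fun i => idxCongr_symm_val h F.d a j i
    rw [hfun]
  π := F.π
  π_surjective := F.π_surjective
  ker_π := F.ker_π
  π_act := F.π_act
  basis0 := F.basis0
  basis0_eq := F.basis0_eq

@[simp] theorem castN_M (h : N₁ = N₂) (F : FreeLevel O 𝕋 M0 act0 k N₁) : (castN h F).M = F.M := rfl

@[simp] theorem castN_D (h : N₁ = N₂) (F : FreeLevel O 𝕋 M0 act0 k N₁) (i : Fin k) :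
    (castN h F).D i = F.D i := rfl

@[simp] theorem castN_act (h : N₁ = N₂) (F : FreeLevel O 𝕋 M0 act0 k N₁) (t : 𝕋) :
    (castN h F).act t = F.act t := rfl

@[simp] theorem castN_d (h : N₁ = N₂) (F : FreeLevel O 𝕋 M0 act0 k N₁) : (castN h F).d = F.d := rfl

@[simp] theorem castN_π (h : N₁ = N₂) (F : FreeLevel O 𝕋 M0 act0 k N₁) : (castN h F).π = F.π := rfl

@[simp] theorem castN_e (h : N₁ = N₂) (F : FreeLevel O 𝕋 M0 act0 k N₁) : (castN h F).e = F.e := rfl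

end CastN

/-! ## PART B : at a Taylor–Wiles set of the provider -/

open WeierstrassCurve WeierstrassCurve.Affine.Point
open GB.Setup.SetupPkg GB.B9.ProviderFlat.G1
  GB.B9.ProviderFlat.H1

section TWSetSec

variable {p : ℕ} [hpF : Fact p.Prime] {W : WeierstrassCurve ℤ}
  {hcard₁ : Nat.card (Submodule.torsionBy ℤ
    ((W.map (Int.castRingHom ℚ)).toAffine.baseChange (AlgebraicClosure ℚ)).Point p) = p ^ 2}
  {hker : GaloisFactorsThroughFiniteLevel
    (WeierstrassCurve.Affine.Point.galoisRepModuleEnd (K := AlgebraicClosure ℚ) ℚ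
      (W.map (Int.castRingHom ℚ)) p)}
  {M A : ℕ}

/-! ### the `Q`-free base -/

/-- the good primes at the base level: `ℓ` prime, good for `W`, `ℓ ∤ M`, `ℓ ≠ p` -/
abbrev I0 (W : WeierstrassCurve ℤ) (p M : ℕ) : Type :=
  {ℓ : ℕ // ℓ.Prime ∧ W.IsGoodPrimeFor ℓ ∧ ¬ ℓ ∣ M ∧ ℓ ≠ p}

/-- the prime of a good symbol -/
def pr0 (W : WeierstrassCurve ℤ) (p M : ℕ) : I0 W p M → ℕ := fun s => s.1

theorem pr0_prime (W : WeierstrassCurve ℤ) (p M : ℕ) (s : I0 W p M) : (pr0 W p M s).Prime := s.2.1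

variable (P : Pkg p W hcard₁ hker M A)

/-- the residual eigensystem of `W` at the base level: `T_ℓ ↦ a_ℓ(W)` -/
noncomputable def lam0 : MvPolynomial (I0 W p M) P.O →ₐ[P.O] P.k :=
  MvPolynomial.aeval fun s => ((W.apOfModel s.1 : ℤ) : P.k)

theorem lam0_X (s : I0 W p M) : lam0 P (X s) = ((W.apOfModel s.1 : ℤ) : P.k) := by
  rw [lam0, MvPolynomial.aeval_X]

/-- **`M_∅ = Hom(Γ₀(M), O)_{𝔪_∅}`**, the SAME type for every Taylor–Wiles set -/
abbrev Mbase : Type :=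
  GB.B8.LevelStage.locSub (actN P.O (pr0 W p M) (pr0_prime W p M) M)
    (RingHom.ker (lam0 P : MvPolynomial (I0 W p M) P.O →+* P.k))

/-- the Hecke action on `M_∅` -/
noncomputable abbrev actBase :
    MvPolynomial (I0 W p M) P.O →ₐ[P.O] Module.End P.O (Mbase P) :=
  GB.B8.LevelStage.locAct (actN P.O (pr0 W p M) (pr0_prime W p M) M)
    (RingHom.ker (lam0 P : MvPolynomial (I0 W p M) P.O →+* P.k))

theorem coe_actBase (t : MvPolynomial (I0 W p M) P.O) (y : Mbase P) :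
    ((actBase P t y : Mbase P) : Additive (Gamma0 M) →+ P.O)
      = actN P.O (pr0 W p M) (pr0_prime W p M) M t (y : Additive (Gamma0 M) →+ P.O) := rfl

/-- `M_∅` is a finite `O`-module -/
theorem finite_Mbase : Module.Finite P.O (Mbase P) := by
  haveI : NeZero M := P.neZeroM
  haveI : Module.Finite P.O (Additive (Gamma0 M) →+ P.O) := finite_hom P.O M
  haveI : IsNoetherian P.O (Additive (Gamma0 M) →+ P.O) := isNoetherian_of_isNoetherianRing_of_finite _ _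
  exact Module.Finite.of_injective (Submodule.subtype _) (Submodule.injective_subtype _)

/-! ### the relabelling at `Q` -/

variable {P} {g n : ℕ} (Q : TWSet P g n)

/-- the symbols of `Q`, relabelled by their primes -/
def sigQ : Q.Sy.ι₁ ⊕ Q.Sy.ι₂ → I0 W p M := fun s =>
  ⟨prSy Q.Sy s, prSy_prime Q.Sy s, Q.symbols_good s⟩

theorem pr0_sigQ (s : Q.Sy.ι₁ ⊕ Q.Sy.ι₂) : pr0 W p M (sigQ Q s) = prSy Q.Sy s := rfl

/-- every good prime at level `M` is a symbol of `Q`: a Taylor–Wiles prime or a good symbol -/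
theorem sigQ_surjective : Function.Surjective (sigQ Q) := by
  intro ℓ
  by_cases h : ℓ.1 ∣ Q.N
  · -- a Taylor–Wiles prime
    have h1 : ℓ.1 ∣ ∏ i, Q.qv i := by
      rcases (Nat.Prime.dvd_mul ℓ.2.1).mp h with h2 | h2
      · exact absurd h2 ℓ.2.2.2.1
      · exact h2
    obtain ⟨i, -, hi⟩ := (Prime.dvd_finsetProd_iff ℓ.2.1.prime _).mp h1
    have heq : ℓ.1 = Q.qv i := (Nat.prime_dvd_prime_iff_eq ℓ.2.1 (Q.prime i)).mp hi
    exact ⟨Sum.inr (Q.jOf i), Subtype.ext heq.symm⟩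
  · exact ⟨Sum.inl (⟨ℓ.1, ℓ.2.1, ℓ.2.2.1, h, ℓ.2.2.2.2⟩ :
      {ℓ : ℕ // ℓ.Prime ∧ W.IsGoodPrimeFor ℓ ∧ ¬ ℓ ∣ Q.N ∧ ℓ ≠ p}), rfl⟩

theorem lamBase_eq :
    Q.lamBase = (lam0 P).comp (rename (sigQ Q) : Q.Sy.𝕋 P.O →ₐ[P.O] MvPolynomial (I0 W p M) P.O) := by
  refine MvPolynomial.algHom_ext fun s => ?_
  rw [AlgHom.comp_apply, rename_X, lam0_X, Q.lamBase_X]
  rfl

/-! ### prime data with per-prime exponents, newest diamond = last prime -/

/-- the Taylor–Wiles primes in REVERSE order (the tower puts the newest step in front, so the `j`-th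
diamond of stage `g` is the diamond of `rRev (g - 1 - j) = qv j`) -/
def rRev : ℕ → ℕ := seq (fun i : Fin g => Q.qv (Fin.rev i)) (Fin.elim0 : Fin 0 → ℕ)

/-- the exponents, in the same order -/
def eRev (E : Fin g → ℕ) : ℕ → ℕ := seq (fun i : Fin g => E (Fin.rev i)) (Fin.elim0 : Fin 0 → ℕ)

/-- the cofactors -/
def cofRev : ℕ → ℕ := cof M (fun i : Fin g => Q.qv (Fin.rev i)) (Fin.elim0 : Fin 0 → ℕ)

theorem rRev_lt {i : ℕ} (h : i < g) : rRev Q i = Q.qv (Fin.rev ⟨i, h⟩) := seq_lt _ _ h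

theorem eRev_lt (E : Fin g → ℕ) {i : ℕ} (h : i < g) : eRev E i = E (Fin.rev ⟨i, h⟩) :=
  seq_lt _ _ h

theorem idx_rev (j : Fin g) : g - 1 - (j : ℕ) < g := by have := j.2; omega

theorem rev_idx (j : Fin g) : Fin.rev (⟨g - 1 - (j : ℕ), idx_rev j⟩ : Fin g) = j := by
  apply Fin.ext
  rw [Fin.val_rev]
  show g - (g - 1 - (j : ℕ) + 1) = (j : ℕ)
  have := j.2
  omega

/-- the prime of the `j`-th diamond is `qv j` -/
theorem rRev_idx (j : Fin g) : rRev Q (g - 1 - (j : ℕ)) = Q.qv j := by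
  rw [rRev_lt Q (idx_rev j), rev_idx]

/-- the exponent of the `j`-th diamond is `E j` -/
theorem eRev_idx (E : Fin g → ℕ) (j : Fin g) : eRev E (g - 1 - (j : ℕ)) = E j := by
  rw [eRev_lt E (idx_rev j), rev_idx]

theorem bigN_rev : bigN M (fun i : Fin g => Q.qv (Fin.rev i)) = Q.N := by
  unfold TWSet.N
  show M * ∏ i : Fin g, Q.qv (Fin.rev i) = M * ∏ i, Q.qv i
  congr 1
  exact Equiv.prod_comp Fin.revPerm Q.qv

/-- **the prime data at `Q` with per-prime exponents** (`p ^ E j ∣ qv j - 1`) -/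
theorem primeDataE (E : Fin g → ℕ) (hE : ∀ j, p ^ E j ∣ Q.qv j - 1) :
    PrimeData Q.N p g (rRev Q) (eRev E) (cofRev Q) := by
  have H₀ : PrimeData (bigN M (fun i : Fin g => Q.qv (Fin.rev i))) p (g + 0)
      (seq (fun i : Fin g => Q.qv (Fin.rev i)) (Fin.elim0 : Fin 0 → ℕ))
      (seq (fun _ : Fin g => 0) (Fin.elim0 : Fin 0 → ℕ))
      (cof M (fun i : Fin g => Q.qv (Fin.rev i)) (Fin.elim0 : Fin 0 → ℕ)) :=
    GB.B9.ProviderFlat.H1.primeData (p := p) (n := 0) (ef := (Fin.elim0 : Fin 0 → ℕ))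
      (fun a b h => Fin.rev_injective (Q.inj h)) (fun i => Q.prime _)
      (fun i => (Q.good _).2.1) (fun i => by rw [pow_zero]; exact one_dvd _)
      (fun a => a.elim0) (fun a => a.elim0) (fun a => a.elim0) (fun a => a.elim0)
      (fun a => a.elim0)
  refine ⟨H₀.prime, fun i hi => (bigN_rev Q).symm.trans (H₀.fact i hi), H₀.cop, ?_, H₀.inj, ?_⟩
  · intro i hi
    rw [eRev_lt E hi, rRev_lt Q hi]
    exact hE _
  · intro i hi
    exact seq_ge _ _ (by omega)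

/-- the orders of the diamonds of stage `g` -/
theorem Nfun_eq_E (E : Fin g → ℕ) : Nfun p (eRev E) g = fun j => p ^ E j := by
  funext j
  rw [Nfun_apply, eRev_idx]


/-! ### the level `F_Q` over `M_∅` -/

section FQSec

variable (hp3 : Ok3W p W) (E : Fin g → ℕ) (hE : ∀ j, p ^ E j ∣ Q.qv j - 1)

/-- GATE-B's big level at `Q` with the per-prime exponents `E` (`g` Taylor–Wiles diamonds, no framed
step); the `j`-th diamond is the diamond of `qv j`, of order `p ^ E j` -/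
noncomputable abbrev BQ :
    FreeLevel P.O (Q.Sy.𝕋 P.O) (M0 Q.Sy Q.𝔪 (Δs p (eRev E)) (primeDataE Q E hE).psi)
      (act0 Q.Sy Q.𝔪 (Δs p (eRev E)) (primeDataE Q E hE).psi) g (Nfun p (eRev E) g) :=
  GB.B3.Plug.bigLevel Q.Sy Q.𝔪 (primeDataE Q E hE) (Q.hyp hp3) g

/-- the action of the symbols of `Q` on `M_∅`: the substitution `ρ` of `LevelIter` (which replaces
`U_{qv j}` by a root of the Hecke polynomial), then the relabelling by primes -/
noncomputable abbrev actQ (ρ : Q.Sy.𝕋 P.O →ₐ[P.O] Q.Sy.𝕋 P.O) :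
    Q.Sy.𝕋 P.O →ₐ[P.O] Module.End P.O (Mbase P) :=
  (actBase P).comp
    ((rename (sigQ Q) : Q.Sy.𝕋 P.O →ₐ[P.O] MvPolynomial (I0 W p M) P.O).comp ρ)

theorem actQ_apply (ρ : Q.Sy.𝕋 P.O →ₐ[P.O] Q.Sy.𝕋 P.O) (t : Q.Sy.𝕋 P.O) :
    actQ Q ρ t = actBase P (rename (sigQ Q) (ρ t)) := rfl

/-- away from the Taylor–Wiles symbols the action on `M_∅` is the obvious one -/
theorem actQ_X (ρ : Q.Sy.𝕋 P.O →ₐ[P.O] Q.Sy.𝕋 P.O) {s : Q.Sy.ι₁ ⊕ Q.Sy.ι₂}
    (hs : ρ (X s) = X s) : actQ Q ρ (X s) = actBase P (X (sigQ Q s)) := by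
  rw [actQ_apply, hs, rename_X]

/-- **the base of the tower at `Q` is `M_∅`**, equivariantly for `actQ Q ρ` -/
theorem exists_baseE :
    ∃ (ρ : Q.Sy.𝕋 P.O →ₐ[P.O] Q.Sy.𝕋 P.O)
      (e : M0 Q.Sy Q.𝔪 (Δs p (eRev E)) (primeDataE Q E hE).psi ≃ₗ[P.O] Mbase P),
      (∀ t y, e (act0 Q.Sy Q.𝔪 (Δs p (eRev E)) (primeDataE Q E hE).psi t y)
        = actQ Q ρ t (e y)) ∧
      (∀ s, s ∉ Q.Qset → ρ (X s) = X s) ∧ Q.lamBase.comp ρ = Q.lamTop := by
  classical
  haveI : NeZero M := P.neZeroM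
  obtain ⟨e, ρ, he, hρ, hlam⟩ :=
    exists_baseEquiv_M0 Q.Sy (Δs p (eRev E)) (primeDataE Q E hE).psi Q.injective_ℓ Q.injective_r
      Q.hsurj M Q.lamBase Q.lamTop Q.αl Q.βl Q.Qset Q.hN Q.hQM Q.hTW Q.haway Q.𝔪 Q.h𝔪
      (pr0 W p M) (pr0_prime W p M) (sigQ Q) (pr0_sigQ Q) (sigQ_surjective Q) (lam0 P)
      (lamBase_eq Q)
  exact ⟨ρ, e, he, hρ, hlam⟩

variable (ρ : Q.Sy.𝕋 P.O →ₐ[P.O] Q.Sy.𝕋 P.O)
  (e : M0 Q.Sy Q.𝔪 (Δs p (eRev E)) (primeDataE Q E hE).psi ≃ₗ[P.O] Mbase P)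
  (he : ∀ t y, e (act0 Q.Sy Q.𝔪 (Δs p (eRev E)) (primeDataE Q E hE).psi t y)
    = actQ Q ρ t (e y))

/-- **THE Taylor–Wiles module over the fixed base `M_∅`**: GATE-B's big level at `Q`, base moved to
`M_∅` along `e`, diamond orders `fun j => p ^ E j` (the `j`-th diamond is the diamond of `qv j`). -/
noncomputable def FQ :
    FreeLevel P.O (Q.Sy.𝕋 P.O) (Mbase P) (actQ Q ρ) g (fun j => p ^ E j) :=
  castN (Nfun_eq_E E) (mapBase (M0' := Mbase P) (BQ Q hp3 E hE) (actQ Q ρ) e he)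

@[simp] theorem FQ_M : (FQ Q hp3 E hE ρ e he).M = (BQ Q hp3 E hE).M := rfl

@[simp] theorem FQ_D (j : Fin g) : (FQ Q hp3 E hE ρ e he).D j = (BQ Q hp3 E hE).D j := rfl

@[simp] theorem FQ_act (t : Q.Sy.𝕋 P.O) :
    (FQ Q hp3 E hE ρ e he).act t = (BQ Q hp3 E hE).act t := rfl

@[simp] theorem FQ_d : (FQ Q hp3 E hE ρ e he).d = (BQ Q hp3 E hE).d := rfl

theorem FQ_π_apply (x : (BQ Q hp3 E hE).M) :
    (FQ Q hp3 E hE ρ e he).π x = e ((BQ Q hp3 E hE).π x) := rfl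

/-- the rank over `O[Δ_Q]` is the `O`-rank of `M_∅`, whatever `Q` -/
theorem FQ_d_eq : (FQ Q hp3 E hE ρ e he).d = Module.finrank P.O (Mbase P) := by
  rw [Module.finrank_eq_card_basis (FQ Q hp3 E hE ρ e he).basis0, Fintype.card_fin]

/-- `0 < d` (`W` is residually modular of level `M`) -/
theorem BQ_d_pos : 0 < (BQ Q hp3 E hE).d := by
  classical
  haveI : NeZero M := P.neZeroM
  exact GB.B8.LevelPlug.bigLevel_d_pos_of_hres Q.Sy Q.𝔪 (primeDataE Q E hE)
    (Q.hyp hp3) Q.injective_ℓ Q.injective_r Q.hsurj M Q.lamBase Q.lamTop Q.αl Q.βl Q.Qset Q.hN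
    Q.hQM Q.hTW Q.haway Q.h𝔪 W Q.hres Q.symbols_good Q.hκp Q.lamBase_X g

end FQSec

end TWSetSec

end GE6.Inst.FreeLevelInst

end Fermat.Agent.GE8.P3B
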