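/-
GATE-E / E6-INST, node N7b BASE-T INSTANCE at a bundle `P : Pkg` (helper64; RULING N7 of helper12,
board 7678): **`(LT P, eL P)` = THE `L` of `BaseInput`**.

* `LTP P := LT P.O M ↑P.S0 P.theta` (the `maxθ`-primary part of `P.O ⊗ Lam M`, a
  `Tloc P.O P.theta`-module by `LocModule.locModule`, faithful: `BaseTLoc.lsmul_injective`);
* `renP P : MvPolynomial (I0 W p M) P.O →ₐ P.O ⊗ heckeAlgebra M 2 ↑P.S0` (`X_ℓ ↦ 1 ⊗ T_ℓ`), onto,
  `ker_lam0 : ker (lam0 P) = renP⁻¹ (maxθ P.O P.theta)`;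
* `exists_eLP` (squarefree `M`): `eL : Mbase P ≃ₗ[P.O] LTP P` with `tensHom (eL y) = y`,
  `eL (actBase P t y) = (renP t) • eL y` and `eL (actBase P (X ℓ) y) = piT (T_ℓ) • eL y`
  (helper74's EB2 `exists_locEquiv_of_squarefree` + `P.exists_nonEis` + `BaseTLoc.exists_eL`).
-/
import Mathlib
import Fermat.Agent.GE6.Inst.BaseTLoc
import Fermat.Agent.GE8.P3B.GE6.Inst.FreeLevelInst
import Fermat.Agent.GE8.P3B.GE9.Eta.Base.LocBridgeBnd
import Fermat.Agent.GE8.P3B.StepGen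
import Fermat.Agent.GE8.P3B.Ok3W

/- TWIN (helper6 B4 generator; conventions of helper24 / helper86) of `Fermat.Agent.GE6.Inst.BaseTPkg` with `p ≠ 3` relaxed to `Ok3A Sy 𝔪 p` / `Ok3W p W` (RISK-5 fix (B), step B4); everything below lives in the wrapper namespace `Fermat.Agent.GE8.P3B`. -/
set_option linter.dupNamespace false
open Fermat Fermat.Agent Fermat.Agent.GB Fermat.Agent.GB.B4 Fermat.Agent.GB.B4.Datum Fermat.Agent.GB.B4.Datum.Carrier Fermat.Agent.GB.B8 Fermat.Agent.GB.B8.LevelGen Fermat.Agent.GB.B8.LevelStage Fermat.Agent.GB.Setup Fermat.Agent.GB.Setup.SetupPkg Fermat.Agent.GE6 Fermat.Agent.GE6.Inst Fermat.Agent.GE6.Inst.BaseTInst Fermat.Agent.GE6.Inst.BaseTLoc Fermat.Agent.GE9 Fermat.Agent.GE9.Eta Fermat.Agent.GE9.Eta.Base Fermat.Agent.GE9.Eta.Base.LocBridge Fermat.Agent.GJ Fermat.Agent.GJ.J2 Fermat.Agent.GJ.J2.Lat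

namespace Fermat.Agent.GE8.P3B

set_option autoImplicit false
set_option linter.unusedSectionVars false
set_option linter.style.haveILetI false

noncomputable section

open scoped TensorProduct
open IsLocalRing CuspForm ModularCurve.Period CongruenceSubgroup MvPolynomial
open WeierstrassCurve WeierstrassCurve.Affine.Point

namespace GE6.Inst.BaseTPkg

open GB.Setup.SetupPkg
open GB.B4.Datum.Carrier
open GB.B8.LevelStage GB.B8.LevelGen
open GJ.J2.Lat
open GE9.Eta.Base GE9.Eta.Base.LocBridge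
  GE9.Eta.Base.LocBridgeBnd
open GE6.Inst.FreeLevelInst GE6.Inst.BaseTInst
  GE6.Inst.BaseTLoc

variable {p : ℕ} [hpF : Fact p.Prime] {W : WeierstrassCurve ℤ}
  {hcard₁ : Nat.card (Submodule.torsionBy ℤ
    ((W.map (Int.castRingHom ℚ)).toAffine.baseChange (AlgebraicClosure ℚ)).Point p) = p ^ 2}
  {hker : GaloisFactorsThroughFiniteLevel
    (WeierstrassCurve.Affine.Point.galoisRepModuleEnd (K := AlgebraicClosure ℚ) ℚ
      (W.map (Int.castRingHom ℚ)) p)}
  {M A : ℕ} (P : Pkg p W hcard₁ hker M A)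

theorem pr0_not_dvd (s : I0 W p M) : ¬ pr0 W p M s ∣ M := s.2.2.2.1

/-- a good symbol is outside `S0`. -/
theorem pr0_notMem_S0 (s : I0 W p M) : pr0 W p M s ∉ (↑P.S0 : Set ℕ) := by
  intro h
  simp only [Pkg.S0, Finset.coe_union, Set.mem_union, Finset.mem_coe] at h
  rcases h with (h | h) | h
  · exact s.2.2.2.1 (Nat.dvd_of_mem_primeFactors h)
  · exact s.2.2.2.2 (Finset.mem_singleton.mp h)
  · exact s.2.2.1 (Int.natCast_dvd.mpr (Nat.dvd_of_mem_primeFactors h))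

/-- every prime outside `S0` is a good symbol. -/
theorem exists_symbol (ℓ : ℕ) (hℓ : ℓ.Prime) (hℓS : ℓ ∉ (↑P.S0 : Set ℕ)) :
    ∃ s : I0 W p M, pr0 W p M s = ℓ := by
  obtain ⟨h1, h2, h3⟩ := P.good_of_notMem_S0 hℓ hℓS
  exact ⟨⟨ℓ, hℓ, h1, h2, h3⟩, rfl⟩

variable [NeZero M]

/-- the Hecke operator of a good symbol. -/
abbrev genP (s : I0 W p M) : ↥(heckeAlgebra M 2 (↑P.S0 : Set ℕ)) :=
  gen M (↑P.S0 : Set ℕ) (pr0 W p M) (pr0_prime W p M) pr0_not_dvd (pr0_notMem_S0 P) s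

theorem genP_eq (s : I0 W p M) :
    genP P s = heckeAlgebra.T s.2.1 s.2.2.2.1 (pr0_notMem_S0 P s) := rfl

/-- the symbols-to-Hecke map at the base. -/
abbrev renP : MvPolynomial (I0 W p M) P.O →ₐ[P.O] P.O ⊗[ℤ] ↥(heckeAlgebra M 2 (↑P.S0 : Set ℕ)) :=
  ren P.O M (↑P.S0 : Set ℕ) (pr0 W p M) (pr0_prime W p M) pr0_not_dvd (pr0_notMem_S0 P)

theorem renP_surjective : Function.Surjective (renP P) :=
  ren_surjective P.O M (↑P.S0 : Set ℕ) (pr0 W p M) (pr0_prime W p M) pr0_not_dvd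
    (pr0_notMem_S0 P) (exists_symbol P)

/-- **`ker lam0 = renP⁻¹ (maxθ)`**. -/
theorem ker_lam0 :
    RingHom.ker (lam0 P : MvPolynomial (I0 W p M) P.O →+* P.k)
      = (maxθ P.O P.theta).comap (renP P) :=
  comap_ren_maxθ P.theta (pr0 W p M) (pr0_prime W p M) pr0_not_dvd (pr0_notMem_S0 P) (lam0 P)
    (fun s => by rw [lam0_X]; exact (P.theta_T s.2.1 s.2.2.2.1 (pr0_notMem_S0 P s)).symm)

/-- **the base Hecke module of the engine.** -/
abbrev LTP : Type := LT P.O M (↑P.S0 : Set ℕ) P.theta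

instance ker_lam0_isMaximal :
    (RingHom.ker (lam0 P : MvPolynomial (I0 W p M) P.O →+* P.k)).IsMaximal := by
  refine RingHom.ker_isMaximal_of_surjective _ fun y => ?_
  obtain ⟨c, rfl⟩ := residue_surjective y
  exact ⟨C c, by
    show lam0 P (C c) = _
    rw [← MvPolynomial.algebraMap_eq, AlgHom.commutes]
    rfl⟩

/-- helper2's `L` at the base is `LTP P`. -/
theorem locSub_actLam_eq_LTP :
    locSub (actLam P.O M (pr0 W p M) (pr0_prime W p M))
        (RingHom.ker (lam0 P : MvPolynomial (I0 W p M) P.O →+* P.k))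
      = locSub (tA P.O M (↑P.S0 : Set ℕ)) (maxθ P.O P.theta) :=
  locSub_actLam_eq P.theta (pr0 W p M) (pr0_prime W p M) pr0_not_dvd (pr0_notMem_S0 P) _
    (exists_symbol P) (ker_lam0 P)

/-- **N7b, `eL P`**: at a squarefree level, `Mbase P ≃ₗ[P.O] LTP P`, inverse to `tensHom`,
intertwining `actBase P` with the `Tloc`-module structure of record. -/
theorem exists_eLP (hM : Squarefree M) :
    ∃ eL : Mbase P ≃ₗ[P.O] LTP P,
      (∀ y : Mbase P, tensHom M P.O ((eL y : LTP P) : P.O ⊗[ℤ] Lam M)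
        = (y : Additive (Gamma0 M) →+ P.O)) ∧
      (∀ (t : MvPolynomial (I0 W p M) P.O) (y : Mbase P),
        eL (actBase P t y)
          = algebraMap (P.O ⊗[ℤ] ↥(heckeAlgebra M 2 (↑P.S0 : Set ℕ))) (Tloc P.O P.theta)
              (renP P t) • eL y) ∧
      ∀ (s : I0 W p M) (y : Mbase P),
        eL (actBase P (X s) y)
          = piT P.O P.theta (heckeAlgebra.T s.2.1 s.2.2.2.1 (pr0_notMem_S0 P s)) • eL y := by
  haveI : Module.Finite P.O (Additive (Gamma0 M) →+ P.O) := finite_hom P.O M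
  -- a non-Eisenstein symbol
  obtain ⟨ℓ, hℓ, -, hgood, hℓM, hℓp, hne⟩ := P.exists_nonEis ∅
  let s₀ : I0 W p M := ⟨ℓ, hℓ, hgood, hℓM, hℓp⟩
  have hτ : (X s₀ - C (((pr0 W p M s₀ + 1 : ℕ) : P.O)) : MvPolynomial (I0 W p M) P.O)
      ∉ RingHom.ker (lam0 P : MvPolynomial (I0 W p M) P.O →+* P.k) := by
    intro hmem
    rw [RingHom.mem_ker] at hmem
    have h1 : lam0 P (X s₀ - C (((pr0 W p M s₀ + 1 : ℕ) : P.O))) = 0 := hmem
    rw [map_sub, lam0_X, ← MvPolynomial.algebraMap_eq, AlgHom.commutes, map_natCast,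
      sub_eq_zero] at h1
    apply hne
    rw [h1]
    show ((ℓ + 1 : ℕ) : P.k) = _
    push_cast
    rfl
  obtain ⟨e, he1, -, he3⟩ := exists_locEquiv_of_squarefree (O := P.O) (pr0 W p M)
    (pr0_prime W p M) M hM
    (RingHom.ker (lam0 P : MvPolynomial (I0 W p M) P.O →+* P.k)) s₀ hℓM hτ
  obtain ⟨eL, hcoe, hP, hX⟩ := exists_eL (Y' := Mbase P) P.theta (pr0 W p M) (pr0_prime W p M)
    pr0_not_dvd (pr0_notMem_S0 P) _ (exists_symbol P) (ker_lam0 P) (actBase P) e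
    (fun t y => he3 t y)
  refine ⟨eL, fun y => ?_, hP, hX⟩
  rw [hcoe, he1]

end GE6.Inst.BaseTPkg

end

end Fermat.Agent.GE8.P3B
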