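/-
GATE-E (S59) / ENGINE-INST item (i), file 3 (helper51): **the level `F_Q` over the `Q`-free base
`M_∅`, in the spelling of GATE-B's two-module objects.**

`GE6/Inst/FreeLevelInst.FQ` is built on `Plug.bigLevel Q.Sy Q.𝔪 H h g`.  GATE-B's consumers of the
twisted Hecke action (`ProviderFlat/G2` : `T`, `a₁`, `a₁_D`; `G3Q`; `G4H1.h1_G2` = (1pt);
`G4B5`/`HnuPlug.hB5_plug` = (B5)) are stated on `(Plug.tw Sy 𝔪 H h s k c hc hc1).L1`, which at
`s = 0` is `FamCoinv` of `Plug.bigLevel … (0 + g)` over the EMPTY family of framed diamonds — the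
same module up to `0 + g` vs `g` and a trivial quotient, but not by `rfl`.  This file gives the level
directly on that object, so that `G2.a₁ …` is an action on `(FQ1 …).M` BY `rfl`:

* `twE Q hp3 E hE c hc hc1` : `Plug.tw Q.Sy Q.𝔪 (primeDataE Q E hE) (Q.hyp hp3) 0 g c hc hc1`
  (`c : Fin 0 → P.O` arbitrary — the caller fixes the spelling he uses for `G2`);
* `Nfun0_eq_E` : its diamond orders are `fun j => p ^ E j` (the `j`-th diamond = diamond of `qv j`);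
* **`FQ1 Q hp3 E hE c hc hc1 ρ e he : FreeLevel P.O (Q.Sy.𝕋 P.O) (Mbase P) (actQ Q ρ) g
  (fun j => p ^ E j)`** with `FQ1_M FQ1_D FQ1_act FQ1_d FQ1_π_apply` (`rfl`), `FQ1_d_eq`,
  `twE_d_pos`; `(ρ, e, he)` from `FreeLevelInst.exists_baseE` (the base module of `tw.L1` IS
  `Final.M0 …`, the same as for `Plug.bigLevel`).
-/
import Fermat.Agent.GE8.P3B.GE6.Inst.FreeLevelInst
import Fermat.Agent.GE8.P3B.StepGen
import Fermat.Agent.GE8.P3B.Ok3W

/- TWIN (helper6 B4 generator; conventions of helper24 / helper86) of `Fermat.Agent.GE6.Inst.FreeLevelTw` with `p ≠ 3` relaxed to `Ok3A Sy 𝔪 p` / `Ok3W p W` (RISK-5 fix (B), step B4); everything below lives in the wrapper namespace `Fermat.Agent.GE8.P3B`. -/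
set_option linter.dupNamespace false
open Fermat Fermat.Agent Fermat.Agent.GB Fermat.Agent.GB.B3 Fermat.Agent.GB.B3.HeckeActH Fermat.Agent.GB.B3.RealLevel Fermat.Agent.GB.B3.TWChars Fermat.Agent.GB.B3.TWLevel Fermat.Agent.GB.B8 Fermat.Agent.GB.B8.LevelGen Fermat.Agent.GB.B8.LevelIter Fermat.Agent.GB.B9 Fermat.Agent.GB.B9.ProviderFlat Fermat.Agent.GB.B9.ProviderFlat.H1 Fermat.Agent.GB.Setup Fermat.Agent.GB.Setup.SetupPkg Fermat.Agent.GE6 Fermat.Agent.GE6.Inst Fermat.Agent.GE6.Inst.BaseIndep Fermat.Agent.GE6.Inst.MapBase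

namespace Fermat.Agent.GE8.P3B

set_option autoImplicit false
set_option linter.unusedSectionVars false
set_option linter.unusedVariables false
set_option linter.style.haveILetI false

open scoped MatrixGroups
open CongruenceSubgroup

namespace GE6.Inst.FreeLevelTw

open MvPolynomial
open GB.B3 GB.B3.TWLevel GB.B3.RealLevel
  GB.B3.HeckeActH GB.B3.TWChars GB.B3.FinalTW
  GB.B3.Final GB.B3.Tower
  GB.B8.LevelIter GB.B8.LevelGen
  GE6.Inst.BaseIndep GE6.Inst.MapBase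
  GE6.Inst.FreeLevelInst
open WeierstrassCurve WeierstrassCurve.Affine.Point
open GB.Setup.SetupPkg GB.B9.ProviderFlat.G1
  GB.B9.ProviderFlat.H1

variable {p : ℕ} [hpF : Fact p.Prime] {W : WeierstrassCurve ℤ}
  {hcard₁ : Nat.card (Submodule.torsionBy ℤ
    ((W.map (Int.castRingHom ℚ)).toAffine.baseChange (AlgebraicClosure ℚ)).Point p) = p ^ 2}
  {hker : GaloisFactorsThroughFiniteLevel
    (WeierstrassCurve.Affine.Point.galoisRepModuleEnd (K := AlgebraicClosure ℚ) ℚ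
      (W.map (Int.castRingHom ℚ)) p)}
  {M A : ℕ} {P : Pkg p W hcard₁ hker M A} {g n : ℕ} (Q : TWSet P g n)
  (hp3 : Ok3W p W) (E : Fin g → ℕ) (hE : ∀ j, p ^ E j ∣ Q.qv j - 1)
  (c : Fin 0 → P.O) (hc : ∀ v : Fin 0, c v ^ p ^ eRev E (0 + g - 1 - v) = 1)
  (hc1 : ∀ v, (1 : P.O) - c v ∈ Ideal.span {P.ϖ})

/-- GATE-B's `TWLevelData` at `Q` with NO framed step and per-prime exponents `E` -/
noncomputable abbrev twE :=
  GB.B3.Plug.tw Q.Sy Q.𝔪 (primeDataE Q E hE) (Q.hyp hp3) 0 g c hc hc1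

/-- the orders of its diamonds: the `j`-th one is the diamond of `qv j`, of order `p ^ E j` -/
theorem Nfun0_eq_E :
    (fun i : Fin g => Nfun p (eRev E) (0 + g) (Fin.natAdd 0 i)) = fun j => p ^ E j := by
  funext j
  rw [GB.B3.Plug.Nfun_natAdd, eRev_idx]

variable (ρ : Q.Sy.𝕋 P.O →ₐ[P.O] Q.Sy.𝕋 P.O)
  (e : M0 Q.Sy Q.𝔪 (Δs p (eRev E)) (primeDataE Q E hE).psi ≃ₗ[P.O] Mbase P)
  (he : ∀ t y, e (act0 Q.Sy Q.𝔪 (Δs p (eRev E)) (primeDataE Q E hE).psi t y)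
    = actQ Q ρ t (e y))

/-- **THE Taylor–Wiles module over `M_∅`, on GATE-B's `(Plug.tw … 0 g …).L1`.** -/
noncomputable def FQ1 :
    FreeLevel P.O (Q.Sy.𝕋 P.O) (Mbase P) (actQ Q ρ) g (fun j => p ^ E j) :=
  castN (Nfun0_eq_E E)
    (mapBase (M0' := Mbase P) (twE Q hp3 E hE c hc hc1).L1 (actQ Q ρ) e he)

@[simp] theorem FQ1_M :
    (FQ1 Q hp3 E hE c hc hc1 ρ e he).M = (twE Q hp3 E hE c hc hc1).L1.M := rfl

@[simp] theorem FQ1_D (j : Fin g) :
    (FQ1 Q hp3 E hE c hc hc1 ρ e he).D j = (twE Q hp3 E hE c hc hc1).L1.D j := rfl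

@[simp] theorem FQ1_act (t : Q.Sy.𝕋 P.O) :
    (FQ1 Q hp3 E hE c hc hc1 ρ e he).act t = (twE Q hp3 E hE c hc hc1).L1.act t := rfl

@[simp] theorem FQ1_d :
    (FQ1 Q hp3 E hE c hc hc1 ρ e he).d = (twE Q hp3 E hE c hc hc1).L1.d := rfl

theorem FQ1_π_apply (x : (twE Q hp3 E hE c hc hc1).L1.M) :
    (FQ1 Q hp3 E hE c hc hc1 ρ e he).π x = e ((twE Q hp3 E hE c hc hc1).L1.π x) := rfl

/-- the rank over `O[Δ_Q]` is the `O`-rank of `M_∅`, whatever `Q` -/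
theorem FQ1_d_eq :
    (FQ1 Q hp3 E hE c hc hc1 ρ e he).d = Module.finrank P.O (Mbase P) := by
  rw [Module.finrank_eq_card_basis (FQ1 Q hp3 E hE c hc hc1 ρ e he).basis0, Fintype.card_fin]

/-- `0 < d` -/
theorem twE_d_pos : 0 < (twE Q hp3 E hE c hc hc1).L1.d := by
  classical
  haveI : NeZero M := P.neZeroM
  exact GB.B8.LevelPlug.bigLevel_d_pos_of_hres Q.Sy Q.𝔪 (primeDataE Q E hE)
    (Q.hyp hp3) Q.injective_ℓ Q.injective_r Q.hsurj M Q.lamBase Q.lamTop Q.αl Q.βl Q.Qset Q.hN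
    Q.hQM Q.hTW Q.haway Q.h𝔪 W Q.hres Q.symbols_good Q.hκp Q.lamBase_X (0 + g)

end GE6.Inst.FreeLevelTw

end Fermat.Agent.GE8.P3B
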