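import Fermat.Agent.GE6.Inst.ModSide
import Fermat.Agent.GE8.P3B.GE6.Inst.FreeLevelTw
import Fermat.Agent.GE6.Inst.UnitInst
import Fermat.Agent.GE6.Inst.Ring
import Fermat.Agent.GE6.Inst.Trunc
import Fermat.Agent.GE8.P3B.StepGen
import Fermat.Agent.GE8.P3B.Ok3W

/- TWIN (helper6 B4 generator; conventions of helper24 / helper86) of `Fermat.Agent.GE6.Inst.Wire` with `p ≠ 3` relaxed to `Ok3A Sy 𝔪 p` / `Ok3W p W` (RISK-5 fix (B), step B4); everything below lives in the wrapper namespace `Fermat.Agent.GE8.P3B`. -/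
set_option linter.dupNamespace false
open Fermat Fermat.Agent Fermat.Agent.GB Fermat.Agent.GB.B3 Fermat.Agent.GB.B3.HeckeActH Fermat.Agent.GB.B3.RealLevel Fermat.Agent.GB.B3.TWChars Fermat.Agent.GB.B3.TWLevel Fermat.Agent.GB.B8 Fermat.Agent.GB.B8.LevelGen Fermat.Agent.GB.B8.LevelIter Fermat.Agent.GB.B9 Fermat.Agent.GB.B9.ProviderFlat Fermat.Agent.GB.B9.ProviderFlat.H1 Fermat.Agent.GB.E2 Fermat.Agent.GB.E2.TameGenAdic Fermat.Agent.GB.Setup Fermat.Agent.GB.Setup.SetupPkg Fermat.Agent.GE Fermat.Agent.GE.Graph Fermat.Agent.GE2 Fermat.Agent.GE2.DeltaQData Fermat.Agent.GE6 Fermat.Agent.GE6.Inst Fermat.Agent.GE6.Inst.AssemblyE Fermat.Agent.GE6.Inst.BaseIndep Fermat.Agent.GE6.Inst.MapBase Fermat.Agent.GE6.Inst.ModSide Fermat.Agent.GE6.Inst.UnitInst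

namespace Fermat.Agent.GE8.P3B

/-!
# GATE-E / E6 node N8 WIRE (helper72): the module side of E6 at GATE-B's named objects

`GE6/Inst/ModSide.ModSideStmt p S 𝒟 D₀ φ₀ L` (helper12) asks, for EVERY Taylor–Wiles set with its
labels `(P, φ, α, β, τ)` and labelled ring side `(π, g)`, for full exponents `E j = v_p(qv j − 1)`
and a `ModSideData` (a GATE-B `FreeLevel` over `L`, an `R_Q`-module structure on it, (UNIT) and the
`π`-semilinearity of `F.π`).  This file reduces it to ONE statement `NodeStmt` about GATE-B's NAMED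
objects at the Taylor–Wiles set `Q : G1.TWSet P r n` whose eigenvalues are THE LABELS
(`Q.al = α`, `Q.be = β`), on the module `(FreeLevelTw.twE Q hp3 E hE c hc hc1).L1.M` (on which
`ProviderFlat/G2.a₁` acts by `rfl`):

* `twSetOf P qv hinj hqv Pl φ α β hP hφ hαβ : TWSet P r n` with `qv`, `al := α`, `be := β`
  (`twSetOf_qv`, `twSetOf_al`, `twSetOf_be` : `rfl`);
* `exists_fullExp` : the full exponents `E j`, `qv j = p ^ E j * m + 1`, `p ∤ m`;
* `NodeStmt P hp3 𝒟 D₀ φ₀ L eL` : for every `Q`, full exponents `E`, every `c hc hc1`, every base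
  identification `(ρs, e₀, he)` of `FreeLevelInst.exists_baseE`, every deformation ring `DQ` of
  `𝒟 (image Q.qv)`, labels at `(Q.al, Q.be)` and labelled ring side `(π, g)`:
  `∃ T_Q, a : T_Q →ₐ End (twE …).L1.M, ψ : DQ.R →ₐ T_Q`, with
  (UNIT) `L1.D j m − m = a (ψ (g j)) m' − m'` and
  (SEMILIN) `eL (e₀ (L1.π (a (ψ y) m))) = φ₀ (π y) • eL (e₀ (L1.π m))`
  — N4 (MODQ: `T_Q, a, ψ`) + N5 (UNIT) + N6 (SEMILIN) + N7 (`L`, `eL`) of helper12's table 7604;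
* `actL`, `FL` : the level over `L` (`FreeLevelTw.FQ1` moved along `eL` by `MapBase.mapBase`);
* **`modSideStmt_of_nodeStmt`** : `NodeStmt ⟹ ModSideStmt p P.S0 𝒟 D₀ φ₀ L` (any `𝒟`);
* **`twLevelsEStmt_FL_of_nodeStmt`**, **`twLevelsEStmt_SO_of_nodeStmt`** : with helper72's
  `Ring.ringSide_FL/SO` and helper12's `ModSide.twLevelsEStmt_FL/SO`: `TWLevelsEStmt p D₀ φ₀ L`;
* **`e6_FL`**, **`e6_SO`** : with helper12's `Trunc`: `GE6.Stmt.TWLevelsStmt p D₀ φ₀ L`, the field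
  `htw` of `GE/Engine/Base.BaseInput`.
-/

set_option autoImplicit false
set_option linter.unusedSectionVars false
set_option linter.unusedVariables false
set_option linter.style.haveILetI false

open scoped MatrixGroups
open CongruenceSubgroup

namespace GE6.Inst.Wire

open IsLocalRing Function Polynomial GaloisRep
open GB.B3 GB.B3.TWLevel GB.B3.RealLevel
  GB.B3.HeckeActH GB.B3.TWChars GB.B3.FinalTW
  GB.B3.Final GB.B3.Tower
  GB.B8.LevelIter GB.B8.LevelGen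
  GE6.Inst.BaseIndep GE6.Inst.MapBase
  GE6.Inst.FreeLevelInst GE6.Inst.FreeLevelTw
  GE6.Inst.ModSide GE6.Inst.AssemblyE GE6.Inst.UnitInst
  GE.Graph GE2.DeltaQData GB.E2.TameGenAdic
open WeierstrassCurve WeierstrassCurve.Affine.Point
open GB.Setup.SetupPkg GB.B9.ProviderFlat.G1
  GB.B9.ProviderFlat.H1

/-- `ℚ̄`. -/
local notation "Qb" => AlgebraicClosure ℚ
/-- `G_ℚ`. -/
local notation "GQ" => (AlgebraicClosure ℚ ≃ₐ[ℚ] AlgebraicClosure ℚ)

variable {p : ℕ} [hpF : Fact p.Prime] {W : WeierstrassCurve ℤ}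
  {hcard₁ : Nat.card (Submodule.torsionBy ℤ
    ((W.map (Int.castRingHom ℚ)).toAffine.baseChange (AlgebraicClosure ℚ)).Point p) = p ^ 2}
  {hker : GaloisFactorsThroughFiniteLevel
    (WeierstrassCurve.Affine.Point.galoisRepModuleEnd (K := AlgebraicClosure ℚ) ℚ
      (W.map (Int.castRingHom ℚ)) p)}
  {M A : ℕ} (P : Pkg p W hcard₁ hker M A)

/-! ### the Taylor–Wiles set of a labelled family -/

section TWSetOf

variable {r n : ℕ} (qv : Fin r → ℕ) (hinj : Injective qv)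
  (hqv : ∀ i, (qv i).Prime ∧ qv i ∉ P.S0 ∧ p ^ (n + 1) ∣ qv i - 1)
  (Pl : Fin r → ValuationSubring Qb) (φ : Fin r → GQ) (α β : Fin r → P.k)
  (hP : ∀ j, (Pl j).LiesOverPrime (qv j)) (hφ : ∀ j, (Pl j).IsFrobeniusAt (φ j) (qv j))
  (hαβ : ∀ j, α j ≠ β j ∧
    LinearMap.charpoly (P.rhobar.ρ (φ j)) = (X - C (α j)) * (X - C (β j)))

include hqv in
theorem notMem_S0 (i : Fin r) : qv i ∉ (↑P.S0 : Set ℕ) := fun h =>
  (hqv i).2.1 (Finset.mem_coe.mp h)

/-- **the Taylor–Wiles set whose eigenvalues are the labels** `(α j, β j)`. -/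
def twSetOf : TWSet P r n where
  qv := qv
  inj := hinj
  prime := fun i => (hqv i).1
  notMem := notMem_S0 P qv hqv
  cong := fun i => (hqv i).2.2
  al := α
  be := β
  ne := fun i => (hαβ i).1
  sum := fun i =>
    (P.tw_roots (hqv i).1 (P.good_of_notMem_S0 (hqv i).1 (notMem_S0 P qv hqv i)).1
      (P.good_of_notMem_S0 (hqv i).1 (notMem_S0 P qv hqv i)).2.1
      (P.good_of_notMem_S0 (hqv i).1 (notMem_S0 P qv hqv i)).2.2
      (Pl i) (hP i) (φ i) (hφ i) (α i) (β i) (hαβ i).2).1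
  prod := fun i =>
    (P.tw_roots (hqv i).1 (P.good_of_notMem_S0 (hqv i).1 (notMem_S0 P qv hqv i)).1
      (P.good_of_notMem_S0 (hqv i).1 (notMem_S0 P qv hqv i)).2.1
      (P.good_of_notMem_S0 (hqv i).1 (notMem_S0 P qv hqv i)).2.2
      (Pl i) (hP i) (φ i) (hφ i) (α i) (β i) (hαβ i).2).2

@[simp] theorem twSetOf_qv : (twSetOf P qv hinj hqv Pl φ α β hP hφ hαβ).qv = qv := rfl

@[simp] theorem twSetOf_al : (twSetOf P qv hinj hqv Pl φ α β hP hφ hαβ).al = α := rfl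

@[simp] theorem twSetOf_be : (twSetOf P qv hinj hqv Pl φ α β hP hφ hαβ).be = β := rfl

end TWSetOf

/-! ### the full exponents -/

/-- **the full exponents** `E j = v_p(qv j − 1)`. -/
theorem exists_fullExp {r : ℕ} (qv : Fin r → ℕ) (hqv : ∀ i, (qv i).Prime) :
    ∃ E : Fin r → ℕ, ∀ j, ∃ m : ℕ, qv j = p ^ E j * m + 1 ∧ ¬ p ∣ m := by
  have hp : p.Prime := hpF.out
  have hex : ∀ j, ∃ e m : ℕ, ¬ p ∣ m ∧ qv j - 1 = p ^ e * m := fun j =>
    Nat.exists_eq_pow_mul_and_not_dvd (n := qv j - 1)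
      (by have := (hqv j).two_le; omega) p hp.ne_one
  choose E m hm1 hm2 using hex
  refine ⟨E, fun j => ⟨m j, ?_, hm1 j⟩⟩
  have h1 := (hqv j).two_le
  have h2 := hm2 j
  omega

theorem dvd_of_fullExp {q e m : ℕ} (h : q = p ^ e * m + 1) : p ^ e ∣ q - 1 := by
  subst h
  rw [Nat.add_sub_cancel]
  exact Dvd.intro _ rfl

/-! ### the node statement at GATE-B's named objects -/

section Node

variable {T : Type} [CommRing T] [Algebra P.O T]

/-- **E6-MOD at GATE-B's named objects** = N4 (MODQ) + N5 (UNIT) + N6 (SEMILIN) + N7 (BASE-T) of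
helper12's node table (board 7604), at the Taylor–Wiles set `Q` whose eigenvalues are the labels, on
the module `(twE Q hp3 E hE c hc hc1).L1.M`. -/
def NodeStmt (hp3 : Ok3W p W) (𝒟 : Finset ℕ → DefCondE P.O)
    (D0 : DeformationRingData P.O P.rhobar (𝒟 ∅)) (φ0 : D0.R →ₐ[P.O] T)
    (L : Type) [AddCommGroup L] [Module P.O L] [Module T L] (eL : Mbase P ≃ₗ[P.O] L) : Prop :=
  ∀ (r n : ℕ) (Q : TWSet P r n) (E : Fin r → ℕ) (hE : ∀ j, p ^ E j ∣ Q.qv j - 1),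
    (∀ j, ∃ m : ℕ, Q.qv j = p ^ E j * m + 1 ∧ ¬ p ∣ m) →
    ∀ (c : Fin 0 → P.O) (hc : ∀ v : Fin 0, c v ^ p ^ eRev E (0 + r - 1 - v) = 1)
      (hc1 : ∀ v, (1 : P.O) - c v ∈ Ideal.span {P.ϖ})
      (ρs : Q.Sy.𝕋 P.O →ₐ[P.O] Q.Sy.𝕋 P.O)
      (e0 : M0 Q.Sy Q.𝔪 (Δs p (eRev E)) (primeDataE Q E hE).psi ≃ₗ[P.O] Mbase P)
      (he : ∀ t y, e0 (act0 Q.Sy Q.𝔪 (Δs p (eRev E)) (primeDataE Q E hE).psi t y)
        = actQ Q ρs t (e0 y)),
      (∀ s, s ∉ Q.Qset → ρs (MvPolynomial.X s) = MvPolynomial.X s) →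
      Q.lamBase.comp ρs = Q.lamTop →
    ∀ (DQ : DeformationRingData P.O P.rhobar (𝒟 (Finset.univ.image Q.qv)))
      (Pl : Fin r → ValuationSubring Qb) (φ : Fin r → GQ) (τ : Fin r → GQ),
      (∀ j, (Pl j).LiesOverPrime (Q.qv j)) → (∀ j, (Pl j).IsFrobeniusAt (φ j) (Q.qv j)) →
      (∀ j, LinearMap.charpoly (P.rhobar.ρ (φ j)) = (X - C (Q.al j)) * (X - C (Q.be j))) →
      (∀ j, IsTameGenerator (Pl j) p (τ j)) →
      ∀ (π : DQ.R →ₐ[P.O] D0.R) (hπ : IsLocalHom (π : DQ.R →+* D0.R)) (g : Fin r → (DQ.R)ˣ),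
        Surjective π →
        RingHom.ker (π : DQ.R →+* D0.R) = Ideal.span (Set.range fun j => (g j : DQ.R) - 1) →
        (DQ.ρ.baseChangeAlong (π : DQ.R →+* D0.R) hπ).IsEquiv D0.ρ →
        (∀ j, LabelledAt DQ.ρ (ResidueField.map (algebraMap P.O DQ.R)) (Pl j) (φ j) (τ j)
          (Q.al j) (Q.be j) (g j)) →
        ∃ (TQ : Type) (_ : CommRing TQ) (_ : Algebra P.O TQ)
          (a : TQ →ₐ[P.O] Module.End P.O (twE Q hp3 E hE c hc hc1).L1.M)
          (ψ : DQ.R →ₐ[P.O] TQ),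
          (∀ (j : Fin r) (m : (twE Q hp3 E hE c hc hc1).L1.M),
            ∃ m' : (twE Q hp3 E hE c hc hc1).L1.M,
              (twE Q hp3 E hE c hc hc1).L1.D j m - m = a (ψ (g j : DQ.R)) m' - m') ∧
          (∀ (y : DQ.R) (m : (twE Q hp3 E hE c hc hc1).L1.M),
            eL (e0 ((twE Q hp3 E hE c hc hc1).L1.π (a (ψ y) m)))
              = φ0 (π y) • eL (e0 ((twE Q hp3 E hE c hc hc1).L1.π m)))

end Node

/-! ### the level over `L` -/

section LevelL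

variable {P} {g n : ℕ} (Q : TWSet P g n)
  (hp3 : Ok3W p W) (E : Fin g → ℕ) (hE : ∀ j, p ^ E j ∣ Q.qv j - 1)
  (c : Fin 0 → P.O) (hc : ∀ v : Fin 0, c v ^ p ^ eRev E (0 + g - 1 - v) = 1)
  (hc1 : ∀ v, (1 : P.O) - c v ∈ Ideal.span {P.ϖ})
  (ρs : Q.Sy.𝕋 P.O →ₐ[P.O] Q.Sy.𝕋 P.O)
  (e0 : M0 Q.Sy Q.𝔪 (Δs p (eRev E)) (primeDataE Q E hE).psi ≃ₗ[P.O] Mbase P)
  (he : ∀ t y, e0 (act0 Q.Sy Q.𝔪 (Δs p (eRev E)) (primeDataE Q E hE).psi t y)
    = actQ Q ρs t (e0 y))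
  {L : Type} [AddCommGroup L] [Module P.O L] (eL : Mbase P ≃ₗ[P.O] L)

/-- the action of the symbols of `Q` on `L` -/
noncomputable def actL : Q.Sy.𝕋 P.O →ₐ[P.O] Module.End P.O L :=
  (eL.conjAlgEquiv P.O).toAlgHom.comp (actQ Q ρs)

theorem actL_apply (t : Q.Sy.𝕋 P.O) (y : L) :
    actL Q ρs eL t y = eL (actQ Q ρs t (eL.symm y)) := rfl

theorem eL_actQ (t : Q.Sy.𝕋 P.O) (y : Mbase P) :
    eL (actQ Q ρs t y) = actL Q ρs eL t (eL y) := by
  rw [actL_apply, LinearEquiv.symm_apply_apply]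

/-- **THE Taylor–Wiles module over `L`**: `FreeLevelTw.FQ1` moved along `eL`. -/
noncomputable def FL :
    FreeLevel P.O (Q.Sy.𝕋 P.O) L (actL Q ρs eL) g (fun j => p ^ E j) :=
  mapBase (FQ1 Q hp3 E hE c hc hc1 ρs e0 he) (actL Q ρs eL) eL (eL_actQ Q ρs eL)

@[simp] theorem FL_M :
    (FL Q hp3 E hE c hc hc1 ρs e0 he eL).M = (twE Q hp3 E hE c hc hc1).L1.M := rfl

@[simp] theorem FL_D (j : Fin g) :
    (FL Q hp3 E hE c hc hc1 ρs e0 he eL).D j = (twE Q hp3 E hE c hc hc1).L1.D j := rfl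

@[simp] theorem FL_act (t : Q.Sy.𝕋 P.O) :
    (FL Q hp3 E hE c hc hc1 ρs e0 he eL).act t = (twE Q hp3 E hE c hc hc1).L1.act t := rfl

theorem FL_π_apply (x : (twE Q hp3 E hE c hc hc1).L1.M) :
    (FL Q hp3 E hE c hc hc1 ρs e0 he eL).π x = eL (e0 ((twE Q hp3 E hE c hc hc1).L1.π x)) := rfl

end LevelL

/-! ### the wiring -/

section Main

variable {T : Type} [CommRing T] [Algebra P.O T]

/-- **N8 WIRE**: the node statement at GATE-B's named objects gives helper12's `ModSideStmt`, for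
ANY family of deformation problems `𝒟` (`condFL`, `condSO`). -/
theorem modSideStmt_of_nodeStmt (hp3 : Ok3W p W) (𝒟 : Finset ℕ → DefCondE P.O)
    (D0 : DeformationRingData P.O P.rhobar (𝒟 ∅)) (φ0 : D0.R →ₐ[P.O] T)
    (L : Type) [AddCommGroup L] [Module P.O L] [Module T L] (eL : Mbase P ≃ₗ[P.O] L)
    (hnode : NodeStmt P hp3 𝒟 D0 φ0 L eL) :
    ModSideStmt p P.S0 𝒟 D0 φ0 L := by
  intro r n qv hinj hqv DQ Pl φ α β τ hP hφ hαβ hτ π hπ g hπs hker hπρ hlab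
  -- the full exponents
  obtain ⟨E, hEfull⟩ := exists_fullExp (p := p) qv fun i => (hqv i).1
  have hE : ∀ j, p ^ E j ∣ (twSetOf P qv hinj hqv Pl φ α β hP hφ hαβ).qv j - 1 := fun j => by
    obtain ⟨m, hm, -⟩ := hEfull j
    exact dvd_of_fullExp hm
  -- the base identification
  obtain ⟨ρs, e0, he, hρs, hlam⟩ :=
    exists_baseE (twSetOf P qv hinj hqv Pl φ α β hP hφ hαβ) E hE
  -- the node
  obtain ⟨TQ, _, _, a, ψ, hunit, hsemi⟩ :=
    hnode r n (twSetOf P qv hinj hqv Pl φ α β hP hφ hαβ) E hE hEfull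
      (fun v => v.elim0) (fun v => v.elim0) (fun v => v.elim0) ρs e0 he hρs hlam DQ Pl φ τ hP hφ
      (fun j => (hαβ j).2) hτ π hπ g hπs hker hπρ hlab
  refine ⟨E, hEfull, ⟨?_⟩⟩
  letI : Module D0.R L := Module.compHom L (φ0 : D0.R →+* T)
  letI inst1 : Module DQ.R
      (FL (twSetOf P qv hinj hqv Pl φ α β hP hφ hαβ) hp3 E hE (fun v => v.elim0)
        (fun v => v.elim0) (fun v => v.elim0) ρs e0 he eL).M := moduleOfHom a ψ
  haveI inst2 : IsScalarTower P.O DQ.R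
      (FL (twSetOf P qv hinj hqv Pl φ α β hP hφ hαβ) hp3 E hE (fun v => v.elim0)
        (fun v => v.elim0) (fun v => v.elim0) ρs e0 he eL).M := isScalarTower_of_hom a ψ
  exact
    { 𝕋 := (twSetOf P qv hinj hqv Pl φ α β hP hφ hαβ).Sy.𝕋 P.O
      act0 := actL (twSetOf P qv hinj hqv Pl φ α β hP hφ hαβ) ρs eL
      F := FL (twSetOf P qv hinj hqv Pl φ α β hP hφ hαβ) hp3 E hE (fun v => v.elim0)
        (fun v => v.elim0) (fun v => v.elim0) ρs e0 he eL
      instModule := inst1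
      instTower := inst2
      unit := fun j m => hunit j m
      semilin := fun y m => hsemi y m }

/-! ### `Smin ⊆ S0`, and the two engine problems -/

theorem smin_subset_S0 : P.Smin ⊆ P.S0 := by
  intro q hq
  rcases P.dvd_of_mem_Smin hq with rfl | h
  · exact Finset.mem_coe.mp P.hpS0
  · exact Finset.mem_coe.mp (P.hMS0 q (P.prime_of_mem_Smin hq) h)

theorem prime_of_mem_S0 : ∀ q ∈ P.S0, q.Prime := by
  intro q hq
  simp only [Pkg.S0, Finset.mem_union, Finset.mem_singleton] at hq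
  rcases hq with (h | rfl) | h
  · exact Nat.prime_of_mem_primeFactors h
  · exact hpF.out
  · exact Nat.prime_of_mem_primeFactors h

/-- **E6 for the flat problem, at GATE-B's named objects**: `TWLevelsEStmt` from the node
statement (the ring side is `Ring.ringSide_FL`, i.e. the landed S56 + `GE6/DefRing`). -/
theorem twLevelsEStmt_FL_of_nodeStmt (hp3 : Ok3W p W)
    (D0 : DeformationRingData P.O P.rhobar (condFL P.O p P.Smin ∅)) (φ0 : D0.R →ₐ[P.O] T)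
    (L : Type) [AddCommGroup L] [Module P.O L] [Module T L] (eL : Mbase P ≃ₗ[P.O] L)
    (hbar : condFL P.O p P.Smin ∅ (GaloisRepAdic.ofResidualGaloisRep P.rhobar))
    (hnode : NodeStmt P hp3 (condFL P.O p P.Smin) D0 φ0 L eL) :
    TWLevelsEStmt p D0 φ0 L :=
  twLevelsEStmt_FL P.hpO P.S0 P.Smin P.p_mem_Smin (smin_subset_S0 P) P.hmin D0 φ0 L
    (GE6.Inst.Ring.ringSide_FL p P.rhobar P.hp2 P.hpO P.habs P.hdet P.hsplit P.hTW
      P.S0 P.Smin P.p_mem_Smin (smin_subset_S0 P) (prime_of_mem_S0 P) P.hmin hbar)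
    (modSideStmt_of_nodeStmt P hp3 (condFL P.O p P.Smin) D0 φ0 L eL hnode)

/-- **E6 for the strict-ordinary problem, at GATE-B's named objects** (the FULL module at a level
`M` with `p ∥ M`, `p`-new case (a)). -/
theorem twLevelsEStmt_SO_of_nodeStmt (hp3 : Ok3W p W)
    (D0 : DeformationRingData P.O P.rhobar (condSO P.O p P.Smin ∅)) (φ0 : D0.R →ₐ[P.O] T)
    (L : Type) [AddCommGroup L] [Module P.O L] [Module T L] (eL : Mbase P ≃ₗ[P.O] L)
    (hbar : condSO P.O p P.Smin ∅ (GaloisRepAdic.ofResidualGaloisRep P.rhobar))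
    (hnode : NodeStmt P hp3 (condSO P.O p P.Smin) D0 φ0 L eL) :
    TWLevelsEStmt p D0 φ0 L :=
  twLevelsEStmt_SO P.hp2 P.hpO P.S0 P.Smin P.p_mem_Smin (smin_subset_S0 P) P.hmin D0 φ0 L
    (GE6.Inst.Ring.ringSide_SO p P.rhobar P.hp2 P.hpO P.habs P.hdet P.hsplit P.hTW
      P.S0 P.Smin P.p_mem_Smin (smin_subset_S0 P) (prime_of_mem_S0 P) P.hmin hbar)
    (modSideStmt_of_nodeStmt P hp3 (condSO P.O p P.Smin) D0 φ0 L eL hnode)

/-- **E6, flat problem** in the shape of the field `htw` of `GE/Engine/Base.BaseInput`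
(helper12's `Trunc.twLevelsStmt_of_twLevelsEStmt`). -/
theorem e6_FL (hp3 : Ok3W p W)
    (D0 : DeformationRingData P.O P.rhobar (condFL P.O p P.Smin ∅)) (φ0 : D0.R →ₐ[P.O] T)
    (L : Type) [AddCommGroup L] [Module P.O L] [Module T L] (eL : Mbase P ≃ₗ[P.O] L)
    (hbar : condFL P.O p P.Smin ∅ (GaloisRepAdic.ofResidualGaloisRep P.rhobar))
    (hnode : NodeStmt P hp3 (condFL P.O p P.Smin) D0 φ0 L eL) :
    GE6.Stmt.TWLevelsStmt p D0 φ0 L :=
  GE6.Inst.Trunc.twLevelsStmt_of_twLevelsEStmt hpF.out.pos D0 φ0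
    (twLevelsEStmt_FL_of_nodeStmt P hp3 D0 φ0 L eL hbar hnode)

/-- **E6, strict-ordinary problem (full module)** in the shape of `BaseInput.htw`. -/
theorem e6_SO (hp3 : Ok3W p W)
    (D0 : DeformationRingData P.O P.rhobar (condSO P.O p P.Smin ∅)) (φ0 : D0.R →ₐ[P.O] T)
    (L : Type) [AddCommGroup L] [Module P.O L] [Module T L] (eL : Mbase P ≃ₗ[P.O] L)
    (hbar : condSO P.O p P.Smin ∅ (GaloisRepAdic.ofResidualGaloisRep P.rhobar))
    (hnode : NodeStmt P hp3 (condSO P.O p P.Smin) D0 φ0 L eL) :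
    GE6.Stmt.TWLevelsStmt p D0 φ0 L :=
  GE6.Inst.Trunc.twLevelsStmt_of_twLevelsEStmt hpF.out.pos D0 φ0
    (twLevelsEStmt_SO_of_nodeStmt P hp3 D0 φ0 L eL hbar hnode)

end Main

end GE6.Inst.Wire

end Fermat.Agent.GE8.P3B
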