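/-
GATE-E (S59) / ENGINE-INST (helper51): **(B5) at the Taylor–Wiles diamonds with ANY number `s` of
framed steps** — in particular `s = 0`, which is what the engine of GATE-E needs for the binder
`hB5` of `GE6/Inst/UnitInst.hunit_of_labelled`.

GATE-B's `GB/B5/Glue/HnuPlug.hB5_plug` (helper35) and `ProviderFlat/G4B5.hB5_plug_L1` (helper6) are
stated for EXACTLY ONE framed step (`bigLevel Sy 𝔪 H h (1 + k)`, `Fin.natAdd 1 i`).  The proof does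
not use it; this file is the same proof with the number of diamonds `j` of the big level and the
index `i'` of the diamond FREE:

* `iotaVJ`, `coe_iotaVJ`, `iotaVJ_injective`, `iotaVJ_D`, `exists_tw_dataJ` : the common data at
  `bigLevel Sy 𝔪 H h j` (twins of `HnuPlug.iotaV …`);
* **`hB5_plugJ`** : `L` ANY level which is a quotient `π : (bigLevel … j).M ↠ L.M`, equivariant for
  ONE diamond (`π ∘ B.D i' = L.D i ∘ π`): at a DVR point `x` of `TQ` killing the annihilator of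
  `L.M / unitSub i`, `ρQ ⊗_x O'` is NOT unipotent on inertia at `r (j - 1 - i')`;
* `piOneG`, `piOneG_surjective`, `piOneG_D`, **`hB5_plugG_L1`** : at `(Plug.tw Sy 𝔪 H h s k c hc
  hc1).L1`, `i' := Fin.natAdd s i`, prime `r (k - 1 - i)` (twin of `G4B5.hB5_plug_L1`, `s` free);
* **`hB5_G2`** : the same at helper11's `G2` objects (`T := G2.T …`, `a₁ := G2.a₁ …`,
  `χ := ImageRing.chi`), with the generator formula `hι` of `G2.exists_twP_hecke` — the twin of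
  helper49's `G4H1.h1_G2` ((1pt)), same binder spelling;
* **`hB5_twE`** : the binder `hB5` of `UnitInst.hunit_of_labelled` VERBATIM at
  `L := (FreeLevelTw.twE Q hp3 E hE c hc hc1).L1` (`s = 0`, per-prime exponents `E j ≥ 1`),
  `r := Q.qv`, `T := G2.T …`, `a := G2.a₁ …`; (BND) discharged (`Q.N` squarefree).
-/
import Fermat.Agent.GE8.P3B.GB.B5.Glue.HnuPlug
import Fermat.Agent.GE8.P3B.GB.B9.ProviderFlat.G2
import Fermat.Agent.GE8.P3B.GB.B9.ProviderFlat.G7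
import Fermat.Agent.GE8.P3B.GE6.Inst.FreeLevelTw
import Fermat.Agent.GE8.P3B.StepGen
import Fermat.Agent.GE8.P3B.Ok3W

/- TWIN (helper6 B4 generator; conventions of helper24 / helper86) of `Fermat.Agent.GE6.Inst.B5Gen` with `p ≠ 3` relaxed to `Ok3A Sy 𝔪 p` / `Ok3W p W` (RISK-5 fix (B), step B4); everything below lives in the wrapper namespace `Fermat.Agent.GE8.P3B`. -/
set_option linter.dupNamespace false
open Fermat Fermat.Agent Fermat.Agent.Common_helper32 Fermat.Agent.GB Fermat.Agent.GB.B3 Fermat.Agent.GB.B3.ChiLevelMulti Fermat.Agent.GB.B3.EisGamma0 Fermat.Agent.GB.B3.GamH Fermat.Agent.GB.B3.HeckeAct Fermat.Agent.GB.B3.HeckeActH Fermat.Agent.GB.B3.RealLevel Fermat.Agent.GB.B3.TWChars Fermat.Agent.GB.B3.TWLevel Fermat.Agent.GB.B4 Fermat.Agent.GB.B4.Datum Fermat.Agent.GB.B4.Datum.TQFields Fermat.Agent.GB.B4.Twist Fermat.Agent.GB.B4.Twist.Asm Fermat.Agent.GB.B4.Twist.TwFinal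 Fermat.Agent.GB.B5 Fermat.Agent.GB.B5.Glue Fermat.Agent.GB.B9 Fermat.Agent.GB.B9.ProviderFlat Fermat.Agent.GB.B9.ProviderFlat.H1 Fermat.Agent.GB.Glue Fermat.Agent.GB.Glue.Points Fermat.Agent.GB.Setup Fermat.Agent.GB.Setup.SetupPkg Fermat.Agent.GE6 Fermat.Agent.GE6.Inst Fermat.Agent.GJ Fermat.Agent.GJ.J2 Fermat.Agent.GJ.J2.Lat Fermat.Agent.GM Fermat.Agent.GM.B

namespace Fermat.Agent.GE8.P3B

set_option autoImplicit false
set_option linter.unusedSectionVars false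
set_option linter.unusedVariables false
set_option linter.style.haveILetI false

open scoped MatrixGroups
open CongruenceSubgroup Polynomial IsLocalRing CuspForm
open GM.B ModularCurve.Period
open GB.B3 GB.B3.EisGamma0 GB.B3.GamH
open GB.B3.RealLevel GB.B3.HeckeActH GB.B3.HeckeAct
open GB.B3.TWChars GB.B3.Tower GB.B3.FinalTW
open GB.B3.Plug GB.B3.ChiLevelMulti GB.B3.TWLevel
open GB.B3.StepInst GB.B3.Final
open GJ.J2.Lat
open GB.B4.Twist.Asm GB.B4.Twist.TwFinal GB.B4.Twist.TwInst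
open GB.B5.Glue GB.B5.Glue.HnuPlug

namespace GE6.Inst.B5Gen

open Common_helper32

/-- local instance (Prop-valued class) -/
local instance factPrimeOffB5Gen {S : Set ℕ} (l : PrimesOff S) : Fact (l.1 : ℕ).Prime := ⟨l.1.2⟩

section Plug

variable {N p K : ℕ} [NeZero N] [hpF : Fact p.Prime] {r e N' : ℕ → ℕ}
variable (Sy : Symbols N)
variable {O : Type} [CommRing O] [IsDomain O] [IsDiscreteValuationRing O]
  [IsAdicComplete (maximalIdeal O) O] [CharZero O] [Finite (ResidueField O)]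
variable (𝔪 : Ideal (Sy.𝕋 O)) [𝔪.IsMaximal]
variable (H : PrimeData N p K r e N') {ϖ : O} {s0 : Sy.ι₁} (h : Plug.Hyp Sy 𝔪 p ϖ s0)
variable (j : ℕ)
variable {TQ : Type} [CommRing TQ] [IsLocalRing TQ] [Algebra O TQ]

/-! ### the common data: `ι`, the half-diamonds, `tw_ℂ`, `tw_O`, the `ι`-square -/

/-- the realisation of the big level inside the parabolic classes -/
noncomputable def iotaVJ
    (hbnd : ∀ y : Additive (GammaH (Theta (Δs p e) H.psi j)) →+ O,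
      IsLoc (actH Sy O (Theta (Δs p e) H.psi j)) 𝔪 y →
        y ∈ parabolicHoms O (GammaH (Theta (Δs p e) H.psi j)) O) :
    (bigLevel Sy 𝔪 H h j).M →ₗ[O]
      ↥(parabolicHoms O (GammaH (Theta (Δs p e) H.psi j)) O) :=
  LinearMap.codRestrict _ (bigReal Sy 𝔪 H h j).ι
    (fun x => hbnd _ (((bigReal Sy 𝔪 H h j).range _).1 ⟨x, rfl⟩))

theorem coe_iotaVJ
    (hbnd : ∀ y : Additive (GammaH (Theta (Δs p e) H.psi j)) →+ O,
      IsLoc (actH Sy O (Theta (Δs p e) H.psi j)) 𝔪 y →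
        y ∈ parabolicHoms O (GammaH (Theta (Δs p e) H.psi j)) O)
    (x : (bigLevel Sy 𝔪 H h j).M) :
    ((iotaVJ Sy 𝔪 H h j hbnd x :
        ↥(parabolicHoms O (GammaH (Theta (Δs p e) H.psi j)) O)) :
      Additive (GammaH (Theta (Δs p e) H.psi j)) →+ O)
      = (bigReal Sy 𝔪 H h j).ι x := rfl

theorem iotaVJ_injective
    (hbnd : ∀ y : Additive (GammaH (Theta (Δs p e) H.psi j)) →+ O,
      IsLoc (actH Sy O (Theta (Δs p e) H.psi j)) 𝔪 y →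
        y ∈ parabolicHoms O (GammaH (Theta (Δs p e) H.psi j)) O) :
    Function.Injective (iotaVJ Sy 𝔪 H h j hbnd) := fun x y hxy =>
  (bigReal Sy 𝔪 H h j).inj (by
    rw [← coe_iotaVJ Sy 𝔪 H h j hbnd x, ← coe_iotaVJ Sy 𝔪 H h j hbnd y, hxy])

/-- the diamond `i` of the big level is the diamond at the step `j - 1 - i` -/
theorem iotaVJ_D
    (hbnd : ∀ y : Additive (GammaH (Theta (Δs p e) H.psi j)) →+ O,
      IsLoc (actH Sy O (Theta (Δs p e) H.psi j)) 𝔪 y →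
        y ∈ parabolicHoms O (GammaH (Theta (Δs p e) H.psi j)) O)
    (i : Fin j) (y : (bigLevel Sy 𝔪 H h j).M) :
    iotaVJ Sy 𝔪 H h j hbnd ((bigLevel Sy 𝔪 H h j).D i y)
      = diaV (Theta (Δs p e) H.psi j) O (H.dd hpF.out (j - 1 - i))
          (iotaVJ Sy 𝔪 H h j hbnd y) := by
  apply Subtype.ext
  rw [coe_diaV, coe_iotaVJ, coe_iotaVJ, (bigReal Sy 𝔪 H h j).ι_D, diaLin_apply, dfun_apply]

/-- **the common data** of the plug instances, `j` diamonds. -/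
theorem exists_tw_dataJ (hj : j ≤ K)
    (hbnd : ∀ y : Additive (GammaH (Theta (Δs p e) H.psi j)) →+ O,
      IsLoc (actH Sy O (Theta (Δs p e) H.psi j)) 𝔪 y →
        y ∈ parabolicHoms O (GammaH (Theta (Δs p e) H.psi j)) O)
    (S : Finset ℕ) {N'' : ℕ} [NeZero N''] (hN'' : N'' = N * ∏ i : Fin j, r i)
    (hSN'' : ∀ ℓ : ℕ, ℓ.Prime → ℓ ∣ N'' → ℓ ∈ (↑S : Set ℕ)) (hNN'' : N ∣ N'')
    (twP : ↥(heckeAlgebra N'' 2 (↑S : Set ℕ)) →+* Module.End O (bigLevel Sy 𝔪 H h j).M)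
    (hT : ∀ (ℓ : ℕ) (hℓ : ℓ.Prime) (hℓN' : ¬ ℓ ∣ N'') (hℓS : ℓ ∉ (↑S : Set ℕ))
        (hℓN : ¬ ℓ ∣ N),
      haveI : Fact ℓ.Prime := ⟨hℓ⟩
      ∃ d : Gamma0 N,
        (∀ u : (ZMod N)ˣ, (u : ZMod N) = ((ℓ : ℕ) : ZMod N) →
          chi (Theta (Δs p e) H.psi j) d ^ 2 * Theta (Δs p e) H.psi j u = 1) ∧
        ∀ x : (bigLevel Sy 𝔪 H h j).M,
          (bigReal Sy 𝔪 H h j).ι (twP (heckeAlgebra.T hℓ hℓN' hℓS) x)
            = diaH (Theta (Δs p e) H.psi j) O d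
                (TH (Theta (Δs p e) H.psi j) O hℓN ((bigReal Sy 𝔪 H h j).ι x))) :
    ∃ (dℓ : PrimesOff (↑S : Set ℕ) → Gamma0 N)
      (twC : ↥(heckeAlgebra N'' 2 (↑S : Set ℕ)) →+*
        Module.End ℂ ↥(parabolicHoms ℂ (GammaH (Theta (Δs p e) H.psi j)) ℂ))
      (twO : ↥(heckeAlgebra N'' 2 (↑S : Set ℕ)) →+*
        Module.End O ↥(parabolicHoms O (GammaH (Theta (Δs p e) H.psi j)) O)),
      (∀ (l : PrimesOff (↑S : Set ℕ)) (u : (ZMod N)ˣ), (u : ZMod N) = ((l.1 : ℕ) : ZMod N) →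
        chi (Theta (Δs p e) H.psi j) (dℓ l) ^ 2 * Theta (Δs p e) H.psi j u = 1) ∧
      (∀ (l : PrimesOff (↑S : Set ℕ))
          (v : ↥(parabolicHoms ℂ (GammaH (Theta (Δs p e) H.psi j)) ℂ)),
        ((twC (formsGenS N'' (↑S : Set ℕ) l) v :
            ↥(parabolicHoms ℂ (GammaH (Theta (Δs p e) H.psi j)) ℂ)) :
            Additive (GammaH (Theta (Δs p e) H.psi j)) →+ ℂ)
          = diaH (Theta (Δs p e) H.psi j) ℂ (dℓ l)
              (GamH.TH (Theta (Δs p e) H.psi j) ℂ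
                (not_dvd_level (↑S : Set ℕ) hSN'' hNN'' l)
                (v : Additive (GammaH (Theta (Δs p e) H.psi j)) →+ ℂ))) ∧
      (∀ (l : PrimesOff (↑S : Set ℕ))
          (v : ↥(parabolicHoms O (GammaH (Theta (Δs p e) H.psi j)) O)),
        ((twO (formsGenS N'' (↑S : Set ℕ) l) v :
            ↥(parabolicHoms O (GammaH (Theta (Δs p e) H.psi j)) O)) :
            Additive (GammaH (Theta (Δs p e) H.psi j)) →+ O)
          = diaH (Theta (Δs p e) H.psi j) O (dℓ l)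
              (GamH.TH (Theta (Δs p e) H.psi j) O
                (not_dvd_level (↑S : Set ℕ) hSN'' hNN'' l)
                (v : Additive (GammaH (Theta (Δs p e) H.psi j)) →+ O))) ∧
      ∀ t y, iotaVJ Sy 𝔪 H h j hbnd (twP t y) = twO t (iotaVJ Sy 𝔪 H h j hbnd y) := by
  classical
  have hp : p.Prime := hpF.out
  -- the half-diamonds
  have hexd : ∀ l : PrimesOff (↑S : Set ℕ), ∃ d : Gamma0 N,
      (∀ u : (ZMod N)ˣ, (u : ZMod N) = ((l.1 : ℕ) : ZMod N) →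
        chi (Theta (Δs p e) H.psi j) d ^ 2 * Theta (Δs p e) H.psi j u = 1) ∧
      ∀ x : (bigLevel Sy 𝔪 H h j).M,
        (bigReal Sy 𝔪 H h j).ι
            (twP (heckeAlgebra.T l.1.2 (not_dvd_level' (↑S : Set ℕ) hSN'' l) l.2) x)
          = diaH (Theta (Δs p e) H.psi j) O d
              (TH (Theta (Δs p e) H.psi j) O
                (not_dvd_level (↑S : Set ℕ) hSN'' hNN'' l)
                ((bigReal Sy 𝔪 H h j).ι x)) := fun l =>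
    hT (l.1 : ℕ) l.1.2 (not_dvd_level' (↑S : Set ℕ) hSN'' l) l.2
      (not_dvd_level (↑S : Set ℕ) hSN'' hNN'' l)
  choose dℓ hdℓ hdℓT using hexd
  obtain ⟨twC, htwC, -⟩ := exists_tw_primeData H hp h.hp2 j hj hN'' (↑S : Set ℕ) hSN''
    (O := ℂ) dℓ hdℓ
  obtain ⟨twO, htwO, -⟩ := exists_tw_primeData H hp h.hp2 j hj hN'' (↑S : Set ℕ) hSN''
    (O := O) dℓ hdℓ
  refine ⟨dℓ, twC, twO, hdℓ, htwC, htwO, ?_⟩
  refine square_of_gens (iotaVJ Sy 𝔪 H h j hbnd) twP twO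
    (Set.range (formsGenS N'' (↑S : Set ℕ)))
    (GB.B4.Twist.TwHom.closure_range_formsGenS N'' (↑S : Set ℕ)) ?_
  rintro _ ⟨l, rfl⟩ y
  apply Subtype.ext
  have e0 := coe_iotaVJ Sy 𝔪 H h j hbnd (twP (formsGenS N'' (↑S : Set ℕ) l) y)
  have e4 := coe_iotaVJ Sy 𝔪 H h j hbnd y
  have e1 := htwO l (iotaVJ Sy 𝔪 H h j hbnd y)
  rw [e4] at e1
  have e3 := formsGenS_of_not_dvd N'' (↑S : Set ℕ) l (not_dvd_level' (↑S : Set ℕ) hSN'' l)
  have e2 := hdℓT l y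
  rw [← e3] at e2
  exact e0.trans (e2.trans e1.symm)

/-! ### (B5) at ONE diamond of a quotient of the big level -/

/-- **(B5), plug form, `j` diamonds**: `L` any level with a surjection
`π : (bigLevel … j).M ↠ L.M` which intertwines the diamond `i'` of the big level with the diamond
`i` of `L`.  At every local point `x` of `TQ` killing the annihilator of `L.M / unitSub i`,
`ρQ ⊗_x O'` is NOT unipotent on inertia at the prime `r (j - 1 - i')` of the diamond `i'`. -/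
theorem hB5_plugJ (hj : j ≤ K)
    (hbnd : ∀ y : Additive (GammaH (Theta (Δs p e) H.psi j)) →+ O,
      IsLoc (actH Sy O (Theta (Δs p e) H.psi j)) 𝔪 y →
        y ∈ parabolicHoms O (GammaH (Theta (Δs p e) H.psi j)) O)
    (S : Finset ℕ) (hpS : p ∈ S)
    {N'' : ℕ} [NeZero N''] (hN'' : N'' = N * ∏ i : Fin j, r i)
    (hSN'' : ∀ ℓ : ℕ, ℓ.Prime → ℓ ∣ N'' → ℓ ∈ (↑S : Set ℕ))
    (ρQ : GaloisRepAdic TQ)
    (χ : ↥(heckeAlgebra N'' 2 (↑S : Set ℕ)) →+* TQ)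
    {𝕋' : Type} [CommRing 𝕋'] [Algebra O 𝕋'] {M0' : Type} [AddCommGroup M0'] [Module O M0']
    {act0' : 𝕋' →ₐ[O] Module.End O M0'} {k : ℕ} {Nk : Fin k → ℕ} [∀ i, NeZero (Nk i)]
    (L : FreeLevel O 𝕋' M0' act0' k Nk) (hNk : ∀ i, p ∣ Nk i)
    (π : (bigLevel Sy 𝔪 H h j).M →ₗ[O] L.M) (hπ : Function.Surjective π)
    (i' : Fin j) (i : Fin k)
    (hπD : ∀ y, π ((bigLevel Sy 𝔪 H h j).D i' y) = L.D i (π y))
    (a : TQ →ₐ[O] Module.End O L.M) (a_D : ∀ t i, a t * L.D i = L.D i * a t)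
    (twM : ↥(heckeAlgebra N'' 2 (↑S : Set ℕ)) →+* Module.End O L.M)
    (ha : ∀ t, a (χ t) = twM t)
    (twP : ↥(heckeAlgebra N'' 2 (↑S : Set ℕ)) →+* Module.End O (bigLevel Sy 𝔪 H h j).M)
    (hfmk : ∀ t (y : (bigLevel Sy 𝔪 H h j).M), twM t (π y) = π (twP t y))
    (hT : ∀ (ℓ : ℕ) (hℓ : ℓ.Prime) (hℓN' : ¬ ℓ ∣ N'') (hℓS : ℓ ∉ (↑S : Set ℕ))
        (hℓN : ¬ ℓ ∣ N),
      haveI : Fact ℓ.Prime := ⟨hℓ⟩
      ∃ d : Gamma0 N,
        (∀ u : (ZMod N)ˣ, (u : ZMod N) = ((ℓ : ℕ) : ZMod N) →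
          chi (Theta (Δs p e) H.psi j) d ^ 2 * Theta (Δs p e) H.psi j u = 1) ∧
        ∀ x : (bigLevel Sy 𝔪 H h j).M,
          (bigReal Sy 𝔪 H h j).ι (twP (heckeAlgebra.T hℓ hℓN' hℓS) x)
            = diaH (Theta (Δs p e) H.psi j) O d
                (TH (Theta (Δs p e) H.psi j) O hℓN ((bigReal Sy 𝔪 H h j).ι x)))
    (hρ : ∀ (ℓ : ℕ) (hℓ : ℓ.Prime) (hℓN' : ¬ ℓ ∣ N'') (hℓS : ℓ ∉ (↑S : Set ℕ))
      (A : ValuationSubring Qb), A.LiesOverPrime ℓ → ∀ σ : GQ, A.IsFrobeniusAt σ ℓ →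
        LinearMap.charpoly (ρQ.ρ σ)
          = X ^ 2 - C (χ (heckeAlgebra.T hℓ hℓN' hℓS)) * X + C ((ℓ : TQ)))
    (hei : 1 ≤ e (j - 1 - i')) (hrp : r (j - 1 - i') ≠ p)
    {O' : Type} [CommRing O'] [IsDomain O'] [IsDiscreteValuationRing O']
    [IsAdicComplete (maximalIdeal O') O'] [Finite (ResidueField O')] [CharZero O']
    (hpO' : (p : O') ∈ maximalIdeal O') (x : TQ →+* O') (hx : IsLocalHom x)
    (hocc : ∀ t : TQ, (∀ m, a t m ∈ L.unitSub p hNk i) → x t = 0) :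
    ¬ (ρQ.baseChangeAlong x hx).IsUnipotentOnInertiaAt (r (j - 1 - i')) := by
  classical
  have hp : p.Prime := hpF.out
  have hNN'' : N ∣ N'' := Dvd.intro _ hN''.symm
  obtain ⟨dℓ, twC, twO, hdℓ, htwC, htwO, hιT⟩ :=
    exists_tw_dataJ Sy 𝔪 H h j hj hbnd S hN'' hSN'' hNN'' twP hT
  have hιD : ∀ y, iotaVJ Sy 𝔪 H h j hbnd ((bigLevel Sy 𝔪 H h j).D i' y)
      = diaV (Theta (Δs p e) H.psi j) O (H.dd hp (j - 1 - i'))
          (iotaVJ Sy 𝔪 H h j hbnd y) := fun y => iotaVJ_D Sy 𝔪 H h j hbnd i' y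
  have hπT : ∀ t y, π (twP t y) = a (χ t) (π y) := by
    intro t y
    rw [ha]
    exact (hfmk t y).symm
  have hlt : j - 1 - (i' : ℕ) < j := by have := i'.2; omega
  haveI : NeZero (p ^ e (j - 1 - i')) := ⟨pow_ne_zero _ hp.ne_zero⟩
  -- `∑_{l < p^E} D^l` lands in `unitSub`
  have hsum : ∀ m, ∑ l : Fin (p ^ e (j - 1 - i')), ((L.D i) ^ (l : ℕ)) m
      ∈ L.unitSub p hNk i := by
    intro m
    obtain ⟨E, hE⟩ : ∃ E, e (j - 1 - i') = E + 1 := ⟨e (j - 1 - i') - 1, by omega⟩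
    have h1 : ∑ l : Fin (p ^ e (j - 1 - i')), ((L.D i) ^ (l : ℕ)) m
        = (∑ l ∈ Finset.range (p ^ e (j - 1 - i')), (L.D i) ^ l) m := by
      rw [Fin.sum_univ_eq_sum_range (fun l => ((L.D i) ^ l) m), LinearMap.sum_apply]
    rw [h1, hE, pow_succ', geom_sum_mul_eq, Module.End.mul_apply]
    exact L.range_le_unitSub p hNk i (Submodule.mem_sup_left ⟨_, rfl⟩)
  refine GB.B5.Glue.HnuPoint.not_isUnipotentOnInertiaAt_of_squares_cyclic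
    (Theta (Δs p e) H.psi j)
    (FramePD.hθ H j hj) (FramePD.hodd hp h.hp2 j)
    _ (FramePD.hL H j hj) (FramePD.hnd H j hj)
    (FramePD.hdvd H j hj) (FramePD.hsq H j hj) _ _
    (FramePD.hpr H j hj) (FramePD.hprod H j hj)
    S hSN'' hNN'' dℓ hdℓ twC htwC
    (GB.B5.Glue.HnuPoint.zsmul_eq_zero_of_charZero (R := O)) twO htwO p h.hp2 hpS χ
    ρQ hρ hpO' x hx (FramePD.mem_L r j (j - 1 - i') hlt) hrp
    (H.dd hp (j - 1 - i')) (FramePD.chi_dd_mem_range H hp j hj (j - 1 - i') hlt)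
    (p ^ e (j - 1 - i')) (FramePD.chi_dd_pow H hp j (j - 1 - i'))
    (iotaVJ Sy 𝔪 H h j hbnd) (iotaVJ_injective Sy 𝔪 H h j hbnd) π hπ (fun t => twP t) a hιT hπT
    ((bigLevel Sy 𝔪 H h j).D i') hιD (L.D i) hπD
    (L.unitSub p hNk i)
    (fun t m hm => L.map_mem_unitSub p hNk i (a t) (fun l => a_D t l) hm) hsum
    (fun m hm => ?_) hocc
  have hm' : ((p ^ e (j - 1 - i') : ℕ) : O) • m ∈ L.unitSub p hNk i := by
    rw [Nat.cast_smul_eq_nsmul, ← natCast_zsmul]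
    exact hm
  refine L.mem_unitSub_of_smul_mem p hNk i _ (fun o ho => ?_) hm'
  rcases mul_eq_zero.mp ho with h0 | h0
  · exact absurd (Nat.cast_eq_zero.mp h0) (pow_ne_zero _ hp.ne_zero)
  · exact h0

/-! ### at `(Plug.tw Sy 𝔪 H h s k c hc hc1).L1`, any number `s` of framed steps -/

section PlugL1

variable (s k : ℕ) (c : Fin s → O) (hc : ∀ v : Fin s, c v ^ p ^ e (s + k - 1 - v) = 1)
  (hc1 : ∀ v, (1 : O) - c v ∈ Ideal.span {ϖ})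

/-- the orders of the Taylor–Wiles diamonds of `Plug.tw … s k …` are nonzero -/
instance neZero_Nfun_natAddG (i : Fin k) : NeZero (Nfun p e (s + k) (Fin.natAdd s i)) :=
  ⟨(Nfun_pos hpF.out e (s + k) _).ne'⟩

/-- the quotient map `(bigLevel …).M ↠ M¹` (`= fmk` at the trivial family) as a linear map -/
noncomputable def piOneG :
    (bigLevel Sy 𝔪 H h (s + k)).M →ₗ[O] (tw Sy 𝔪 H h s k c hc hc1).L1.M :=
  (famRange (frD (bigLevel Sy 𝔪 H h (s + k))) (fun _ => (1 : O))).mkQ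

theorem piOneG_apply (x : (bigLevel Sy 𝔪 H h (s + k)).M) :
    piOneG Sy 𝔪 H h s k c hc hc1 x
      = fmk (frD (bigLevel Sy 𝔪 H h (s + k))) (fun _ => (1 : O)) x := rfl

theorem piOneG_surjective : Function.Surjective (piOneG Sy 𝔪 H h s k c hc hc1) :=
  Submodule.mkQ_surjective (famRange (frD (bigLevel Sy 𝔪 H h (s + k))) (fun _ => (1 : O)))

/-- `π ∘ B.D (Fin.natAdd s i) = L1.D i ∘ π` -/
theorem piOneG_D (i : Fin k) (y : (bigLevel Sy 𝔪 H h (s + k)).M) :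
    piOneG Sy 𝔪 H h s k c hc hc1 ((bigLevel Sy 𝔪 H h (s + k)).D (Fin.natAdd s i) y)
      = (tw Sy 𝔪 H h s k c hc hc1).L1.D i (piOneG Sy 𝔪 H h s k c hc hc1 y) := rfl

/-- the step of the `i`-th Taylor–Wiles diamond -/
theorem idx_natAdd (i : Fin k) :
    s + k - 1 - ((Fin.natAdd s i : Fin (s + k)) : ℕ) = k - 1 - (i : ℕ) := by
  rw [Fin.val_natAdd]
  have := i.2
  omega

/-- **(B5) at the `i`-th Taylor–Wiles diamond, on `M¹ = (Plug.tw … s k …).L1.M`**, `s` free. -/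
theorem hB5_plugG_L1 (hk : s + k ≤ K)
    (hbnd : ∀ y : Additive (GammaH (Theta (Δs p e) H.psi (s + k))) →+ O,
      IsLoc (actH Sy O (Theta (Δs p e) H.psi (s + k))) 𝔪 y →
        y ∈ parabolicHoms O (GammaH (Theta (Δs p e) H.psi (s + k))) O)
    (S : Finset ℕ) (hpS : p ∈ S)
    {N'' : ℕ} [NeZero N''] (hN'' : N'' = N * ∏ i : Fin (s + k), r i)
    (hSN'' : ∀ ℓ : ℕ, ℓ.Prime → ℓ ∣ N'' → ℓ ∈ (↑S : Set ℕ))
    (ρQ : GaloisRepAdic TQ)
    (χ : ↥(heckeAlgebra N'' 2 (↑S : Set ℕ)) →+* TQ)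
    (hNk : ∀ i : Fin k, p ∣ Nfun p e (s + k) (Fin.natAdd s i))
    (a₁ : TQ →ₐ[O] Module.End O (tw Sy 𝔪 H h s k c hc hc1).L1.M)
    (a₁_D : ∀ t i, a₁ t * (tw Sy 𝔪 H h s k c hc hc1).L1.D i
      = (tw Sy 𝔪 H h s k c hc hc1).L1.D i * a₁ t)
    (tw₁ : ↥(heckeAlgebra N'' 2 (↑S : Set ℕ)) →+*
      Module.End O (tw Sy 𝔪 H h s k c hc hc1).L1.M)
    (ha : ∀ t, a₁ (χ t) = tw₁ t)
    (twP : ↥(heckeAlgebra N'' 2 (↑S : Set ℕ)) →+* Module.End O (bigLevel Sy 𝔪 H h (s + k)).M)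
    (hfmk : ∀ t (x : (bigLevel Sy 𝔪 H h (s + k)).M),
      tw₁ t (fmk (frD (bigLevel Sy 𝔪 H h (s + k))) (fun _ => (1 : O)) x)
        = fmk (frD (bigLevel Sy 𝔪 H h (s + k))) (fun _ => (1 : O)) (twP t x))
    (hT : ∀ (ℓ : ℕ) (hℓ : ℓ.Prime) (hℓN' : ¬ ℓ ∣ N'') (hℓS : ℓ ∉ (↑S : Set ℕ))
        (hℓN : ¬ ℓ ∣ N),
      haveI : Fact ℓ.Prime := ⟨hℓ⟩
      ∃ d : Gamma0 N,
        (∀ u : (ZMod N)ˣ, (u : ZMod N) = ((ℓ : ℕ) : ZMod N) →
          chi (Theta (Δs p e) H.psi (s + k)) d ^ 2 * Theta (Δs p e) H.psi (s + k) u = 1) ∧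
        ∀ x : (bigLevel Sy 𝔪 H h (s + k)).M,
          (bigReal Sy 𝔪 H h (s + k)).ι (twP (heckeAlgebra.T hℓ hℓN' hℓS) x)
            = diaH (Theta (Δs p e) H.psi (s + k)) O d
                (TH (Theta (Δs p e) H.psi (s + k)) O hℓN ((bigReal Sy 𝔪 H h (s + k)).ι x)))
    (hρ : ∀ (ℓ : ℕ) (hℓ : ℓ.Prime) (hℓN' : ¬ ℓ ∣ N'') (hℓS : ℓ ∉ (↑S : Set ℕ))
      (A : ValuationSubring Qb), A.LiesOverPrime ℓ → ∀ σ : GQ, A.IsFrobeniusAt σ ℓ →
        LinearMap.charpoly (ρQ.ρ σ)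
          = X ^ 2 - C (χ (heckeAlgebra.T hℓ hℓN' hℓS)) * X + C ((ℓ : TQ)))
    (i : Fin k) (hei : 1 ≤ e (k - 1 - i)) (hrp : r (k - 1 - i) ≠ p)
    {O' : Type} [CommRing O'] [IsDomain O'] [IsDiscreteValuationRing O']
    [IsAdicComplete (maximalIdeal O') O'] [Finite (ResidueField O')] [CharZero O']
    (hpO' : (p : O') ∈ maximalIdeal O') (x : TQ →+* O') (hx : IsLocalHom x)
    (hocc : ∀ t : TQ,
      (∀ m, a₁ t m ∈ (tw Sy 𝔪 H h s k c hc hc1).L1.unitSub p hNk i) → x t = 0) :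
    ¬ (ρQ.baseChangeAlong x hx).IsUnipotentOnInertiaAt (r (k - 1 - i)) := by
  have hidx := idx_natAdd s k i
  have key := hB5_plugJ Sy 𝔪 H h (s + k) hk hbnd S hpS hN'' hSN'' ρQ χ
    (tw Sy 𝔪 H h s k c hc hc1).L1 hNk
    (piOneG Sy 𝔪 H h s k c hc hc1) (piOneG_surjective Sy 𝔪 H h s k c hc hc1)
    (Fin.natAdd s i) i (piOneG_D Sy 𝔪 H h s k c hc hc1 i) a₁ a₁_D tw₁ ha twP hfmk hT hρ
    (by rw [hidx]; exact hei) (by rw [hidx]; exact hrp) hpO' x hx hocc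
  rwa [hidx] at key

end PlugL1

/-! ### at helper11's `G2` objects (twin of helper49's `G4H1.h1_G2`) -/

section G2Sec

open GB.B9.ProviderFlat GB.B4.Datum.TQFields

variable (s k : ℕ) (c : Fin s → O) (hc : ∀ v : Fin s, c v ^ p ^ e (s + k - 1 - v) = 1)
  (hc1 : ∀ v, (1 : O) - c v ∈ Ideal.span {ϖ})

variable {N'' : ℕ} [NeZero N''] {S : Finset ℕ}
  (twP : ↥(heckeAlgebra N'' 2 (↑S : Set ℕ)) →+* Module.End O (bigLevel Sy 𝔪 H h (s + k)).M)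
  (hD : ∀ t i, twP t * (bigLevel Sy 𝔪 H h (s + k)).D i =
    (bigLevel Sy 𝔪 H h (s + k)).D i * twP t)
  (θA : ↥(heckeAlgebra N'' 2 (↑S : Set ℕ)) →+* IsLocalRing.ResidueField O)

/-- **(B5) on the `G2` objects at `Plug.tw`**, any number `s` of framed steps: at a DVR point `x`
of `T_Q := G2.T …` killing the annihilator of `M¹_Q / unitSub i`, `ρ_Q ⊗_x O'` is NOT unipotent on
inertia at the prime `r (k - 1 - i)` of the `i`-th Taylor–Wiles diamond. -/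
theorem hB5_G2 (hN : Squarefree N) (hsk : s + k ≤ K)
    [IsLocalRing (G2.T Sy 𝔪 H h s k c hc hc1 twP hD θA)]
    (hN'' : N'' = N * ∏ i : Fin (s + k), r i)
    (hpS : p ∈ S) (hNtopS : ∀ q : ℕ, q.Prime → q ∣ N'' → q ∈ S)
    (ρQ : GaloisRepAdic (G2.T Sy 𝔪 H h s k c hc hc1 twP hD θA))
    (hchar : ∀ (ℓ : ℕ) (hℓ : ℓ.Prime) (hℓN : ¬ ℓ ∣ N'') (hℓS : ℓ ∉ (↑S : Set ℕ))
      (A : ValuationSubring Qb), A.LiesOverPrime ℓ → ∀ σ : GQ, A.IsFrobeniusAt σ ℓ →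
        LinearMap.charpoly (ρQ.ρ σ) =
          X ^ 2 - C (GB.B4.Datum.ImageRing.chi O θA
            (GB.B4.Datum.TQFields.prodTw O (G2.tw₁ Sy 𝔪 H h s k c hc hc1 twP hD)
              (G2.twχ Sy 𝔪 H h s k c hc hc1 twP hD)) (heckeAlgebra.T hℓ hℓN hℓS)) * X
            + C ((ℓ : G2.T Sy 𝔪 H h s k c hc hc1 twP hD θA)))
    (dℓ : PrimesOff (↑S : Set ℕ) → Gamma0 N)
    (hdℓ : ∀ (l : PrimesOff (↑S : Set ℕ)) (u : (ZMod N)ˣ),
      (u : ZMod N) = ((l.1 : ℕ) : ZMod N) →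
      chi (Theta (Δs p e) H.psi (s + k)) (dℓ l) ^ 2 * Theta (Δs p e) H.psi (s + k) u = 1)
    (hnd : ∀ l : PrimesOff (↑S : Set ℕ), ¬ (l.1 : ℕ) ∣ N)
    (hι : ∀ (l : PrimesOff (↑S : Set ℕ)) (x : (bigLevel Sy 𝔪 H h (s + k)).M),
      (bigReal Sy 𝔪 H h (s + k)).ι (twP (formsGenS N'' (↑S : Set ℕ) l) x) =
        diaH (Theta (Δs p e) H.psi (s + k)) O (dℓ l)
          (haveI : Fact (l.1 : ℕ).Prime := ⟨l.1.2⟩
           TH (Theta (Δs p e) H.psi (s + k)) O (hnd l)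
            ((bigReal Sy 𝔪 H h (s + k)).ι x)))
    (hNk : ∀ i : Fin k, p ∣ Nfun p e (s + k) (Fin.natAdd s i))
    (i : Fin k) (hei : 1 ≤ e (k - 1 - i)) (hrp : r (k - 1 - i) ≠ p)
    {O' : Type} [CommRing O'] [IsDomain O'] [IsDiscreteValuationRing O']
    [IsAdicComplete (maximalIdeal O') O'] [Finite (ResidueField O')] [CharZero O']
    (hpO' : (p : O') ∈ maximalIdeal O')
    (x : G2.T Sy 𝔪 H h s k c hc hc1 twP hD θA →+* O') (hx : IsLocalHom x)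
    (hocc : ∀ t : G2.T Sy 𝔪 H h s k c hc hc1 twP hD θA,
      (∀ m, G2.a₁ Sy 𝔪 H h s k c hc hc1 twP hD θA t m ∈
        (tw Sy 𝔪 H h s k c hc hc1).L1.unitSub p hNk i) → x t = 0) :
    ¬ (ρQ.baseChangeAlong x hx).IsUnipotentOnInertiaAt (r (k - 1 - i)) := by
  have hSN' : ∀ ℓ : ℕ, ℓ.Prime → ℓ ∣ N'' → ℓ ∈ (↑S : Set ℕ) := fun ℓ hℓ hℓN =>
    Finset.mem_coe.mpr (hNtopS ℓ hℓ hℓN)
  -- `hT` from the `ι`-formula on the generators
  have hT : ∀ (ℓ : ℕ) (hℓ : ℓ.Prime) (hℓN' : ¬ ℓ ∣ N'') (hℓS : ℓ ∉ (↑S : Set ℕ))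
      (hℓN : ¬ ℓ ∣ N),
      haveI : Fact ℓ.Prime := ⟨hℓ⟩
      ∃ d : Gamma0 N,
        (∀ u : (ZMod N)ˣ, (u : ZMod N) = ((ℓ : ℕ) : ZMod N) →
          chi (Theta (Δs p e) H.psi (s + k)) d ^ 2 * Theta (Δs p e) H.psi (s + k) u = 1) ∧
        ∀ x : (bigLevel Sy 𝔪 H h (s + k)).M,
          (bigReal Sy 𝔪 H h (s + k)).ι (twP (heckeAlgebra.T hℓ hℓN' hℓS) x)
            = diaH (Theta (Δs p e) H.psi (s + k)) O d
                (TH (Theta (Δs p e) H.psi (s + k)) O hℓN ((bigReal Sy 𝔪 H h (s + k)).ι x)) := by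
    intro ℓ hℓ hℓN' hℓS hℓN
    refine ⟨dℓ ⟨⟨ℓ, hℓ⟩, hℓS⟩, fun u hu => hdℓ ⟨⟨ℓ, hℓ⟩, hℓS⟩ u hu, fun x => ?_⟩
    have h1 := hι ⟨⟨ℓ, hℓ⟩, hℓS⟩ x
    rw [formsGenS_of_not_dvd N'' (↑S : Set ℕ) ⟨⟨ℓ, hℓ⟩, hℓS⟩ hℓN'] at h1
    exact h1
  exact hB5_plugG_L1 Sy 𝔪 H h s k c hc hc1 hsk
    (fun y hy => GB.B3.Boundary.Mat.isLoc_mem_parabolicHoms_theta_of_squarefree
      Sy 𝔪 H h hN (s + k) hy)
    S hpS hN'' hSN' ρQ
    (GB.B4.Datum.ImageRing.chi O θA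
      (GB.B4.Datum.TQFields.prodTw O (G2.tw₁ Sy 𝔪 H h s k c hc hc1 twP hD)
        (G2.twχ Sy 𝔪 H h s k c hc hc1 twP hD)))
    hNk (G2.a₁ Sy 𝔪 H h s k c hc hc1 twP hD θA)
    (fun t i => G2.a₁_D Sy 𝔪 H h s k c hc hc1 twP hD θA t i)
    (G2.tw₁ Sy 𝔪 H h s k c hc hc1 twP hD)
    (fun t => G2.a₁_chi Sy 𝔪 H h s k c hc hc1 twP hD θA t)
    twP (fun t x => rfl) hT hchar i hei hrp hpO' x hx hocc

end G2Sec

end Plug

/-! ### at a Taylor–Wiles set `Q` of the setup bundle, NO framed step -/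

section Pkg

open WeierstrassCurve WeierstrassCurve.Affine.Point
open GB.Setup.SetupPkg GB.B9.ProviderFlat.H1
  GB.B9.ProviderFlat.G1 GB.B9.ProviderFlat
  GB.Glue.Points GB.B9.ProviderFlat.G7.TWSetG7
  GE6.Inst.FreeLevelInst GE6.Inst.FreeLevelTw

variable {p : ℕ} [hpF : Fact p.Prime] {W : WeierstrassCurve ℤ}
  {hcard₁ : Nat.card (Submodule.torsionBy ℤ
    ((W.map (Int.castRingHom ℚ)).toAffine.baseChange (AlgebraicClosure ℚ)).Point p) = p ^ 2}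
  {hker : GaloisFactorsThroughFiniteLevel
    (WeierstrassCurve.Affine.Point.galoisRepModuleEnd (K := AlgebraicClosure ℚ) ℚ
      (W.map (Int.castRingHom ℚ)) p)}
  {M A : ℕ} {P : Pkg p W hcard₁ hker M A} {g n : ℕ} (Q : TWSet P g n)
  (hp3 : Ok3W p W) (E : Fin g → ℕ) (hE : ∀ j, p ^ E j ∣ Q.qv j - 1)
  (c : Fin 0 → P.O) (hc : ∀ v : Fin 0, c v ^ p ^ eRev E (0 + g - 1 - v) = 1)
  (hc1 : ∀ v, (1 : P.O) - c v ∈ Ideal.span {P.ϖ})

/-- the level of forms at `Q`: `Q.N · ∏ qv` in the spelling of the tower (`0 + g` steps) -/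
theorem prod_rRev : ∏ i : Fin (0 + g), rRev Q (i : ℕ) = ∏ j : Fin g, Q.qv j := by
  refine (Fintype.prod_equiv (finCongr (Nat.zero_add g)) (fun i : Fin (0 + g) => rRev Q (i : ℕ))
    (fun i : Fin g => Q.qv (Fin.rev i)) (fun i => ?_)).trans (Equiv.prod_comp Fin.revPerm Q.qv)
  exact rRev_lt Q (finCongr (Nat.zero_add g) i).2

/-- the orders of the diamonds of `twE` are divisible by `p` as soon as `E j ≥ 1` -/
theorem dvd_Nfun0 (hE1 : ∀ j, 1 ≤ E j) (i : Fin g) :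
    p ∣ Nfun p (eRev E) (0 + g) (Fin.natAdd 0 i) := by
  rw [GB.B3.Plug.Nfun_natAdd, eRev_idx]
  exact dvd_pow_self p (by have := hE1 i; omega)

include hp3 in
/-- (BND) at every stage of the tower of `primeDataE` (squarefree level) -/
theorem hbnd_E (hsq : Squarefree M) (j : ℕ)
    (y : Additive (GammaH (Theta (Δs p (eRev E)) (primeDataE Q E hE).psi j)) →+ P.O)
    (hy : IsLoc (actH Q.Sy P.O (Theta (Δs p (eRev E)) (primeDataE Q E hE).psi j)) Q.𝔪 y) :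
    y ∈ parabolicHoms P.O (GammaH (Theta (Δs p (eRev E)) (primeDataE Q E hE).psi j)) P.O :=
  GB.B3.Boundary.Mat.isLoc_mem_parabolicHoms_theta_of_squarefree Q.Sy Q.𝔪
    (primeDataE Q E hE) (Q.hyp hp3) (squarefree_N Q hsq) j hy

/-- **the binder `hB5` of `UnitInst.hunit_of_labelled`, VERBATIM, at
`L := (twE Q hp3 E hE c hc hc1).L1`, `r := Q.qv`** — for a record `(T, χ, a₁, tw₁, twP, ρQ)` in
the spelling of `G4B5.hB5₁_tw1F` (`s = 0`). -/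
theorem hB5_twE (hsq : Squarefree M) (hE1 : ∀ j, 1 ≤ E j)
    (S : Finset ℕ) (hpS : p ∈ S)
    {N'' : ℕ} [NeZero N''] (hN'' : N'' = Q.N * ∏ i : Fin (0 + g), rRev Q i)
    (hSN'' : ∀ ℓ : ℕ, ℓ.Prime → ℓ ∣ N'' → ℓ ∈ (↑S : Set ℕ))
    (T : Type) [CommRing T] [IsLocalRing T] [Algebra P.O T] [Module.Finite P.O T]
    (ρQ : GaloisRepAdic T)
    (χ : ↥(heckeAlgebra N'' 2 (↑S : Set ℕ)) →+* T)
    (hNk : ∀ i : Fin g, p ∣ Nfun p (eRev E) (0 + g) (Fin.natAdd 0 i))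
    (a₁ : T →ₐ[P.O] Module.End P.O (twE Q hp3 E hE c hc hc1).L1.M)
    (a₁_D : ∀ t i, a₁ t * (twE Q hp3 E hE c hc hc1).L1.D i =
      (twE Q hp3 E hE c hc hc1).L1.D i * a₁ t)
    (tw₁ : ↥(heckeAlgebra N'' 2 (↑S : Set ℕ)) →+*
      Module.End P.O (twE Q hp3 E hE c hc hc1).L1.M)
    (ha : ∀ t, a₁ (χ t) = tw₁ t)
    (twP : ↥(heckeAlgebra N'' 2 (↑S : Set ℕ)) →+*
      Module.End P.O (bigLevel Q.Sy Q.𝔪 (primeDataE Q E hE) (Q.hyp hp3) (0 + g)).M)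
    (hfmk : ∀ t (x : (bigLevel Q.Sy Q.𝔪 (primeDataE Q E hE) (Q.hyp hp3) (0 + g)).M),
      tw₁ t (fmk (frD (bigLevel Q.Sy Q.𝔪 (primeDataE Q E hE) (Q.hyp hp3) (0 + g)))
          (fun _ => (1 : P.O)) x)
        = fmk (frD (bigLevel Q.Sy Q.𝔪 (primeDataE Q E hE) (Q.hyp hp3) (0 + g)))
          (fun _ => (1 : P.O)) (twP t x))
    (hT : ∀ (ℓ : ℕ) (hℓ : ℓ.Prime) (hℓN' : ¬ ℓ ∣ N'') (hℓS : ℓ ∉ (↑S : Set ℕ))
        (hℓN : ¬ ℓ ∣ Q.N),
      haveI : Fact ℓ.Prime := ⟨hℓ⟩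
      ∃ d : Gamma0 Q.N,
        (∀ u : (ZMod Q.N)ˣ, (u : ZMod Q.N) = ((ℓ : ℕ) : ZMod Q.N) →
          chi (Theta (Δs p (eRev E)) (primeDataE Q E hE).psi (0 + g)) d ^ 2 *
            Theta (Δs p (eRev E)) (primeDataE Q E hE).psi (0 + g) u = 1) ∧
        ∀ x : (bigLevel Q.Sy Q.𝔪 (primeDataE Q E hE) (Q.hyp hp3) (0 + g)).M,
          (bigReal Q.Sy Q.𝔪 (primeDataE Q E hE) (Q.hyp hp3) (0 + g)).ι
              (twP (heckeAlgebra.T hℓ hℓN' hℓS) x)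
            = diaH (Theta (Δs p (eRev E)) (primeDataE Q E hE).psi (0 + g)) P.O d
                (TH (Theta (Δs p (eRev E)) (primeDataE Q E hE).psi (0 + g)) P.O hℓN
                  ((bigReal Q.Sy Q.𝔪 (primeDataE Q E hE) (Q.hyp hp3) (0 + g)).ι x)))
    (hρ : ∀ (ℓ : ℕ) (hℓ : ℓ.Prime) (hℓN' : ¬ ℓ ∣ N'') (hℓS : ℓ ∉ (↑S : Set ℕ)),
      ∀ A : ValuationSubring Qb, A.LiesOverPrime ℓ → ∀ σ : GQ, A.IsFrobeniusAt σ ℓ →
        LinearMap.charpoly (ρQ.ρ σ)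
          = X ^ 2 - C (χ (heckeAlgebra.T hℓ hℓN' hℓS)) * X + C ((ℓ : T))) :
    ∀ (i : Fin g) (x : Idx P.O T)
      (hloc : IsLocalHom ((ψ x : T →ₐ[P.O] Rq x) : T →+* Rq x)),
      (∀ t : T, (∀ m, a₁ t m ∈ (twE Q hp3 E hE c hc hc1).L1.unitSub p hNk i) → ψ x t = 0) →
      ¬ (ρQ.baseChangeAlong ((ψ x : T →ₐ[P.O] Rq x) : T →+* Rq x) hloc).IsUnipotentOnInertiaAt
        (Q.qv i) := by
  intro i x hloc hocc
  have key := hB5_plugG_L1 Q.Sy Q.𝔪 (primeDataE Q E hE) (Q.hyp hp3) 0 g c hc hc1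
    (Nat.le_of_eq (Nat.zero_add g)) (hbnd_E Q hp3 E hE hsq (0 + g)) S hpS hN'' hSN''
    ρQ χ hNk a₁ a₁_D tw₁ ha twP hfmk hT hρ i
    (by rw [eRev_idx]; exact hE1 i) (by rw [rRev_idx]; exact (Q.good i).2.2)
    (natCast_mem_maximalIdeal_Rq x P.hpO) ((ψ x : T →ₐ[P.O] Rq x) : T →+* Rq x) hloc hocc
  rwa [rRev_idx Q i] at key


end Pkg

end GE6.Inst.B5Gen

end Fermat.Agent.GE8.P3B
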