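/-
GATE-E (S59) / ENGINE-INST node N4 = item (ii) (helper52): **the ring `T_Q`, its action on the
Taylor–Wiles module and `ψ_Q : R_Q → T_Q`, at GATE-B's level datum WITHOUT framed step.**

helper12's `GE6/Inst/ModSide.ModSideData` wants an `R_Q`-module structure on `F.M`, where
`F = FreeLevelTw.FQ1 Q …` (helper51) has `F.M = (twE Q …).L1.M`,
`twE Q … = Plug.tw Q.Sy Q.𝔪 (primeDataE Q E hE) (Q.hyp hp3) 0 g c hc hc1`.  It is
`UnitInst.moduleOfHom a ψ` (helper49) for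

* `a  := a₁E … = G2.a₁ …` at `twE` (helper11's `T_Q := G2.T …`, image of the twisted Hecke algebra of
  forms of level `NQ0 Q = Q.N * ∏ rRev = M (∏ qv)²` in `End (M¹_Q × M^χ_Q)`),
* `ψ  : DQ.R →ₐ[P.O] TE …` from G3 (`ProviderFlat/G3.exists_psi_TQ_flat`), `DQ` a universal
  deformation ring for the ENGINE's condition `Graph.condFL P.O p P.Smin (image Q.qv)`.

This file = the first half of `FlatGroups.groupsOn_flat` at `s = 0` (no framed prime):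

* `ofIff` : transport of a `DeformationRingData` along an equivalence of deformation conditions
  (same `R`, same `ρ`, by `rfl`); `condFL_iff_framedCond` : the engine's `condFL` is GATE-B's
  `framedCond … flatCondition` when `Su = ∅`;
* `NQ0`, `prod_rRev`, `NQ0_eq`, … : the forms level at `s = 0` and its arithmetic;
* **`exists_twP_twE`** : G2 at `twE` (`G2.exists_dl_theta` + `G2.exists_twP_hecke` fed from
  `PkgLevel.exists_thetaQ` and `G2Sym`);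
* `tw₁E twχE TE a₁E a₂E`, `fact_locHypE`, `finite_prodE free_prodE nontrivial_prodE` : the objects
  of G2 at `twE` and the four instances that make `TE` a complete local noetherian `O`-algebra;
* **`exists_psi_twE`** : G3 at `twE` for `DQ` over `condFL` (`hsq : Squarefree M`, `hpM : ¬ p ∣ M`,
  `hSu : P.Su = ∅` = the minimal level).
-/
import Fermat.Agent.GE8.P3B.GE6.Inst.FreeLevelTw
import Fermat.Agent.GE8.P3B.GB.B9.ProviderFlat.G2
import Fermat.Agent.GE8.P3B.GB.B9.ProviderFlat.G2Sym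
import Fermat.Agent.GB.B9.ProviderFlat.G3
import Fermat.Agent.GB.Setup.PkgLevel
import Fermat.Agent.GB.B3.FreeLevelInst
import Fermat.Agent.GE.Graph.RTStmt
import Fermat.Agent.GE8.P3B.StepGen
import Fermat.Agent.GE8.P3B.Ok3W

/- TWIN (helper6 B4 generator; conventions of helper24 / helper86) of `Fermat.Agent.GE6.Inst.PsiQ` with `p ≠ 3` relaxed to `Ok3A Sy 𝔪 p` / `Ok3W p W` (RISK-5 fix (B), step B4); everything below lives in the wrapper namespace `Fermat.Agent.GE8.P3B`. -/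
set_option linter.dupNamespace false
open Fermat Fermat.Agent Fermat.Agent.GB Fermat.Agent.GB.B3 Fermat.Agent.GB.B3.ChiLevelMulti Fermat.Agent.GB.B3.GamH Fermat.Agent.GB.B3.HeckeActH Fermat.Agent.GB.B3.RealLevel Fermat.Agent.GB.B3.TWChars Fermat.Agent.GB.B3.TWLevel Fermat.Agent.GB.B4 Fermat.Agent.GB.B4.Datum Fermat.Agent.GB.B4.Datum.ImageRing Fermat.Agent.GB.B4.Datum.TQFields Fermat.Agent.GB.B9 Fermat.Agent.GB.B9.ProviderFlat Fermat.Agent.GB.Def Fermat.Agent.GB.Def.FramedNodes Fermat.Agent.GB.Setup Fermat.Agent.GB.Setup.SetupPkg Fermat.Agent.GE Fermat.Agent.GE.Graph Fermat.Agent.GE6 Fermat.Agent.GE6.Inst Fermat.Agent.GJ Fermat.Agent.GJ.J2 Fermat.Agent.GJ.J2.Lat Fermat.Agent.GM Fermat.Agent.GM.B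

namespace Fermat.Agent.GE8.P3B

set_option autoImplicit false
set_option linter.unusedSectionVars false
set_option linter.unusedVariables false
set_option linter.style.haveILetI false

open WeierstrassCurve WeierstrassCurve.Affine.Point IsLocalRing
open scoped WeierstrassCurve.Affine
open scoped MatrixGroups
open CongruenceSubgroup ModularCurve.Period CuspForm Polynomial

namespace GE6.Inst.PsiQ

open GM.B
open GB.B3.HeckeActH GB.B3.RealLevel GB.B3.Tower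
  GB.B3.TWChars GB.B3.FinalTW GB.B3.Plug
  GB.B3.TWLevel GB.B3.GamH GB.B3.ChiLevelMulti
  GB.B3.Final
open GJ.J2.Lat
open GB.B4.Datum.ImageRing GB.B4.Datum.TQFields
open GB.Setup.SetupPkg
open GB.Def.FramedNodes
open GB.B9.ProviderFlat GB.B9.ProviderFlat.G1
open GE6.Inst.FreeLevelInst GE6.Inst.FreeLevelTw
open GE.Graph GaloisRep

/-- local instance (Prop-valued class) -/
local instance factPrimeOffPQ {S : Set ℕ} (l : PrimesOff S) : Fact (l.1 : ℕ).Prime := ⟨l.1.2⟩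

/-- `ℚ̄`. -/
local notation "Qb" => AlgebraicClosure ℚ
/-- `G_ℚ`. -/
local notation "GQ" => (AlgebraicClosure ℚ ≃ₐ[ℚ] AlgebraicClosure ℚ)
/-- the character `Γ₀(N) → Δ` of a character of `(ℤ/N)ˣ`. -/
local notation "chiΓ" => GB.B3.EisGamma0.chi
/-- the structure map `A → T_Q`. -/
local notation "chiT" => GB.B4.Datum.ImageRing.chi

noncomputable section

/-! ### transport of a universal deformation ring along an equivalence of conditions -/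

section OfIff

variable {𝒪 : Type} [CommRing 𝒪] [IsDomain 𝒪] [IsDiscreteValuationRing 𝒪]
  [IsAdicComplete (maximalIdeal 𝒪) 𝒪] {ρbar : ResidualGaloisRep (ResidueField 𝒪)}
  {𝒟 𝒟' : ∀ ⦃A : Type⦄ [CommRing A] [IsLocalRing A] [Algebra 𝒪 A], GaloisRepAdic A → Prop}

/-- **the same ring and the same representation, for an equivalent deformation condition** -/
def ofIff
    (h : ∀ ⦃A : Type⦄ [CommRing A] [IsLocalRing A] [Algebra 𝒪 A] (ρ : GaloisRepAdic A),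
      𝒟 ρ ↔ 𝒟' ρ)
    (D : DeformationRingData 𝒪 ρbar 𝒟) : DeformationRingData 𝒪 ρbar 𝒟' where
  R := D.R
  residue_surjective := D.residue_surjective
  absIrr := D.absIrr
  ρ := D.ρ
  isOfType := (h D.ρ).mp D.isOfType
  residual_isEquiv := D.residual_isEquiv
  universal := fun A _ _ _ _ _ _ hs ρA hρA hres => D.universal A hs ρA ((h ρA).mpr hρA) hres

end OfIff

/-- **the engine's flat condition is GATE-B's framed flat condition when there is no framed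
prime** -/
theorem condFL_iff_framedCond {𝒪 : Type} [CommRing 𝒪] [IsLocalRing 𝒪] (p : ℕ) [Fact p.Prime]
    (Smin Su Q : Finset ℕ) (hSu : Su = ∅)
    ⦃A : Type⦄ [CommRing A] [IsLocalRing A] [Algebra 𝒪 A] (ρ : GaloisRepAdic A) :
    condFL 𝒪 p Smin Q ρ ↔ framedCond p (flatCondition 𝒪 p) Smin Su Q ρ := by
  subst hSu
  unfold condFL framedCond
  rw [Finset.union_empty]

/-- the same for the strict-ordinary condition -/
theorem condSO_iff_framedCond {𝒪 : Type} [CommRing 𝒪] [IsLocalRing 𝒪] (p : ℕ) [Fact p.Prime]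
    (Smin Su Q : Finset ℕ) (hSu : Su = ∅)
    ⦃A : Type⦄ [CommRing A] [IsLocalRing A] [Algebra 𝒪 A] (ρ : GaloisRepAdic A) :
    condSO 𝒪 p Smin Q ρ ↔ framedCond p (strictOrdinaryCondition 𝒪 p) Smin Su Q ρ := by
  subst hSu
  unfold condSO framedCond
  rw [Finset.union_empty]

variable {p : ℕ} [hpF : Fact p.Prime] {W : WeierstrassCurve ℤ}
  {hcard₁ : Nat.card (Submodule.torsionBy ℤ
    ((W.map (Int.castRingHom ℚ))⁄(AlgebraicClosure ℚ)).Point p) = p ^ 2}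
  {hker : GaloisFactorsThroughFiniteLevel
    (galoisRepModuleEnd (K := AlgebraicClosure ℚ) ℚ (W.map (Int.castRingHom ℚ)) p)}
  {M A : ℕ} {P : Pkg p W hcard₁ hker M A} {g n : ℕ} (Q : TWSet P g n)

/-! ### the forms level at `s = 0` -/

/-- the product of the step primes of stage `0 + g` is the product of the Taylor–Wiles primes -/
theorem prod_rRev : ∏ i : Fin (0 + g), rRev Q i = ∏ i, Q.qv i := by
  rw [Fin.prod_univ_eq_prod_range (fun i => rRev Q i) (0 + g), Nat.zero_add,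
    ← Fin.prod_univ_eq_prod_range (fun i => rRev Q i) g]
  rw [Finset.prod_congr rfl fun (i : Fin g) _ => rRev_lt Q i.2]
  exact Equiv.prod_comp Fin.revPerm Q.qv

/-- **the level of the forms whose Hecke algebra acts on `M_Q`** (no framed step):
`Q.N * ∏ qv = M * (∏ qv)²` -/
abbrev NQ0 : ℕ := Q.N * ∏ i : Fin (0 + g), rRev Q i

theorem NQ0_eq : NQ0 Q = M * ((∏ i, Q.qv i) * ∏ i, Q.qv i) := by
  rw [NQ0, prod_rRev, TWSet.N, Nat.mul_assoc]

theorem prod_qv_ne_zero : (∏ i, Q.qv i) ≠ 0 :=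
  Finset.prod_ne_zero_iff.mpr fun i _ => (Q.prime i).ne_zero

theorem NQ0_ne_zero : NQ0 Q ≠ 0 := by
  rw [NQ0_eq]
  exact Nat.mul_ne_zero P.hM (Nat.mul_ne_zero (prod_qv_ne_zero Q) (prod_qv_ne_zero Q))

instance neZero_NQ0 : NeZero (NQ0 Q) := ⟨NQ0_ne_zero Q⟩

theorem dvd_NQ0 : M ∣ NQ0 Q := by
  rw [NQ0_eq]
  exact Dvd.intro _ rfl

theorem N_dvd_NQ0 : Q.N ∣ NQ0 Q := Dvd.intro _ rfl

/-- a prime dividing the product of the Taylor–Wiles primes is one of them -/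
theorem mem_image_of_dvd_prod {ℓ : ℕ} (hℓ : ℓ.Prime) (h : ℓ ∣ ∏ i, Q.qv i) :
    ℓ ∈ Finset.univ.image Q.qv := by
  obtain ⟨i, -, hi⟩ := (Prime.dvd_finsetProd_iff hℓ.prime _).mp h
  exact Finset.mem_image.mpr ⟨i, Finset.mem_univ _,
    ((Nat.prime_dvd_prime_iff_eq hℓ (Q.prime i)).mp hi).symm⟩

/-- every prime of the forms level divides `M` or is a Taylor–Wiles prime -/
theorem hNprimes0 (ℓ : ℕ) (hℓ : ℓ.Prime) (hd : ℓ ∣ NQ0 Q) :
    ℓ ∣ M ∨ ℓ ∈ Finset.univ.image Q.qv := by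
  rw [NQ0_eq] at hd
  rcases (Nat.Prime.dvd_mul hℓ).mp hd with h | h
  · exact Or.inl h
  · rcases (Nat.Prime.dvd_mul hℓ).mp h with h | h
    · exact Or.inr (mem_image_of_dvd_prod Q hℓ h)
    · exact Or.inr (mem_image_of_dvd_prod Q hℓ h)

/-- a prime of `M` does not divide the cofactor `(∏ qv)²` -/
theorem not_dvd_cofactor0 {ℓ : ℕ} (hℓ : ℓ.Prime) (hℓM : ℓ ∣ M) :
    ¬ ℓ ∣ (∏ i, Q.qv i) * ∏ i, Q.qv i := by
  have h1 : ¬ ℓ ∣ ∏ i, Q.qv i := fun h => by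
    obtain ⟨i, -, hi⟩ := Finset.mem_image.mp (mem_image_of_dvd_prod Q hℓ h)
    exact (Q.good i).2.1 (hi ▸ hℓM)
  intro h
  rcases (Nat.Prime.dvd_mul hℓ).mp h with h | h
  · exact h1 h
  · exact h1 h

/-- every prime of a squarefree `M` exactly divides the forms level -/
theorem hexact0 (hsq : Squarefree M) (ℓ : ℕ) (hℓ : ℓ.Prime) (hℓM : ℓ ∣ M) :
    ℓ ∣ NQ0 Q ∧ ¬ ℓ ^ 2 ∣ NQ0 Q := by
  rw [NQ0_eq]
  refine ⟨Dvd.dvd.mul_right hℓM _, fun h2 => ?_⟩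
  have hcop : Nat.Coprime (ℓ ^ 2) ((∏ i, Q.qv i) * ∏ i, Q.qv i) :=
    Nat.Coprime.pow_left 2 ((Nat.Prime.coprime_iff_not_dvd hℓ).mpr (not_dvd_cofactor0 Q hℓ hℓM))
  have h3 : ℓ ^ 2 ∣ M := hcop.dvd_of_dvd_mul_right h2
  exact Nat.squarefree_iff_prime_squarefree.mp hsq ℓ hℓ (by rwa [← pow_two])

/-- `p ∤ M ⟹ p ∤ NQ0` -/
theorem not_dvd_NQ0 (hpM : ¬ p ∣ M) : ¬ p ∣ NQ0 Q := by
  intro h
  rcases hNprimes0 Q p hpF.out h with h | h
  · exact hpM h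
  · obtain ⟨i, -, hi⟩ := Finset.mem_image.mp h
    exact (Q.good i).2.2 hi

/-! ### G2 at `twE` -/

section TwE

variable (hp3 : Ok3W p W) (E : Fin g → ℕ) (hE : ∀ j, p ^ E j ∣ Q.qv j - 1)

/-- **G2 at the level datum without framed step**: the residual eigensystem at the forms level
`NQ0 Q`, the half-diamonds and the twisted Hecke action on the big level of stage `0 + g` with the
per-prime exponents `E`, with its `ι`-formula on the generators, its commutation with the diamonds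
and the Hecke symbols, and (LOC). -/
theorem exists_twP_twE (hsq : Squarefree M) :
    ∃ (SQ : Finset ℕ) (θQ : heckeAlgebra (NQ0 Q) 2 (↑SQ : Set ℕ) →+* P.k),
      p ∈ SQ ∧ (∀ ℓ : ℕ, ℓ.Prime → ℓ ∣ NQ0 Q → ℓ ∈ SQ) ∧
      (∀ q : ℕ, q.Prime → ¬ W.IsGoodPrimeFor q → q ∈ SQ) ∧
      (∀ (ℓ : ℕ) (hℓ : ℓ.Prime) (hℓN : ¬ ℓ ∣ NQ0 Q) (hℓS : ℓ ∉ (↑SQ : Set ℕ)),
        θQ (heckeAlgebra.T hℓ hℓN hℓS) = ((W.apOfModel ℓ : ℤ) : P.k)) ∧
      (∀ (ℓ : ℕ) (hℓ : ℓ.Prime) (hℓN : ¬ ℓ ∣ NQ0 Q) (hℓS : ℓ ∉ (↑SQ : Set ℕ))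
        (Pl : ValuationSubring Qb), Pl.LiesOverPrime ℓ → ∀ σ : GQ, Pl.IsFrobeniusAt σ ℓ →
          LinearMap.charpoly (P.rhobar.ρ σ) =
            X ^ 2 - C (θQ (heckeAlgebra.T hℓ hℓN hℓS)) * X + C ((ℓ : ℕ) : P.k)) ∧
      (∀ l : PrimesOff (↑SQ : Set ℕ), ∃ i : Q.Sy.ι₁, Q.Sy.ℓ i = (l.1 : ℕ) ∧
        θQ (formsGenS (NQ0 Q) (↑SQ : Set ℕ) l) = Q.lamTop (MvPolynomial.X (Sum.inl i))) ∧
      ∃ (dℓ : PrimesOff (↑SQ : Set ℕ) → Gamma0 Q.N)
        (hnd : ∀ l : PrimesOff (↑SQ : Set ℕ), ¬ (l.1 : ℕ) ∣ Q.N),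
        (∀ (l : PrimesOff (↑SQ : Set ℕ)) (u : (ZMod Q.N)ˣ),
          (u : ZMod Q.N) = ((l.1 : ℕ) : ZMod Q.N) →
            chiΓ (Theta (Δs p (eRev E)) (primeDataE Q E hE).psi (0 + g)) (dℓ l) ^ 2 *
              Theta (Δs p (eRev E)) (primeDataE Q E hE).psi (0 + g) u = 1) ∧
        ∃ twP : ↥(heckeAlgebra (NQ0 Q) 2 (↑SQ : Set ℕ)) →+*
            Module.End P.O (bigLevel Q.Sy Q.𝔪 (primeDataE Q E hE) (Q.hyp hp3) (0 + g)).M,
          (∀ (l : PrimesOff (↑SQ : Set ℕ))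
              (x : (bigLevel Q.Sy Q.𝔪 (primeDataE Q E hE) (Q.hyp hp3) (0 + g)).M),
            (bigReal Q.Sy Q.𝔪 (primeDataE Q E hE) (Q.hyp hp3) (0 + g)).ι
                (twP (formsGenS (NQ0 Q) (↑SQ : Set ℕ) l) x) =
              diaH (Theta (Δs p (eRev E)) (primeDataE Q E hE).psi (0 + g)) P.O (dℓ l)
                (TH (Theta (Δs p (eRev E)) (primeDataE Q E hE).psi (0 + g)) P.O (hnd l)
                  ((bigReal Q.Sy Q.𝔪 (primeDataE Q E hE) (Q.hyp hp3) (0 + g)).ι x))) ∧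
          (∀ t i, twP t * (bigLevel Q.Sy Q.𝔪 (primeDataE Q E hE) (Q.hyp hp3) (0 + g)).D i =
            (bigLevel Q.Sy Q.𝔪 (primeDataE Q E hE) (Q.hyp hp3) (0 + g)).D i * twP t) ∧
          (∀ t u, twP t * (bigLevel Q.Sy Q.𝔪 (primeDataE Q E hE) (Q.hyp hp3) (0 + g)).act u =
            (bigLevel Q.Sy Q.𝔪 (primeDataE Q E hE) (Q.hyp hp3) (0 + g)).act u * twP t) ∧
          LocHyp P.O θQ twP := by
  obtain ⟨SQ, θQ, -, hpS, hNS, hbadS, hθT, hfrobQ, -⟩ :=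
    GB.Setup.PkgLevel.exists_thetaQ P (dvd_NQ0 Q)
  have hnd : ∀ l : PrimesOff (↑SQ : Set ℕ), ¬ (l.1 : ℕ) ∣ Q.N :=
    G2Sym.hnd_Q Q (N_dvd_NQ0 Q) SQ hNS
  obtain ⟨dℓ, hdℓ⟩ := G2.exists_dl_theta (primeDataE Q E hE) (0 + g)
    (Nat.le_of_eq (Nat.zero_add g)) P.hp2 (↑SQ : Set ℕ) hnd
  have hsym : ∀ l : PrimesOff (↑SQ : Set ℕ), ∃ i : Q.Sy.ι₁, Q.Sy.ℓ i = (l.1 : ℕ) ∧
      θQ (formsGenS (NQ0 Q) (↑SQ : Set ℕ) l) = Q.lamTop (MvPolynomial.X (Sum.inl i)) :=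
    G2Sym.hsym_Q Q (N_dvd_NQ0 Q) SQ hNS hpS hbadS θQ hθT
  have hev : ∀ t ∈ Q.𝔪, Q.lamTop t = 0 := G2Sym.hev_Q Q
  obtain ⟨twP, hι, hD, hact, hlocP⟩ :=
    G2.exists_twP_hecke Q.Sy Q.𝔪 (primeDataE Q E hE) (Q.hyp hp3) 0 g
      (G2Sym.squarefree_N Q hsq) (Nat.le_of_eq (Nat.zero_add g))
      (rfl : NQ0 Q = Q.N * ∏ i : Fin (0 + g), rRev Q i) SQ hNS dℓ hdℓ hnd Q.lamTop hev θQ hsym
  exact ⟨SQ, θQ, hpS, hNS, hbadS, hθT, hfrobQ, hsym, dℓ, hnd, hdℓ, twP, hι, hD, hact, hlocP⟩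

end TwE

/-! ### the objects of G2 at `twE`, and G3 -/

section G3E

variable (hp3 : Ok3W p W) (E : Fin g → ℕ) (hE : ∀ j, p ^ E j ∣ Q.qv j - 1)
  (c : Fin 0 → P.O) (hc : ∀ v : Fin 0, c v ^ p ^ eRev E (0 + g - 1 - v) = 1)
  (hc1 : ∀ v, (1 : P.O) - c v ∈ Ideal.span {P.ϖ})
  {SQ : Finset ℕ}
  (twP : ↥(heckeAlgebra (NQ0 Q) 2 (↑SQ : Set ℕ)) →+*
    Module.End P.O (bigLevel Q.Sy Q.𝔪 (primeDataE Q E hE) (Q.hyp hp3) (0 + g)).M)
  (hD : ∀ t i, twP t * (bigLevel Q.Sy Q.𝔪 (primeDataE Q E hE) (Q.hyp hp3) (0 + g)).D i =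
    (bigLevel Q.Sy Q.𝔪 (primeDataE Q E hE) (Q.hyp hp3) (0 + g)).D i * twP t)
  (θQ : ↥(heckeAlgebra (NQ0 Q) 2 (↑SQ : Set ℕ)) →+* P.k)

/-- helper11's `G2.tw₁` at `twE` -/
abbrev tw₁E :=
  G2.tw₁ Q.Sy Q.𝔪 (primeDataE Q E hE) (Q.hyp hp3) 0 g c hc hc1 twP hD

/-- helper11's `G2.twχ` at `twE` -/
abbrev twχE :=
  G2.twχ Q.Sy Q.𝔪 (primeDataE Q E hE) (Q.hyp hp3) 0 g c hc hc1 twP hD

/-- **the Hecke ring `T_Q`**: helper11's `G2.T` at `twE` -/
abbrev TE : Type :=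
  G2.T Q.Sy Q.𝔪 (primeDataE Q E hE) (Q.hyp hp3) 0 g c hc hc1 twP hD θQ

/-- **the action of `T_Q` on `M_Q = (twE …).L1.M = (FQ1 …).M`**: helper11's `G2.a₁` at `twE` -/
abbrev a₁E :=
  G2.a₁ Q.Sy Q.𝔪 (primeDataE Q E hE) (Q.hyp hp3) 0 g c hc hc1 twP hD θQ

/-- helper11's `G2.a₂` at `twE` -/
abbrev a₂E :=
  G2.a₂ Q.Sy Q.𝔪 (primeDataE Q E hE) (Q.hyp hp3) 0 g c hc hc1 twP hD θQ

/-- (LOC) for the product action, as a `Fact` (instance binder of `exists_psi_twE`) -/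
theorem fact_locHypE (hlocP : LocHyp P.O θQ twP) :
    Fact (LocHyp P.O θQ (prodTw P.O (tw₁E Q hp3 E hE c hc hc1 twP hD)
      (twχE Q hp3 E hE c hc hc1 twP hD))) :=
  ⟨G2.locHyp_T Q.Sy Q.𝔪 (primeDataE Q E hE) (Q.hyp hp3) 0 g c hc hc1 twP hD θQ hlocP⟩

theorem finite_prodE : Module.Finite P.O
    ((twE Q hp3 E hE c hc hc1).L1.M × (twE Q hp3 E hE c hc hc1).Lχ.M) :=
  GB.B3.FreeLevelInst.finite_prod _

theorem free_prodE : Module.Free P.O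
    ((twE Q hp3 E hE c hc hc1).L1.M × (twE Q hp3 E hE c hc hc1).Lχ.M) :=
  GB.B3.FreeLevelInst.free_prod _

theorem nontrivial_prodE : Nontrivial
    ((twE Q hp3 E hE c hc hc1).L1.M × (twE Q hp3 E hE c hc hc1).Lχ.M) :=
  GB.B3.FreeLevelInst.nontrivial_prod _
    (fun i => Nfun_pos hpF.out (eRev E) (0 + g) (Fin.natAdd 0 i))
    (twE_d_pos Q hp3 E hE c hc hc1)

end G3E

end

end GE6.Inst.PsiQ

end Fermat.Agent.GE8.P3B
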