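/-
GATE-E (S59) / ENGINE-INST node N4 = item (ii), file 2 (helper52): **G3 at `twE`**, i.e.
`ψ_Q : R_Q → T_Q` for the ENGINE's flat deformation problem at a Taylor–Wiles set of the minimal
level.  Objects and instances: `GE6/Inst/PsiQ` (`TE`, `a₁E`, `tw₁E`, `twχE`, `fact_locHypE`,
`finite_prodE`, `free_prodE`, `nontrivial_prodE`, `exists_twP_twE`).

The `R_Q`-module structure on `M_Q = (FQ1 …).M = (twE …).L1.M` of `ModSide.ModSideData` is
`UnitInst.moduleOfHom (a₁E …) ψ` (helper49) for the `ψ` of `exists_psi_twE`.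
-/
import Fermat.Agent.GE8.P3B.GE6.Inst.PsiQ
import Fermat.Agent.GE8.P3B.StepGen
import Fermat.Agent.GE8.P3B.Ok3W

/- TWIN (helper6 B4 generator; conventions of helper24 / helper86) of `Fermat.Agent.GE6.Inst.PsiQG3` with `p ≠ 3` relaxed to `Ok3A Sy 𝔪 p` / `Ok3W p W` (RISK-5 fix (B), step B4); everything below lives in the wrapper namespace `Fermat.Agent.GE8.P3B`. -/
set_option linter.dupNamespace false
open Fermat Fermat.Agent Fermat.Agent.GB Fermat.Agent.GB.B3 Fermat.Agent.GB.B3.ChiLevelMulti Fermat.Agent.GB.B3.GamH Fermat.Agent.GB.B3.HeckeActH Fermat.Agent.GB.B3.RealLevel Fermat.Agent.GB.B3.TWChars Fermat.Agent.GB.B3.TWLevel Fermat.Agent.GB.B4 Fermat.Agent.GB.B4.Datum Fermat.Agent.GB.B4.Datum.ImageRing Fermat.Agent.GB.B4.Datum.TQFields Fermat.Agent.GB.B9 Fermat.Agent.GB.B9.ProviderFlat Fermat.Agent.GB.Def Fermat.Agent.GB.Def.FramedNodes Fermat.Agent.GB.Setup Fermat.Agent.GB.Setup.SetupPkg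 Fermat.Agent.GE Fermat.Agent.GE.Graph Fermat.Agent.GE6 Fermat.Agent.GE6.Inst Fermat.Agent.GJ Fermat.Agent.GJ.J2 Fermat.Agent.GJ.J2.Lat Fermat.Agent.GM Fermat.Agent.GM.B

namespace Fermat.Agent.GE8.P3B

set_option autoImplicit false
set_option linter.unusedSectionVars false
set_option linter.unusedVariables false
set_option linter.style.haveILetI false

open WeierstrassCurve WeierstrassCurve.Affine.Point IsLocalRing
open scoped WeierstrassCurve.Affine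
open scoped MatrixGroups
open CongruenceSubgroup ModularCurve.Period CuspForm Polynomial

namespace GE6.Inst.PsiQ

open GM.B
open GB.B3.HeckeActH GB.B3.RealLevel GB.B3.Tower
  GB.B3.TWChars GB.B3.FinalTW GB.B3.Plug
  GB.B3.TWLevel GB.B3.GamH GB.B3.ChiLevelMulti
  GB.B3.Final
open GJ.J2.Lat
open GB.B4.Datum.ImageRing GB.B4.Datum.TQFields
open GB.Setup.SetupPkg
open GB.Def.FramedNodes
open GB.B9.ProviderFlat GB.B9.ProviderFlat.G1
open GE6.Inst.FreeLevelInst GE6.Inst.FreeLevelTw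
open GE.Graph GaloisRep

/-- `ℚ̄`. -/
local notation "Qb" => AlgebraicClosure ℚ
/-- `G_ℚ`. -/
local notation "GQ" => (AlgebraicClosure ℚ ≃ₐ[ℚ] AlgebraicClosure ℚ)
/-- the character `Γ₀(N) → Δ` of a character of `(ℤ/N)ˣ`. -/
local notation "chiΓ" => GB.B3.EisGamma0.chi
/-- the structure map `A → T_Q`. -/
local notation "chiT" => GB.B4.Datum.ImageRing.chi

noncomputable section

variable {p : ℕ} [hpF : Fact p.Prime] {W : WeierstrassCurve ℤ}
  {hcard₁ : Nat.card (Submodule.torsionBy ℤ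
    ((W.map (Int.castRingHom ℚ))⁄(AlgebraicClosure ℚ)).Point p) = p ^ 2}
  {hker : GaloisFactorsThroughFiniteLevel
    (galoisRepModuleEnd (K := AlgebraicClosure ℚ) ℚ (W.map (Int.castRingHom ℚ)) p)}
  {M A : ℕ} {P : Pkg p W hcard₁ hker M A} {g n : ℕ} (Q : TWSet P g n)
  (hp3 : Ok3W p W) (E : Fin g → ℕ) (hE : ∀ j, p ^ E j ∣ Q.qv j - 1)
  (c : Fin 0 → P.O) (hc : ∀ v : Fin 0, c v ^ p ^ eRev E (0 + g - 1 - v) = 1)
  (hc1 : ∀ v, (1 : P.O) - c v ∈ Ideal.span {P.ϖ})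
  {SQ : Finset ℕ}
  (twP : ↥(heckeAlgebra (NQ0 Q) 2 (↑SQ : Set ℕ)) →+*
    Module.End P.O (bigLevel Q.Sy Q.𝔪 (primeDataE Q E hE) (Q.hyp hp3) (0 + g)).M)
  (hD : ∀ t i, twP t * (bigLevel Q.Sy Q.𝔪 (primeDataE Q E hE) (Q.hyp hp3) (0 + g)).D i =
    (bigLevel Q.Sy Q.𝔪 (primeDataE Q E hE) (Q.hyp hp3) (0 + g)).D i * twP t)
  (θQ : ↥(heckeAlgebra (NQ0 Q) 2 (↑SQ : Set ℕ)) →+* P.k)

/-- **G3 at `twE`** for the ENGINE's flat problem `condFL P.O p P.Smin (image Q.qv)` at the minimal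
level (`M` squarefree, `p ∤ M`, no framed prime): `ψ_Q : R_Q → T_Q` surjective and local, `ρ_Q`
over `T_Q` with `R_Q`-push `≅ ρ_Q`, the Frobenius characteristic polynomials, `det = cyc` and the
residual representation. -/
theorem exists_psi_twE
    [Fact (LocHyp P.O θQ (prodTw P.O (tw₁E Q hp3 E hE c hc hc1 twP hD)
      (twχE Q hp3 E hE c hc hc1 twP hD)))]
    [Module.Finite P.O ((twE Q hp3 E hE c hc hc1).L1.M × (twE Q hp3 E hE c hc hc1).Lχ.M)]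
    [Module.Free P.O ((twE Q hp3 E hE c hc hc1).L1.M × (twE Q hp3 E hE c hc hc1).Lχ.M)]
    [Nontrivial ((twE Q hp3 E hE c hc hc1).L1.M × (twE Q hp3 E hE c hc hc1).Lχ.M)]
    (hsq : Squarefree M) (hpM : ¬ p ∣ M) (hSu : P.Su = ∅)
    (hpS : p ∈ SQ) (hNS : ∀ ℓ : ℕ, ℓ.Prime → ℓ ∣ NQ0 Q → ℓ ∈ SQ)
    (hfrobQ : ∀ (ℓ : ℕ) (hℓ : ℓ.Prime) (hℓN : ¬ ℓ ∣ NQ0 Q) (hℓS : ℓ ∉ (↑SQ : Set ℕ))
      (Pl : ValuationSubring Qb), Pl.LiesOverPrime ℓ → ∀ σ : GQ, Pl.IsFrobeniusAt σ ℓ →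
        LinearMap.charpoly (P.rhobar.ρ σ) =
          X ^ 2 - C (θQ (heckeAlgebra.T hℓ hℓN hℓS)) * X + C ((ℓ : ℕ) : P.k))
    (DQ : DeformationRingData P.O P.rhobar (condFL P.O p P.Smin (Finset.univ.image Q.qv))) :
    ∃ (ψ : DQ.R →ₐ[P.O] TE Q hp3 E hE c hc hc1 twP hD θQ)
      (hψl : IsLocalHom (ψ : DQ.R →+* TE Q hp3 E hE c hc hc1 twP hD θQ))
      (ρQ : GaloisRepAdic (TE Q hp3 E hE c hc hc1 twP hD θQ)),
      Function.Surjective ψ ∧
      (DQ.ρ.baseChangeAlong (ψ : DQ.R →+* TE Q hp3 E hE c hc hc1 twP hD θQ) hψl).IsEquiv ρQ ∧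
      (∀ (ℓ : ℕ) (hℓ : ℓ.Prime) (hℓN : ¬ ℓ ∣ NQ0 Q) (hℓS : ℓ ∉ (↑SQ : Set ℕ))
        (Pl : ValuationSubring Qb), Pl.LiesOverPrime ℓ → ∀ σ : GQ, Pl.IsFrobeniusAt σ ℓ →
          LinearMap.charpoly (ρQ.ρ σ) =
            X ^ 2 - C (chiT P.O θQ (prodTw P.O (tw₁E Q hp3 E hE c hc hc1 twP hD)
                (twχE Q hp3 E hE c hc hc1 twP hD)) (heckeAlgebra.T hℓ hℓN hℓS)) * X
              + C ((ℓ : TE Q hp3 E hE c hc hc1 twP hD θQ))) ∧
      ρQ.DetIsCyclotomic p ∧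
      ρQ.residual.IsEquiv
        (P.rhobar.baseChangeAlong
          (ResidueField.map (algebraMap P.O (TE Q hp3 E hE c hc hc1 twP hD θQ)))) := by
  have hpT : p ∈ P.Smin ∪ P.Su ∪ Finset.univ.image Q.qv :=
    Finset.mem_union_left _ (Finset.mem_union_left _ P.p_mem_Smin)
  have hNT : ∀ q : ℕ, q.Prime → q ∣ NQ0 Q → q ∈ P.Smin ∪ P.Su ∪ Finset.univ.image Q.qv := by
    intro q hq hqN
    rcases hNprimes0 Q q hq hqN with h | h
    · by_cases hqp : q = p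
      · rw [hqp]
        exact hpT
      · rcases P.mem_Smin_or_mem_Su hq h hqp with h' | h'
        · exact Finset.mem_union_left _ (Finset.mem_union_left _ h')
        · exact Finset.mem_union_left _ (Finset.mem_union_right _ h')
    · exact Finset.mem_union_right _ h
  have hSmin : ∀ q ∈ P.Smin, q.Prime → q ≠ p → q ∣ NQ0 Q ∧ ¬ q ^ 2 ∣ NQ0 Q := by
    intro q hq hqpr hqp
    rcases P.dvd_of_mem_Smin hq with h | h
    · exact absurd h hqp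
    · exact hexact0 Q hsq q hqpr h
  -- (`have` first: `obtain … := <term>` makes `rcases` unfold the big objects)
  have key :=
    G3.exists_psi_TQ_flat (θ := θQ)
      (tw := prodTw P.O (tw₁E Q hp3 E hE c hc hc1 twP hD) (twχE Q hp3 E hE c hc hc1 twP hD))
      P.hp2 P.hpO (not_dvd_NQ0 Q hpM) hpS hNS P.rhobar P.habs
      (fun ℓ hℓ hℓN hℓS Pl hPl σ hσ => ⟨_, hfrobQ ℓ hℓ hℓN hℓS Pl hPl σ hσ⟩)
      P.Smin P.Su (Finset.univ.image Q.qv) ∅ hpT hNT hSmin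
      (fun q hq => absurd hq (Finset.notMem_empty q))
      (ofIff (condFL_iff_framedCond p P.Smin P.Su (Finset.univ.image Q.qv) hSu) DQ)
  obtain ⟨ψ, hψ, ρQ, h1, h2, h3, h4, -, h6⟩ := key
  refine ⟨ψ, hψ, ρQ, ?_, ?_, ?_, ?_, ?_⟩
  · exact h1
  · exact h2
  · exact h3
  · exact h4
  · exact h6


end

end GE6.Inst.PsiQ

end Fermat.Agent.GE8.P3B
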