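import Fermat.Agent.GE8.P3B.GE6.Inst.Wire
import Fermat.Agent.GE6.Inst.PiSemilin
import Fermat.Agent.GB.Def.Cond.FL
import Fermat.Agent.GB.Def.CondStrictPkg
import Fermat.Agent.GE8.P3B.StepGen
import Fermat.Agent.GE8.P3B.Ok3W

/- TWIN (helper6 B4 generator; conventions of helper24 / helper86) of `Fermat.Agent.GE6.Inst.NodeProof` with `p ≠ 3` relaxed to `Ok3A Sy 𝔪 p` / `Ok3W p W` (RISK-5 fix (B), step B4); everything below lives in the wrapper namespace `Fermat.Agent.GE8.P3B`. -/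
set_option linter.dupNamespace false
open Fermat Fermat.Agent Fermat.Agent.GB Fermat.Agent.GB.B3 Fermat.Agent.GB.B3.HeckeActH Fermat.Agent.GB.B3.RealLevel Fermat.Agent.GB.B3.TWChars Fermat.Agent.GB.B3.TWLevel Fermat.Agent.GB.B8 Fermat.Agent.GB.B8.LevelGen Fermat.Agent.GB.B8.LevelIter Fermat.Agent.GB.B9 Fermat.Agent.GB.B9.ProviderFlat Fermat.Agent.GB.B9.ProviderFlat.H1 Fermat.Agent.GB.E2 Fermat.Agent.GB.E2.TameGenAdic Fermat.Agent.GB.Setup Fermat.Agent.GB.Setup.SetupPkg Fermat.Agent.GE Fermat.Agent.GE.Graph Fermat.Agent.GE2 Fermat.Agent.GE2.DeltaQData Fermat.Agent.GE6 Fermat.Agent.GE6.Inst Fermat.Agent.GE6.Inst.BaseIndep Fermat.Agent.GE6.Inst.MapBase Fermat.Agent.GE6.Inst.ModSide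

namespace Fermat.Agent.GE8.P3B

/-!
# GATE-E / E6 node N8b NodeProof, layer 1 (helper72): `Wire.NodeStmt` from a RECORD at every `Q`

`Wire.NodeStmt P hp3 𝒟 D₀ φ₀ L eL` has two clauses, (UNIT) and (SEMILIN).  This file DISCHARGES
(SEMILIN) by helper12's `PiSemilin.semilin_of_frob` and reduces `NodeStmt` to ONE record at every
Taylor–Wiles set `Q` (`RecordAt`, a structure; `RecordStmt`): a LOCAL `T_Q`, `a : T_Q →ₐ End (twE …).L1.M`,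
`ψ : DQ.R →ₐ T_Q` local with `ρ^univ_Q ⊗_ψ ≅ ρ_Q`, a finite set `BQ` of bad primes and
`tQ : ℕ → T_Q` with

* (ES)   `charpoly ρ_Q(Frob_ℓ) = X² − tQ ℓ · X + ℓ` for the primes `ℓ ∉ BQ`;
* (GEN)  the `tQ ℓ`, `ℓ ∉ BQ`, generate `T_Q` as an `𝒪`-algebra;
* (PI)   for `ℓ ∉ BQ` there is a GOOD symbol `s` of `Q` with prime `ℓ` and
         `L1.π (a (tQ ℓ) m) = L1.π (L1.act (X (inl s)) m)` (the diamond twist dies in the
         coinvariants);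
* (UNIT) the clause of `NodeStmt`, verbatim.

Base side (N7, helper64/helper67/helper12): `T₀` complete noetherian local, `L` a FAITHFUL
`T₀`-module, `eL : Mbase P ≃ₗ L` with `eL (actBase P (X s) y) = t₀ (pr s) • eL y`, and the
Eichler–Shimura relation of `ρ_{T₀}` with the SAME `t₀`.

* `htQ_of_pi` : the Hecke compatibility of `πM = eL ∘ e₀ ∘ L1.π` on the generators;
* **`nodeStmt_of_recordStmt`** : `RecordStmt ⟹ NodeStmt` (any family `𝒟` of deformation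
  conditions);
* `nodeStmt_FL_of_recordStmt`, `nodeStmt_SO_of_recordStmt` : the two engine problems.
-/

set_option autoImplicit false
set_option linter.unusedSectionVars false
set_option linter.unusedVariables false
set_option linter.style.haveILetI false

open scoped MatrixGroups
open CongruenceSubgroup

namespace GE6.Inst.NodeProof

open IsLocalRing Function Polynomial GaloisRep
open GB.B3 GB.B3.TWLevel GB.B3.RealLevel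
  GB.B3.HeckeActH GB.B3.TWChars GB.B3.FinalTW
  GB.B3.Final GB.B3.Tower
  GB.B8.LevelIter GB.B8.LevelGen
  GE6.Inst.BaseIndep GE6.Inst.MapBase
  GE6.Inst.FreeLevelInst GE6.Inst.FreeLevelTw
  GE6.Inst.ModSide GE6.Inst.Wire
  GE.Graph GE2.DeltaQData GB.E2.TameGenAdic
open WeierstrassCurve WeierstrassCurve.Affine.Point
open GB.Setup.SetupPkg GB.B9.ProviderFlat.G1
  GB.B9.ProviderFlat.H1

/-- `ℚ̄`. -/
local notation "Qb" => AlgebraicClosure ℚ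
/-- `G_ℚ`. -/
local notation "GQ" => (AlgebraicClosure ℚ ≃ₐ[ℚ] AlgebraicClosure ℚ)

variable {p : ℕ} [hpF : Fact p.Prime] {W : WeierstrassCurve ℤ}
  {hcard₁ : Nat.card (Submodule.torsionBy ℤ
    ((W.map (Int.castRingHom ℚ)).toAffine.baseChange (AlgebraicClosure ℚ)).Point p) = p ^ 2}
  {hker : GaloisFactorsThroughFiniteLevel
    (WeierstrassCurve.Affine.Point.galoisRepModuleEnd (K := AlgebraicClosure ℚ) ℚ
      (W.map (Int.castRingHom ℚ)) p)}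
  {M A : ℕ} (P : Pkg p W hcard₁ hker M A)

/-! ### the record at every Taylor–Wiles set -/

section RecordAbs

variable {𝒪 : Type} [CommRing 𝒪] [IsDomain 𝒪] [IsDiscreteValuationRing 𝒪]
  [IsAdicComplete (maximalIdeal 𝒪) 𝒪]
  {𝕋 : Type} [CommRing 𝕋] [Algebra 𝒪 𝕋]
  {M0 : Type} [AddCommGroup M0] [Module 𝒪 M0] {act0 : 𝕋 →ₐ[𝒪] Module.End 𝒪 M0}
  {k : ℕ} {N : Fin k → ℕ}

/-- **the record at one Taylor–Wiles set** = N4 (MODQ: `T_Q, a, ψ, ρ_Q`, (ES), (GEN), (PI)) +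
N5 (UNIT), for a GATE-B level `F`, good symbols `sym : ι₁ → 𝕋` of primes `pr : ι₁ → ℕ`, a
deformation ring `DQ` and units `g`.  (A STRUCTURE over an ABSTRACT level on purpose: destructuring
a long `∃` over `(twE …).L1` takes minutes.) -/
structure RecordAt (F : FreeLevel 𝒪 𝕋 M0 act0 k N) (ι₁ : Type) (pr : ι₁ → ℕ) (sym : ι₁ → 𝕋)
    {ρbar : ResidualGaloisRep (ResidueField 𝒪)} {𝒟Q : DefCondE 𝒪}
    (DQ : DeformationRingData 𝒪 ρbar 𝒟Q) (g : Fin k → (DQ.R)ˣ) : Type 1 where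
  /-- the Hecke ring `T_Q` -/
  TQ : Type
  [instCommRing : CommRing TQ]
  [instLocal : IsLocalRing TQ]
  [instAlgebra : Algebra 𝒪 TQ]
  /-- its action on `M_Q` -/
  a : TQ →ₐ[𝒪] Module.End 𝒪 F.M
  /-- `R_Q → T_Q` -/
  ψ : DQ.R →ₐ[𝒪] TQ
  hψ : IsLocalHom (ψ : DQ.R →+* TQ)
  /-- the Galois representation over `T_Q` -/
  ρQ : GaloisRepAdic TQ
  /-- the bad primes -/
  BQ : Finset ℕ
  /-- the Hecke operators `T_ℓ ∈ T_Q` -/
  tQ : ℕ → TQ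
  /-- `ρ^univ_Q ⊗_ψ ≅ ρ_Q` -/
  hQρ : (DQ.ρ.baseChangeAlong (ψ : DQ.R →+* TQ) hψ).IsEquiv ρQ
  /-- (ES) -/
  hES : ∀ ℓ : ℕ, ℓ.Prime → ℓ ∉ BQ → ∀ Pℓ : ValuationSubring Qb, Pℓ.LiesOverPrime ℓ →
    ∀ σ : GQ, Pℓ.IsFrobeniusAt σ ℓ →
      LinearMap.charpoly (ρQ.ρ σ) = X ^ 2 - C (tQ ℓ) * X + C ((ℓ : ℕ) : TQ)
  /-- (GEN) -/
  hGEN : Algebra.adjoin 𝒪 {x : TQ | ∃ ℓ : ℕ, ℓ.Prime ∧ ℓ ∉ BQ ∧ x = tQ ℓ} = ⊤
  /-- (PI): the diamond twist dies in the coinvariants -/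
  hPI : ∀ ℓ : ℕ, ℓ.Prime → ℓ ∉ BQ → ∃ s : ι₁, pr s = ℓ ∧
    ∀ m : F.M, F.π (a (tQ ℓ) m) = F.π (F.act (sym s) m)
  /-- (UNIT) -/
  hUNIT : ∀ (j : Fin k) (m : F.M), ∃ m' : F.M, F.D j m - m = a (ψ (g j : DQ.R)) m' - m'

attribute [instance] RecordAt.instCommRing RecordAt.instLocal RecordAt.instAlgebra

end RecordAbs

section Record

/-- **the record at every Taylor–Wiles set** — `Wire.NodeStmt` minus (SEMILIN). -/
def RecordStmt (hp3 : Ok3W p W) (𝒟 : Finset ℕ → DefCondE P.O)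
    (D0 : DeformationRingData P.O P.rhobar (𝒟 ∅)) : Prop :=
  ∀ (r n : ℕ) (Q : TWSet P r n) (E : Fin r → ℕ) (hE : ∀ j, p ^ E j ∣ Q.qv j - 1),
    (∀ j, ∃ m : ℕ, Q.qv j = p ^ E j * m + 1 ∧ ¬ p ∣ m) →
    ∀ (c : Fin 0 → P.O) (hc : ∀ v : Fin 0, c v ^ p ^ eRev E (0 + r - 1 - v) = 1)
      (hc1 : ∀ v, (1 : P.O) - c v ∈ Ideal.span {P.ϖ})
      (DQ : DeformationRingData P.O P.rhobar (𝒟 (Finset.univ.image Q.qv)))
      (Pl : Fin r → ValuationSubring Qb) (φ : Fin r → GQ) (τ : Fin r → GQ),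
      (∀ j, (Pl j).LiesOverPrime (Q.qv j)) → (∀ j, (Pl j).IsFrobeniusAt (φ j) (Q.qv j)) →
      (∀ j, LinearMap.charpoly (P.rhobar.ρ (φ j)) = (X - C (Q.al j)) * (X - C (Q.be j))) →
      (∀ j, IsTameGenerator (Pl j) p (τ j)) →
      ∀ (π : DQ.R →ₐ[P.O] D0.R) (hπ : IsLocalHom (π : DQ.R →+* D0.R)) (g : Fin r → (DQ.R)ˣ),
        Surjective π →
        RingHom.ker (π : DQ.R →+* D0.R) = Ideal.span (Set.range fun j => (g j : DQ.R) - 1) →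
        (DQ.ρ.baseChangeAlong (π : DQ.R →+* D0.R) hπ).IsEquiv D0.ρ →
        (∀ j, LabelledAt DQ.ρ (ResidueField.map (algebraMap P.O DQ.R)) (Pl j) (φ j) (τ j)
          (Q.al j) (Q.be j) (g j)) →
        Nonempty (RecordAt (twE Q hp3 E hE c hc hc1).L1 Q.Sy.ι₁ Q.Sy.ℓ
          (fun s => (MvPolynomial.X (Sum.inl s) : Q.Sy.𝕋 P.O)) DQ g)

end Record

/-! ### the Hecke compatibility of `πM = eL ∘ e₀ ∘ L1.π` on the generators -/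

section Compat

variable {P} {g n : ℕ} (Q : TWSet P g n)
  (hp3 : Ok3W p W) (E : Fin g → ℕ) (hE : ∀ j, p ^ E j ∣ Q.qv j - 1)
  (c : Fin 0 → P.O) (hc : ∀ v : Fin 0, c v ^ p ^ eRev E (0 + g - 1 - v) = 1)
  (hc1 : ∀ v, (1 : P.O) - c v ∈ Ideal.span {P.ϖ})
  (ρs : Q.Sy.𝕋 P.O →ₐ[P.O] Q.Sy.𝕋 P.O)
  (e0 : M0 Q.Sy Q.𝔪 (Δs p (eRev E)) (primeDataE Q E hE).psi ≃ₗ[P.O] Mbase P)
  (he : ∀ t y, e0 (act0 Q.Sy Q.𝔪 (Δs p (eRev E)) (primeDataE Q E hE).psi t y)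
    = actQ Q ρs t (e0 y))
  (hρs : ∀ s, s ∉ Q.Qset → ρs (MvPolynomial.X s) = MvPolynomial.X s)
  {T : Type} [CommRing T] [Algebra P.O T]
  {L : Type} [AddCommGroup L] [Module P.O L] [Module T L] (eL : Mbase P ≃ₗ[P.O] L)
  (t0 : ℕ → T)
  (hcompat : ∀ (s : I0 W p M) (y : Mbase P),
    eL (actBase P (MvPolynomial.X s) y) = t0 s.1 • eL y)

include he hρs hcompat in
/-- a good symbol of `Q` acts on `L` through `t₀` of its prime. -/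
theorem eL_e0_π_act (s : Q.Sy.ι₁) (m : (twE Q hp3 E hE c hc hc1).L1.M) :
    eL (e0 ((twE Q hp3 E hE c hc hc1).L1.π
        ((twE Q hp3 E hE c hc hc1).L1.act (MvPolynomial.X (Sum.inl s)) m)))
      = t0 (Q.Sy.ℓ s) • eL (e0 ((twE Q hp3 E hE c hc hc1).L1.π m)) := by
  have hs : (Sum.inl s : Q.Sy.ι₁ ⊕ Q.Sy.ι₂) ∉ Q.Qset := by
    intro h
    obtain ⟨j, hj⟩ := Q.mem_Qset.mp h
    exact Sum.inl_ne_inr hj
  rw [(twE Q hp3 E hE c hc hc1).L1.π_act, he, actQ_X Q ρs (hρs _ hs), hcompat]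
  rfl

end Compat

/-! ### `RecordStmt ⟹ NodeStmt` -/

section Main

variable {T : Type} [CommRing T] [IsLocalRing T] [IsNoetherianRing T]
  [IsAdicComplete (maximalIdeal T) T] [Algebra P.O T]

set_option maxHeartbeats 3200000 in
/-- **N8b, layer 1**: the record at every Taylor–Wiles set gives `Wire.NodeStmt`; (SEMILIN) is
helper12's `PiSemilin.semilin_of_frob`. -/
theorem nodeStmt_of_recordStmt (hp3 : Ok3W p W) (𝒟 : Finset ℕ → DefCondE P.O)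
    (h𝒟 : ∀ Sig : Finset ℕ, IsDeformationCondition P.O (𝒟 Sig))
    (D0 : DeformationRingData P.O P.rhobar (𝒟 ∅)) (φ0 : D0.R →ₐ[P.O] T)
    (hlocT : IsLocalHom (algebraMap P.O T))
    (hresT : Surjective (IsLocalRing.residue T ∘ algebraMap P.O T))
    (hφ0 : IsLocalHom (φ0 : D0.R →+* T)) (ρT : GaloisRepAdic T)
    (h0ρ : (D0.ρ.baseChangeAlong (φ0 : D0.R →+* T) hφ0).IsEquiv ρT)
    (B0 : Finset ℕ) (t0 : ℕ → T)
    (h0 : ∀ ℓ : ℕ, ℓ.Prime → ℓ ∉ B0 → ∀ Pℓ : ValuationSubring Qb, Pℓ.LiesOverPrime ℓ →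
      ∀ σ : GQ, Pℓ.IsFrobeniusAt σ ℓ →
        LinearMap.charpoly (ρT.ρ σ) = X ^ 2 - C (t0 ℓ) * X + C ((ℓ : ℕ) : T))
    (L : Type) [AddCommGroup L] [Module P.O L] [Module T L] [IsScalarTower P.O T L]
    (hfaith : ∀ u : T, (∀ y : L, u • y = 0) → u = 0)
    (eL : Mbase P ≃ₗ[P.O] L)
    (hcompat : ∀ (s : I0 W p M) (y : Mbase P),
      eL (actBase P (MvPolynomial.X s) y) = t0 s.1 • eL y)
    (hrec : RecordStmt P hp3 𝒟 D0) :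
    NodeStmt P hp3 𝒟 D0 φ0 L eL := by
  intro r n Q E hE hEfull c hc hc1 ρs e0 he hρs hlam DQ Pl φ τ hP hφ hchar hτ π hπ g hπs hker
    hπρ hlab
  obtain ⟨Rc⟩ :=
    hrec r n Q E hE hEfull c hc hc1 DQ Pl φ τ hP hφ hchar hτ π hπ g hπs hker hπρ hlab
  refine ⟨Rc.TQ, _, _, Rc.a, Rc.ψ, Rc.hUNIT, fun y m => ?_⟩
  -- `πM = eL ∘ e₀ ∘ L1.π`
  let πM : (twE Q hp3 E hE c hc hc1).L1.M →ₗ[P.O] L :=
    (eL : Mbase P →ₗ[P.O] L).comp
      ((e0 : _ →ₗ[P.O] Mbase P).comp (twE Q hp3 E hE c hc hc1).L1.π)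
  have hπM : Surjective πM := by
    intro z
    obtain ⟨x, hx⟩ := (twE Q hp3 E hE c hc hc1).L1.π_surjective (e0.symm (eL.symm z))
    refine ⟨x, ?_⟩
    show eL (e0 ((twE Q hp3 E hE c hc hc1).L1.π x)) = z
    rw [hx, LinearEquiv.apply_symm_apply, LinearEquiv.apply_symm_apply]
  -- Hecke compatibility on the generators
  have htQ : ∀ ℓ : ℕ, ℓ.Prime → ℓ ∉ Rc.BQ → ∀ m, πM (Rc.a (Rc.tQ ℓ) m) = t0 ℓ • πM m := by
    intro ℓ hℓ hℓB m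
    obtain ⟨s, hs, hsm⟩ := Rc.hPI ℓ hℓ hℓB
    show eL (e0 ((twE Q hp3 E hE c hc hc1).L1.π (Rc.a (Rc.tQ ℓ) m)))
      = t0 ℓ • eL (e0 ((twE Q hp3 E hE c hc hc1).L1.π m))
    rw [hsm m, eL_e0_π_act Q hp3 E hE c hc hc1 ρs e0 he hρs eL t0 hcompat s m, hs]
  exact GE6.Inst.PiSemilin.semilin_of_frob D0 DQ (h𝒟 _) hlocT hresT π hπ hπρ φ0 hφ0
    ρT h0ρ Rc.ψ Rc.hψ Rc.ρQ Rc.hQρ Rc.a hfaith πM hπM
    {x : Rc.TQ | ∃ ℓ : ℕ, ℓ.Prime ∧ ℓ ∉ Rc.BQ ∧ x = Rc.tQ ℓ} Rc.hGEN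
    (fun x hx => by
      obtain ⟨ℓ, hℓ, hℓB, rfl⟩ := hx
      exact ⟨t0 ℓ, htQ ℓ hℓ hℓB⟩)
    (B0 ∪ Rc.BQ) Rc.tQ t0
    (fun ℓ hℓ hℓB m => htQ ℓ hℓ (fun h => hℓB (Finset.mem_union_right _ h)) m)
    (fun ℓ hℓ hℓB Pℓ hPℓ σ hσ =>
      Rc.hES ℓ hℓ (fun h => hℓB (Finset.mem_union_right _ h)) Pℓ hPℓ σ hσ)
    (fun ℓ hℓ hℓB Pℓ hPℓ σ hσ =>
      h0 ℓ hℓ (fun h => hℓB (Finset.mem_union_left _ h)) Pℓ hPℓ σ hσ)
    y m

/-- **N8b, layer 1, flat problem.** -/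
theorem nodeStmt_FL_of_recordStmt (hp3 : Ok3W p W)
    (D0 : DeformationRingData P.O P.rhobar (condFL P.O p P.Smin ∅)) (φ0 : D0.R →ₐ[P.O] T)
    (hlocT : IsLocalHom (algebraMap P.O T))
    (hresT : Surjective (IsLocalRing.residue T ∘ algebraMap P.O T))
    (hφ0 : IsLocalHom (φ0 : D0.R →+* T)) (ρT : GaloisRepAdic T)
    (h0ρ : (D0.ρ.baseChangeAlong (φ0 : D0.R →+* T) hφ0).IsEquiv ρT)
    (B0 : Finset ℕ) (t0 : ℕ → T)
    (h0 : ∀ ℓ : ℕ, ℓ.Prime → ℓ ∉ B0 → ∀ Pℓ : ValuationSubring Qb, Pℓ.LiesOverPrime ℓ →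
      ∀ σ : GQ, Pℓ.IsFrobeniusAt σ ℓ →
        LinearMap.charpoly (ρT.ρ σ) = X ^ 2 - C (t0 ℓ) * X + C ((ℓ : ℕ) : T))
    (L : Type) [AddCommGroup L] [Module P.O L] [Module T L] [IsScalarTower P.O T L]
    (hfaith : ∀ u : T, (∀ y : L, u • y = 0) → u = 0)
    (eL : Mbase P ≃ₗ[P.O] L)
    (hcompat : ∀ (s : I0 W p M) (y : Mbase P),
      eL (actBase P (MvPolynomial.X s) y) = t0 s.1 • eL y)
    (hrec : RecordStmt P hp3 (condFL P.O p P.Smin) D0) :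
    NodeStmt P hp3 (condFL P.O p P.Smin) D0 φ0 L eL :=
  nodeStmt_of_recordStmt P hp3 (condFL P.O p P.Smin)
    (fun Sig => GB.Def.Cond.isDeformationCondition_FL P.O p (P.Smin ∪ Sig) P.Smin)
    D0 φ0 hlocT hresT hφ0 ρT h0ρ B0 t0 h0 L hfaith eL hcompat hrec

/-- **N8b, layer 1, strict-ordinary problem.** -/
theorem nodeStmt_SO_of_recordStmt (hp3 : Ok3W p W)
    (D0 : DeformationRingData P.O P.rhobar (condSO P.O p P.Smin ∅)) (φ0 : D0.R →ₐ[P.O] T)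
    (hlocT : IsLocalHom (algebraMap P.O T))
    (hresT : Surjective (IsLocalRing.residue T ∘ algebraMap P.O T))
    (hφ0 : IsLocalHom (φ0 : D0.R →+* T)) (ρT : GaloisRepAdic T)
    (h0ρ : (D0.ρ.baseChangeAlong (φ0 : D0.R →+* T) hφ0).IsEquiv ρT)
    (B0 : Finset ℕ) (t0 : ℕ → T)
    (h0 : ∀ ℓ : ℕ, ℓ.Prime → ℓ ∉ B0 → ∀ Pℓ : ValuationSubring Qb, Pℓ.LiesOverPrime ℓ →
      ∀ σ : GQ, Pℓ.IsFrobeniusAt σ ℓ →
        LinearMap.charpoly (ρT.ρ σ) = X ^ 2 - C (t0 ℓ) * X + C ((ℓ : ℕ) : T))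
    (L : Type) [AddCommGroup L] [Module P.O L] [Module T L] [IsScalarTower P.O T L]
    (hfaith : ∀ u : T, (∀ y : L, u • y = 0) → u = 0)
    (eL : Mbase P ≃ₗ[P.O] L)
    (hcompat : ∀ (s : I0 W p M) (y : Mbase P),
      eL (actBase P (MvPolynomial.X s) y) = t0 s.1 • eL y)
    (hrec : RecordStmt P hp3 (condSO P.O p P.Smin) D0) :
    NodeStmt P hp3 (condSO P.O p P.Smin) D0 φ0 L eL :=
  nodeStmt_of_recordStmt P hp3 (condSO P.O p P.Smin)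
    (fun Sig => GB.Def.Cond.isDeformationCondition_SO P.O p P.hp2 (P.Smin ∪ Sig)
      P.Smin)
    D0 φ0 hlocT hresT hφ0 ρT h0ρ B0 t0 h0 L hfaith eL hcompat hrec

end Main

end GE6.Inst.NodeProof

end Fermat.Agent.GE8.P3B
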