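/-
GATE-E / ENGINE-INST (helper49), node N5 (iv) UNIT of helper12's table (board 7604): **the field
`unit` of `ModSide.ModSideData` at the object of record `(FreeLevelTw.twE …).L1 = (FQ1 …).M`**,
`T_Q := G2.T … 0 g c …`, `a := G2.a₁ …`, `x j := ψ_Q (g j)`.

* `pow_eq_one_of_labelledAt` : a LABELLED unit at a Taylor–Wiles prime `q = p^a m + 1`, `p ∤ m`,
  satisfies `u ^ p^a = 1` (uniqueness of the labelled unit `GE2/LabelMap.labelledAt_unique` +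
  `GE2/DeltaQ.exists_tw_unit`) — so the hypothesis `hxpow` of `UnitInst.hunit_of_labelled` is free;
* `hunit_of_labelled'` : `UnitInst.hunit_of_labelled` WITHOUT `hxpow`;
* `h1_twE` : the binder `h1` ((1pt)) of `hunit_of_labelled` at `twE`, from `G4H1.h1_G2` (`s = 0`,
  left disjunct), in the binder spelling of helper6's `FlatFill.h1_twR`;
* **`hunit_twE`** : (UNIT) for the `DQ.R`-module structure `UnitInst.moduleOfHom (a₁E …) ψ` on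
  `(twE …).L1.M`: `∀ j m, ∃ m', L1.D j m - m = (gu j : DQ.R) • m' - m'` — the field
  `ModSideData.unit` VERBATIM (`F := FQ1 …`, `FQ1_M`, `FQ1_D` are `rfl`).  Binders: the G2 record
  (`twP hD hι dℓ hdℓ hnd hsym`, four instances), the G3 record over `T_Q` (`ψ hψl ρQ hequiv hρ hdet
  hres`), the labels and the labelled units of `ModSide.ModSideStmt`, and `hB5` (helper51
  `B5Gen.hB5_twE`, announced board 7486) in the shape of `UnitInst.hunit_of_labelled`.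
-/
import Fermat.Agent.GE6.Inst.UnitInst
import Fermat.Agent.GE8.P3B.GE6.Inst.FreeLevelTw
import Fermat.Agent.GE8.P3B.GB.B9.ProviderFlat.G2
import Fermat.Agent.GE8.P3B.GB.B9.ProviderFlat.G4H1
import Fermat.Agent.GB.B9.ProviderFlat.G4Pkg
import Fermat.Agent.GE8.P3B.StepGen
import Fermat.Agent.GE8.P3B.Ok3W

/- TWIN (helper6 B4 generator; conventions of helper24 / helper86) of `Fermat.Agent.GE6.Inst.UnitTwE` with `p ≠ 3` relaxed to `Ok3A Sy 𝔪 p` / `Ok3W p W` (RISK-5 fix (B), step B4); everything below lives in the wrapper namespace `Fermat.Agent.GE8.P3B`. -/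
set_option linter.dupNamespace false
open Fermat Fermat.Agent Fermat.Agent.Common_helper32 Fermat.Agent.GB Fermat.Agent.GB.B3 Fermat.Agent.GB.B3.ChiLevelMulti Fermat.Agent.GB.B3.GamH Fermat.Agent.GB.B3.HeckeActH Fermat.Agent.GB.B3.RealLevel Fermat.Agent.GB.B3.TWChars Fermat.Agent.GB.B3.TWLevel Fermat.Agent.GB.B4 Fermat.Agent.GB.B4.Datum Fermat.Agent.GB.B4.Datum.ImageRing Fermat.Agent.GB.B4.Datum.TQFields Fermat.Agent.GB.B9 Fermat.Agent.GB.B9.ProviderFlat Fermat.Agent.GB.E2 Fermat.Agent.GB.E2.TWDiag Fermat.Agent.GB.E2.TameGenAdic Fermat.Agent.GB.Glue Fermat.Agent.GB.Glue.Points Fermat.Agent.GB.Setup Fermat.Agent.GB.Setup.SetupPkg Fermat.Agent.GE2 Fermat.Agent.GE2.DeltaQ Fermat.Agent.GE2.DeltaQData Fermat.Agent.GE2.LabelMap Fermat.Agent.GE6 Fermat.Agent.GE6.Inst Fermat.Agent.GE6.Inst.UnitInst Fermat.Agent.GJ Fermat.Agent.GJ.J2 Fermat.Agent.GJ.J2.Lat Fermat.Agent.GM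 Fermat.Agent.GM.B

namespace Fermat.Agent.GE8.P3B

set_option autoImplicit false
set_option linter.unusedSectionVars false
set_option linter.unusedVariables false
set_option linter.style.haveILetI false

open WeierstrassCurve WeierstrassCurve.Affine.Point IsLocalRing
open scoped WeierstrassCurve.Affine
open scoped MatrixGroups
open CongruenceSubgroup ModularCurve.Period CuspForm Polynomial

namespace GE6.Inst.UnitTwE

open GM.B
open GB.B3.HeckeActH GB.B3.RealLevel GB.B3.Tower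
  GB.B3.TWChars GB.B3.FinalTW GB.B3.Plug
  GB.B3.TWLevel GB.B3.GamH GB.B3.ChiLevelMulti
  GB.B3.Final
open GJ.J2.Lat
open GB.B4.Datum.ImageRing GB.B4.Datum.TQFields
open GB.Setup.SetupPkg
open GB.B9.ProviderFlat GB.B9.ProviderFlat.G1
open GB.E2.TWDiag GB.E2.TameGenAdic GB.Glue.Points
open GE2.DeltaQData GE2.LabelMap GE2.DeltaQ
open GE6.Inst.FreeLevelInst GE6.Inst.FreeLevelTw
open GE6.Inst.UnitInst
open Common_helper32

/-- local instance (Prop-valued class) -/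
local instance factPrimeOffUE {S : Set ℕ} (l : PrimesOff S) : Fact (l.1 : ℕ).Prime := ⟨l.1.2⟩

/-- `ℚ̄`. -/
local notation "Qb" => AlgebraicClosure ℚ
/-- `G_ℚ`. -/
local notation "GQ" => (AlgebraicClosure ℚ ≃ₐ[ℚ] AlgebraicClosure ℚ)
/-- the character `Γ₀(N) → Δ` of a character of `(ℤ/N)ˣ`. -/
local notation "chiΓ" => GB.B3.EisGamma0.chi
/-- the structure map `A → T_Q`. -/
local notation "chiT" => GB.B4.Datum.ImageRing.chi

/-! ### the `p`-power order of a labelled unit -/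

section Pow

variable {A : Type} [CommRing A] [IsLocalRing A] [IsNoetherianRing A]
  [IsAdicComplete (maximalIdeal A) A] {k : Type} [Field k]

/-- **a labelled unit at a Taylor–Wiles prime has `p`-power order.** -/
theorem pow_eq_one_of_labelledAt (ρ : GaloisRepAdic A) (ψ : k →+* ResidueField A) {p q : ℕ}
    (hp : p.Prime) (hq : q.Prime) (hpq : p ≠ q) (hdet : ρ.DetIsCyclotomic p)
    (hres : ρ.residual.IsUnramifiedAt q) (hq1 : (q : A) - 1 ∈ maximalIdeal A)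
    (P : ValuationSubring Qb) (hP : P.LiesOverPrime q) {φ τ : GQ} (hφ : P.IsFrobeniusAt φ q)
    (hτ : IsTameGenerator P p τ) {α β : k} (hαβ : α ≠ β)
    (a₀ b₀ : A) (ha₀ : residue A a₀ = ψ α) (hb₀ : residue A b₀ = ψ β)
    (htr : LinearMap.trace A ρ.V (ρ.ρ φ) - (a₀ + b₀) ∈ maximalIdeal A)
    (hd : LinearMap.det (ρ.ρ φ) - a₀ * b₀ ∈ maximalIdeal A) (hab : IsUnit (a₀ - b₀))
    {u : Aˣ} (hu : LabelledAt ρ ψ P φ τ α β u) :
    ∀ a m : ℕ, q = p ^ a * m + 1 → ¬ p ∣ m → u ^ p ^ a = 1 := by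
  obtain ⟨B, χ, hχ, h0, h1, -, hpow, -⟩ :=
    exists_tw_unit ρ hp hq hpq hdet hres hq1 P hP hφ a₀ b₀ htr hd hab hτ
  have h' : LabelledAt ρ ψ P φ τ α β
      (χ 0 ⟨τ, inertia_le_decomposition P hτ.mem_inertia⟩) := by
    refine ⟨hφ.mem_decompositionSubgroup, inertia_le_decomposition P hτ.mem_inertia, B, χ, hχ,
      ?_, ?_, rfl⟩
    · have h2 := (residue_eq_zero_iff _).mpr h0
      rw [map_sub, sub_eq_zero] at h2
      rw [h2, ha₀]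
    · have h2 := (residue_eq_zero_iff _).mpr h1
      rw [map_sub, sub_eq_zero] at h2
      rw [h2, hb₀]
  have hEq : u = χ 0 ⟨τ, inertia_le_decomposition P hτ.mem_inertia⟩ :=
    labelledAt_unique hαβ h' hu
  rw [hEq]
  exact hpow

end Pow

/-! ### (UNIT) for labelled units, no `hxpow` -/

section Labelled

variable {O : Type} [CommRing O] [IsDomain O] [IsDiscreteValuationRing O]
  [IsAdicComplete (maximalIdeal O) O] [CharZero O]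
  {𝕋 : Type} [CommRing 𝕋] [Algebra O 𝕋]
  {M0 : Type} [AddCommGroup M0] [Module O M0] {act0 : 𝕋 →ₐ[O] Module.End O M0}
  {g : ℕ} {N : Fin g → ℕ} [∀ i, NeZero (N i)]

/-- **`UnitInst.hunit_of_labelled` without `hxpow`.** -/
theorem hunit_of_labelled'
    (L : FreeLevel O 𝕋 M0 act0 g N)
    {p : ℕ} [hpF : Fact p.Prime] (hp2 : p ≠ 2) (hpO : (p : O) ∈ maximalIdeal O)
    (hNpow : ∀ i, ∃ n, N i = p ^ n) (hN : ∀ i, p ∣ N i)
    (T : Type) [CommRing T] [IsLocalRing T] [Algebra O T] [IsLocalHom (algebraMap O T)]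
    [Module.Finite O T] [IsReduced T] [IsNoetherianRing T] [IsAdicComplete (maximalIdeal T) T]
    (a : T →ₐ[O] Module.End O L.M) (a_D : ∀ t i, a t * L.D i = L.D i * a t)
    (Ω : Type) [Field Ω] [IsAlgClosed Ω] [Algebra O Ω] [Module.IsTorsionFree O Ω]
    (ρ : GaloisRepAdic T) (hdet : ρ.DetIsCyclotomic p)
    (ρbar : ResidualGaloisRep (ResidueField O))
    (hres : ρ.residual.IsEquiv (ρbar.baseChangeAlong (ResidueField.map (algebraMap O T))))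
    (r : Fin g → ℕ) (hr : ∀ i, (r i).Prime) (hpr : ∀ i, p ∣ r i - 1)
    (hunrbar : ∀ i, ρbar.IsUnramifiedAt (r i))
    (P : Fin g → ValuationSubring Qb) (hP : ∀ i, (P i).LiesOverPrime (r i))
    (φ : Fin g → GQ) (hφ : ∀ i, (P i).IsFrobeniusAt (φ i) (r i))
    (τ : Fin g → GQ) (hτ : ∀ i, IsTameGenerator (P i) p (τ i))
    (α β : Fin g → ResidueField O) (hαβ : ∀ i, α i ≠ β i)
    (hchar : ∀ i, LinearMap.charpoly (ρbar.ρ (φ i)) = (X - C (α i)) * (X - C (β i)))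
    (x : Fin g → Tˣ)
    (hx : ∀ i, LabelledAt ρ (ResidueField.map (algebraMap O T)) (P i) (φ i) (τ i) (α i) (β i)
      (x i))
    (h1 : ∀ (i : Fin g) (P' : ValuationSubring Qb) (hP' : P'.LiesOverPrime (r i)) (s : GQ)
      (hs : s ∈ P'.inertiaSubgroupIn ℚ) (Bas : Module.Basis (Fin 2) T ρ.V)
      (χ : Fin 2 → P'.decompositionSubgroup ℚ →* Tˣ),
      (∀ (j : Fin 2) (σ : P'.decompositionSubgroup ℚ),
        ρ.ρ (σ : GQ) (Bas j) = (χ j σ : T) • Bas j) →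
      ∀ θ : T →ₐ[O] Ω, G4.Occ₁ L a i θ →
        θ (χ 0 ⟨s, inertia_le_decomposition P' hs⟩ : T) = 1)
    (hB5 : ∀ (i : Fin g) (q : Idx O T)
      (hloc : IsLocalHom ((ψ q : T →ₐ[O] Rq q) : T →+* Rq q)),
      (∀ t : T, (∀ m, a t m ∈ L.unitSub p hN i) → ψ q t = 0) →
      ¬ (ρ.baseChangeAlong ((ψ q : T →ₐ[O] Rq q) : T →+* Rq q) hloc).IsUnipotentOnInertiaAt
        (r i)) :
    ∀ i (m : L.M), ∃ m' : L.M, L.D i m - m = a (x i : T) m' - m' := by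
  classical
  have hp : p.Prime := hpF.out
  have hpT : (p : T) ∈ maximalIdeal T := hdet.1
  have hpne : ∀ i, p ≠ r i := by
    intro i h
    have h1 := hpr i
    rw [← h] at h1
    have := Nat.le_of_dvd (by have := hp.two_le; omega) h1
    have := hp.two_le
    omega
  have hlift : ∀ c : ResidueField O, ∃ t : T,
      residue T t = ResidueField.map (algebraMap O T) c := by
    intro c
    obtain ⟨c₀, rfl⟩ := residue_surjective c
    exact ⟨algebraMap O T c₀, (ResidueField.map_residue (algebraMap O T) c₀).symm⟩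
  choose lift hlift' using hlift
  refine hunit_of_labelled L hp2 hpO hNpow hN T a a_D Ω ρ hdet ρbar hres r hr hpr hunrbar P hP φ hφ
    τ hτ α β hαβ hchar x hx (fun i => ?_) h1 hB5
  -- the `p`-power order
  have hr1 : r i - 1 ≠ 0 := by
    have := (hr i).two_le
    omega
  obtain ⟨a', m, hm, ham⟩ := Nat.exists_eq_pow_mul_and_not_dvd hr1 p hp.ne_one
  have hram : r i = p ^ a' * m + 1 := by
    have := (hr i).two_le
    omega
  obtain ⟨htr, hd, hab, -⟩ := G4Res.twChars_inputs ρ ρbar (ResidueField.map (algebraMap O T))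
    hres (P i) (hP i) (hunrbar i) (φ i) (α i) (β i) (hαβ i) (hchar i) (lift (α i)) (lift (β i))
    (hlift' _) (hlift' _)
  have hpow := pow_eq_one_of_labelledAt ρ (ResidueField.map (algebraMap O T)) hp (hr i) (hpne i)
    hdet
    (isUnramifiedAt_of_isEquiv_baseChangeAlong (ResidueField.map (algebraMap O T)) ρbar
      ρ.residual hres (hunrbar i))
    (G4Res.natCast_sub_one_mem hpT (hr i).one_le (hpr i)) (P i) (hP i) (hφ i) (hτ i) (hαβ i)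
    (lift (α i)) (lift (β i)) (hlift' _) (hlift' _) htr hd hab (hx i) a' m hram hm
  refine ⟨a', ?_⟩
  have h' := congrArg Units.val hpow
  rwa [Units.val_pow_eq_pow_val, Units.val_one] at h'

end Labelled

/-! ### the instance at `twE` -/

noncomputable section

variable {p : ℕ} [hpF : Fact p.Prime] {W : WeierstrassCurve ℤ}
  {hcard₁ : Nat.card (Submodule.torsionBy ℤ
    ((W.map (Int.castRingHom ℚ))⁄(AlgebraicClosure ℚ)).Point p) = p ^ 2}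
  {hker : GaloisFactorsThroughFiniteLevel
    (galoisRepModuleEnd (K := AlgebraicClosure ℚ) ℚ (W.map (Int.castRingHom ℚ)) p)}
  {M A : ℕ} {P : Pkg p W hcard₁ hker M A} {g n : ℕ} (Q : TWSet P g n)
  (hp3 : Ok3W p W) (E : Fin g → ℕ) (hE : ∀ j, p ^ E j ∣ Q.qv j - 1)
  (c : Fin 0 → P.O) (hc : ∀ v : Fin 0, c v ^ p ^ eRev E (0 + g - 1 - v) = 1)
  (hc1 : ∀ v, (1 : P.O) - c v ∈ Ideal.span {P.ϖ})

variable {N'' : ℕ} [NeZero N''] {SQ : Finset ℕ}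
  (twP : ↥(heckeAlgebra N'' 2 (↑SQ : Set ℕ)) →+*
    Module.End P.O (bigLevel Q.Sy Q.𝔪 (primeDataE Q E hE) (Q.hyp hp3) (0 + g)).M)
  (hD : ∀ t i,
    twP t * (bigLevel Q.Sy Q.𝔪 (primeDataE Q E hE) (Q.hyp hp3) (0 + g)).D i =
      (bigLevel Q.Sy Q.𝔪 (primeDataE Q E hE) (Q.hyp hp3) (0 + g)).D i * twP t)
  (θQ : ↥(heckeAlgebra N'' 2 (↑SQ : Set ℕ)) →+* P.k)

/-- helper11's `G2.tw₁` at `twE` -/
abbrev tw₁E :=
  G2.tw₁ Q.Sy Q.𝔪 (primeDataE Q E hE) (Q.hyp hp3) 0 g c hc hc1 twP hD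

/-- helper11's `G2.twχ` at `twE` -/
abbrev twχE :=
  G2.twχ Q.Sy Q.𝔪 (primeDataE Q E hE) (Q.hyp hp3) 0 g c hc hc1 twP hD

/-- **the Hecke ring `T_Q`** of ENGINE-INST: helper11's `G2.T` at `twE` -/
abbrev TE : Type :=
  G2.T Q.Sy Q.𝔪 (primeDataE Q E hE) (Q.hyp hp3) 0 g c hc hc1 twP hD θQ

/-- **its action on `M_Q = (twE …).L1.M = (FQ1 …).M`**: helper11's `G2.a₁` at `twE` -/
abbrev a₁E :=
  G2.a₁ Q.Sy Q.𝔪 (primeDataE Q E hE) (Q.hyp hp3) 0 g c hc hc1 twP hD θQ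

/-- the orders of the diamonds of `(twE …).L1` are nonzero -/
instance neZero_Nfun_natAdd0 (i : Fin g) : NeZero (Nfun p (eRev E) (0 + g) (Fin.natAdd 0 i)) :=
  ⟨(Nfun_pos hpF.out (eRev E) (0 + g) _).ne'⟩

/-- `2` is a nonzerodivisor of `AlgebraicClosure (Frac O)` -/
theorem two_mul_eq_zero_algClosure (c' : AlgebraicClosure (FractionRing P.O))
    (hc' : (2 : AlgebraicClosure (FractionRing P.O)) * c' = 0) : c' = 0 := by
  rcases mul_eq_zero.mp hc' with h2 | h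
  · exact absurd h2 two_ne_zero
  · exact h

/-- **(1pt) at `twE`** = the binder `h1` of `hunit_of_labelled` at `L := (twE …).L1`,
`a := a₁E …`, `r := Q.qv`. -/
theorem h1_twE (hsqN : Squarefree Q.N)
    (hpS : p ∈ SQ) (hNS : ∀ ℓ : ℕ, ℓ.Prime → ℓ ∣ N'' → ℓ ∈ SQ)
    (hSN : ∀ ℓ : ℕ, ℓ.Prime → ℓ ∣ Q.N → ℓ ∈ SQ)
    (dℓ : PrimesOff (↑SQ : Set ℕ) → Gamma0 Q.N)
    (hdℓ : ∀ (l : PrimesOff (↑SQ : Set ℕ)) (u : (ZMod Q.N)ˣ),
      (u : ZMod Q.N) = ((l.1 : ℕ) : ZMod Q.N) →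
        chiΓ (Theta (Δs p (eRev E)) (primeDataE Q E hE).psi (0 + g)) (dℓ l) ^ 2 *
          Theta (Δs p (eRev E)) (primeDataE Q E hE).psi (0 + g) u = 1)
    (hnd : ∀ l : PrimesOff (↑SQ : Set ℕ), ¬ (l.1 : ℕ) ∣ Q.N)
    (hι : ∀ (l : PrimesOff (↑SQ : Set ℕ))
        (x : (bigLevel Q.Sy Q.𝔪 (primeDataE Q E hE) (Q.hyp hp3) (0 + g)).M),
      (bigReal Q.Sy Q.𝔪 (primeDataE Q E hE) (Q.hyp hp3) (0 + g)).ι
          (twP (formsGenS N'' (↑SQ : Set ℕ) l) x) =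
        diaH (Theta (Δs p (eRev E)) (primeDataE Q E hE).psi (0 + g)) P.O (dℓ l)
          (TH (Theta (Δs p (eRev E)) (primeDataE Q E hE).psi (0 + g)) P.O (hnd l)
            ((bigReal Q.Sy Q.𝔪 (primeDataE Q E hE) (Q.hyp hp3) (0 + g)).ι x)))
    (hsym : ∀ l : PrimesOff (↑SQ : Set ℕ), ∃ i : Q.Sy.ι₁, Q.Sy.ℓ i = (l.1 : ℕ) ∧
      θQ (formsGenS N'' (↑SQ : Set ℕ) l) = Q.lamTop (MvPolynomial.X (Sum.inl i)))
    (hfrobQ : ∀ (ℓ : ℕ) (hℓ : ℓ.Prime) (hℓN : ¬ ℓ ∣ N'') (hℓS : ℓ ∉ (↑SQ : Set ℕ))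
      (Pl : ValuationSubring Qb), Pl.LiesOverPrime ℓ → ∀ σ : GQ, Pl.IsFrobeniusAt σ ℓ →
        LinearMap.charpoly (P.rhobar.ρ σ) =
          X ^ 2 - C (θQ (heckeAlgebra.T hℓ hℓN hℓS)) * X + C ((ℓ : ℕ) : P.k))
    [Fact (LocHyp P.O θQ (prodTw P.O (tw₁E Q hp3 E hE c hc hc1 twP hD)
      (twχE Q hp3 E hE c hc hc1 twP hD)))]
    [Module.Finite P.O ((twE Q hp3 E hE c hc hc1).L1.M × (twE Q hp3 E hE c hc hc1).Lχ.M)]
    [Module.Free P.O ((twE Q hp3 E hE c hc hc1).L1.M × (twE Q hp3 E hE c hc hc1).Lχ.M)]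
    [Nontrivial ((twE Q hp3 E hE c hc hc1).L1.M × (twE Q hp3 E hE c hc hc1).Lχ.M)]
    (ρQ : GaloisRepAdic (TE Q hp3 E hE c hc hc1 twP hD θQ))
    (hρ : ∀ (ℓ : ℕ) (hℓ : ℓ.Prime) (hℓN : ¬ ℓ ∣ N'') (hℓS : ℓ ∉ (↑SQ : Set ℕ))
        (Pl : ValuationSubring Qb), Pl.LiesOverPrime ℓ → ∀ σ : GQ, Pl.IsFrobeniusAt σ ℓ →
          LinearMap.charpoly (ρQ.ρ σ) =
            X ^ 2 - C (chiT P.O θQ (prodTw P.O (tw₁E Q hp3 E hE c hc hc1 twP hD)
                (twχE Q hp3 E hE c hc hc1 twP hD)) (heckeAlgebra.T hℓ hℓN hℓS)) * X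
              + C ((ℓ : TE Q hp3 E hE c hc hc1 twP hD θQ))) :
    ∀ (i : Fin g) (Pl : ValuationSubring Qb) (hPl : Pl.LiesOverPrime (Q.qv i))
      (σ : GQ) (hσ : σ ∈ Pl.inertiaSubgroupIn ℚ)
      (Bas : Module.Basis (Fin 2) (TE Q hp3 E hE c hc hc1 twP hD θQ) ρQ.V)
      (χ : Fin 2 → Pl.decompositionSubgroup ℚ →* (TE Q hp3 E hE c hc hc1 twP hD θQ)ˣ),
      (∀ (j : Fin 2) (τ : Pl.decompositionSubgroup ℚ),
        ρQ.ρ (τ : GQ) (Bas j) = (χ j τ : TE Q hp3 E hE c hc hc1 twP hD θQ) • Bas j) →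
      ∀ θ : TE Q hp3 E hE c hc hc1 twP hD θQ →ₐ[P.O] AlgebraicClosure (FractionRing P.O),
        G4.Occ₁ (twE Q hp3 E hE c hc hc1).L1 (a₁E Q hp3 E hE c hc hc1 twP hD θQ) i θ →
          θ (χ 0 ⟨σ, inertia_le_decomposition Pl hσ⟩ :
            TE Q hp3 E hE c hc hc1 twP hD θQ) = 1 := by
  intro i Pl hPl σ hσ Bas χ hχ θ hocc
  haveI : Algebra.IsIntegral P.O (TE Q hp3 E hE c hc hc1 twP hD θQ) :=
    Algebra.IsIntegral.of_finite P.O _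
  have hker𝔪 : ∀ t : Q.Sy.𝕋 P.O, t ∈ Q.𝔪 ↔ Q.lamTop t = 0 := fun t => by
    rw [Q.h𝔪]
    exact RingHom.mem_ker
  have hfrob : ∀ l : PrimesOff (↑SQ : Set ℕ),
      ∀ P' : ValuationSubring Qb, P'.LiesOverPrime (l.1 : ℕ) → ∀ σ' : GQ,
        P'.IsFrobeniusAt σ' (l.1 : ℕ) →
        ∃ d₀ : P.k, LinearMap.charpoly (P.rhobar.ρ σ')
          = X ^ 2 - C (θQ (formsGenS N'' (↑SQ : Set ℕ) l)) * X + C d₀ := by
    intro l P' hP' σ' hσ'
    have hlN'' : ¬ (l.1 : ℕ) ∣ N'' := fun h => l.2 (Finset.mem_coe.mpr (hNS _ l.1.2 h))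
    refine ⟨(((l.1 : ℕ) : ℕ) : P.k), ?_⟩
    rw [formsGenS_of_not_dvd N'' (↑SQ : Set ℕ) l hlN'']
    exact hfrobQ (l.1 : ℕ) l.1.2 hlN'' l.2 P' hP' σ' hσ'
  have hP : Pl.LiesOverPrime (rRev Q (g - 1 - (i : ℕ))) := by
    rw [rRev_idx Q i]
    exact hPl
  have hrp : rRev Q (g - 1 - (i : ℕ)) ≠ p := by
    rw [rRev_idx Q i]
    exact (Q.good i).2.2
  exact G4H1.h1_G2 Q.Sy Q.𝔪 (primeDataE Q E hE) (Q.hyp hp3) 0 g c hc hc1
    twP hD θQ hsqN (Nat.le_of_eq (Nat.zero_add g)) i ρQ hpS hNS hSN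
    hρ dℓ hdℓ hnd hι Q.lamTop hker𝔪 hsym P.rhobar P.habs hfrob
    (two_mul_eq_zero_algClosure (P := P))
    hrp Pl hP Bas χ hχ σ hσ (inertia_le_decomposition Pl hσ) θ (Or.inl hocc) 0

/-- **(UNIT) at `twE`** = the field `unit` of `ModSide.ModSideData` for `F := FQ1 …`, the
`DQ.R`-module structure `moduleOfHom (a₁E …) ψ`. -/
theorem hunit_twE (hsqN : Squarefree Q.N)
    (hpS : p ∈ SQ) (hNS : ∀ ℓ : ℕ, ℓ.Prime → ℓ ∣ N'' → ℓ ∈ SQ)
    (hSN : ∀ ℓ : ℕ, ℓ.Prime → ℓ ∣ Q.N → ℓ ∈ SQ)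
    (dℓ : PrimesOff (↑SQ : Set ℕ) → Gamma0 Q.N)
    (hdℓ : ∀ (l : PrimesOff (↑SQ : Set ℕ)) (u : (ZMod Q.N)ˣ),
      (u : ZMod Q.N) = ((l.1 : ℕ) : ZMod Q.N) →
        chiΓ (Theta (Δs p (eRev E)) (primeDataE Q E hE).psi (0 + g)) (dℓ l) ^ 2 *
          Theta (Δs p (eRev E)) (primeDataE Q E hE).psi (0 + g) u = 1)
    (hnd : ∀ l : PrimesOff (↑SQ : Set ℕ), ¬ (l.1 : ℕ) ∣ Q.N)
    (hι : ∀ (l : PrimesOff (↑SQ : Set ℕ))
        (x : (bigLevel Q.Sy Q.𝔪 (primeDataE Q E hE) (Q.hyp hp3) (0 + g)).M),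
      (bigReal Q.Sy Q.𝔪 (primeDataE Q E hE) (Q.hyp hp3) (0 + g)).ι
          (twP (formsGenS N'' (↑SQ : Set ℕ) l) x) =
        diaH (Theta (Δs p (eRev E)) (primeDataE Q E hE).psi (0 + g)) P.O (dℓ l)
          (TH (Theta (Δs p (eRev E)) (primeDataE Q E hE).psi (0 + g)) P.O (hnd l)
            ((bigReal Q.Sy Q.𝔪 (primeDataE Q E hE) (Q.hyp hp3) (0 + g)).ι x)))
    (hsym : ∀ l : PrimesOff (↑SQ : Set ℕ), ∃ i : Q.Sy.ι₁, Q.Sy.ℓ i = (l.1 : ℕ) ∧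
      θQ (formsGenS N'' (↑SQ : Set ℕ) l) = Q.lamTop (MvPolynomial.X (Sum.inl i)))
    (hfrobQ : ∀ (ℓ : ℕ) (hℓ : ℓ.Prime) (hℓN : ¬ ℓ ∣ N'') (hℓS : ℓ ∉ (↑SQ : Set ℕ))
      (Pl : ValuationSubring Qb), Pl.LiesOverPrime ℓ → ∀ σ : GQ, Pl.IsFrobeniusAt σ ℓ →
        LinearMap.charpoly (P.rhobar.ρ σ) =
          X ^ 2 - C (θQ (heckeAlgebra.T hℓ hℓN hℓS)) * X + C ((ℓ : ℕ) : P.k))
    [Fact (LocHyp P.O θQ (prodTw P.O (tw₁E Q hp3 E hE c hc hc1 twP hD)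
      (twχE Q hp3 E hE c hc hc1 twP hD)))]
    [Module.Finite P.O ((twE Q hp3 E hE c hc hc1).L1.M × (twE Q hp3 E hE c hc hc1).Lχ.M)]
    [Module.Free P.O ((twE Q hp3 E hE c hc hc1).L1.M × (twE Q hp3 E hE c hc hc1).Lχ.M)]
    [Nontrivial ((twE Q hp3 E hE c hc hc1).L1.M × (twE Q hp3 E hE c hc hc1).Lχ.M)]
    [IsReduced (TE Q hp3 E hE c hc hc1 twP hD θQ)]
    -- G3 over `T_Q`
    {𝒟 : ∀ ⦃B : Type⦄ [CommRing B] [IsLocalRing B] [Algebra P.O B], GaloisRepAdic B → Prop}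
    {DQ : GaloisRep.DeformationRingData P.O P.rhobar 𝒟}
    (ψQ : DQ.R →ₐ[P.O] TE Q hp3 E hE c hc hc1 twP hD θQ)
    (hψl : IsLocalHom (ψQ : DQ.R →+* TE Q hp3 E hE c hc hc1 twP hD θQ))
    (ρQ : GaloisRepAdic (TE Q hp3 E hE c hc hc1 twP hD θQ))
    (hequiv : (DQ.ρ.baseChangeAlong
      (ψQ : DQ.R →+* TE Q hp3 E hE c hc hc1 twP hD θQ) hψl).IsEquiv ρQ)
    (hρ : ∀ (ℓ : ℕ) (hℓ : ℓ.Prime) (hℓN : ¬ ℓ ∣ N'') (hℓS : ℓ ∉ (↑SQ : Set ℕ))
        (Pl : ValuationSubring Qb), Pl.LiesOverPrime ℓ → ∀ σ : GQ, Pl.IsFrobeniusAt σ ℓ →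
          LinearMap.charpoly (ρQ.ρ σ) =
            X ^ 2 - C (chiT P.O θQ (prodTw P.O (tw₁E Q hp3 E hE c hc hc1 twP hD)
                (twχE Q hp3 E hE c hc hc1 twP hD)) (heckeAlgebra.T hℓ hℓN hℓS)) * X
              + C ((ℓ : TE Q hp3 E hE c hc hc1 twP hD θQ)))
    (hdet : ρQ.DetIsCyclotomic p)
    (hres : ρQ.residual.IsEquiv
      (P.rhobar.baseChangeAlong
        (ResidueField.map (algebraMap P.O (TE Q hp3 E hE c hc hc1 twP hD θQ)))))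
    (hunrbar : ∀ j, P.rhobar.IsUnramifiedAt (Q.qv j))
    -- the labels and the labelled units of `ModSideStmt`
    (Pl : Fin g → ValuationSubring Qb) (hPl : ∀ j, (Pl j).LiesOverPrime (Q.qv j))
    (φ : Fin g → GQ) (hφ : ∀ j, (Pl j).IsFrobeniusAt (φ j) (Q.qv j))
    (τ : Fin g → GQ) (hτ : ∀ j, IsTameGenerator (Pl j) p (τ j))
    (α β : Fin g → P.k)
    (hαβ : ∀ j, α j ≠ β j ∧
      LinearMap.charpoly (P.rhobar.ρ (φ j)) = (X - C (α j)) * (X - C (β j)))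
    (gu : Fin g → (DQ.R)ˣ)
    (hlab : ∀ j, LabelledAt DQ.ρ (ResidueField.map (algebraMap P.O DQ.R)) (Pl j) (φ j) (τ j)
      (α j) (β j) (gu j))
    -- (B5) (helper51 `B5Gen.hB5_twE`)
    (hNp : ∀ i : Fin g, p ∣ Nfun p (eRev E) (0 + g) (Fin.natAdd 0 i))
    (hB5 : ∀ (i : Fin g) (q : Idx P.O (TE Q hp3 E hE c hc hc1 twP hD θQ))
      (hloc : IsLocalHom ((ψ q : TE Q hp3 E hE c hc hc1 twP hD θQ →ₐ[P.O] Rq q) :
        TE Q hp3 E hE c hc hc1 twP hD θQ →+* Rq q)),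
      (∀ t : TE Q hp3 E hE c hc hc1 twP hD θQ,
        (∀ m, a₁E Q hp3 E hE c hc hc1 twP hD θQ t m ∈
          (twE Q hp3 E hE c hc hc1).L1.unitSub p hNp i) → ψ q t = 0) →
      ¬ (ρQ.baseChangeAlong ((ψ q : TE Q hp3 E hE c hc hc1 twP hD θQ →ₐ[P.O] Rq q) :
        TE Q hp3 E hE c hc hc1 twP hD θQ →+* Rq q) hloc).IsUnipotentOnInertiaAt (Q.qv i)) :
    letI := moduleOfHom (a₁E Q hp3 E hE c hc hc1 twP hD θQ) ψQ
    ∀ (j : Fin g) (m : (twE Q hp3 E hE c hc hc1).L1.M),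
      ∃ m' : (twE Q hp3 E hE c hc hc1).L1.M,
        (twE Q hp3 E hE c hc hc1).L1.D j m - m = (gu j : DQ.R) • m' - m' := by
  haveI : Module.IsTorsionFree P.O (AlgebraicClosure (FractionRing P.O)) :=
    G4Pkg.isTorsionFree_algebraicClosure P.O
  have hNpow : ∀ i : Fin g, ∃ m, Nfun p (eRev E) (0 + g) (Fin.natAdd 0 i) = p ^ m := fun i =>
    ⟨_, congrFun (Nfun0_eq_E E) i⟩
  -- the labelled units over `T_Q`
  have hx : ∀ j, LabelledAt ρQ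
      (ResidueField.map (algebraMap P.O (TE Q hp3 E hE c hc hc1 twP hD θQ))) (Pl j) (φ j) (τ j)
      (α j) (β j)
      (Units.map ((ψQ : DQ.R →+* TE Q hp3 E hE c hc hc1 twP hD θQ) :
        DQ.R →* TE Q hp3 E hE c hc hc1 twP hD θQ) (gu j)) := fun j =>
    labelledAt_map_algHom ψQ hψl hequiv (hlab j)
  have key := hunit_of_labelled' (twE Q hp3 E hE c hc hc1).L1 P.hp2 P.hpO hNpow hNp
    (TE Q hp3 E hE c hc hc1 twP hD θQ) (a₁E Q hp3 E hE c hc hc1 twP hD θQ)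
    (fun t i => G2.a₁_D Q.Sy Q.𝔪 (primeDataE Q E hE) (Q.hyp hp3) 0 g c hc hc1 twP hD θQ t i)
    (AlgebraicClosure (FractionRing P.O)) ρQ hdet P.rhobar hres Q.qv Q.prime
    (fun j => dvd_trans (dvd_pow_self p (Nat.succ_ne_zero n)) (Q.cong j))
    hunrbar Pl hPl φ hφ τ hτ α β (fun j => (hαβ j).1) (fun j => (hαβ j).2)
    (fun j => Units.map ((ψQ : DQ.R →+* TE Q hp3 E hE c hc hc1 twP hD θQ) :
        DQ.R →* TE Q hp3 E hE c hc hc1 twP hD θQ) (gu j)) hx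
    (h1_twE Q hp3 E hE c hc hc1 twP hD θQ hsqN hpS hNS hSN dℓ hdℓ hnd hι hsym hfrobQ ρQ hρ)
    hB5
  exact hunit_compHom (a₁E Q hp3 E hE c hc hc1 twP hD θQ) ψQ (twE Q hp3 E hE c hc hc1).L1.D
    (fun j => (gu j : DQ.R))
    (fun j => ((Units.map ((ψQ : DQ.R →+* TE Q hp3 E hE c hc hc1 twP hD θQ) :
        DQ.R →* TE Q hp3 E hE c hc hc1 twP hD θQ) (gu j) :
          (TE Q hp3 E hE c hc hc1 twP hD θQ)ˣ) : TE Q hp3 E hE c hc hc1 twP hD θQ))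
    (fun j => rfl) key

end

end GE6.Inst.UnitTwE

end Fermat.Agent.GE8.P3B
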