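/-
GATE-E (S59) / E6 node N8b, the RECORD, flat problem (helper52): **`NodeProof.RecordStmt` for the
ENGINE's flat deformation problem at the minimal level** (`M` squarefree, `p ∤ M`, no framed
prime) — the hypothesis `hrec` of helper72's `NodeProof.nodeStmt_FL_of_recordStmt`.

At a Taylor–Wiles set `Q` (with its full exponents `E`):

* `T_Q := TE …` (helper11's `G2.T` at `twE`, forms level `NQ0 Q`), `a := a₁E …`, from
  `PsiQ.exists_twP_twE` (G2 at `twE`);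
* `ψ : R_Q → T_Q`, `ρ_Q`, `ρ^univ_Q ⊗_ψ ≅ ρ_Q`, (ES) from `PsiQ.exists_psi_twE` (G3 at `twE`);
* `BQ := S_Q`, `tQ ℓ := χ(T_ℓ)`; (GEN) = `adjoin_range_chi` (`RecordAbs.nonempty_recordAt`);
* (PI) = helper49's `PiTwE.pi_a1E_chi_gen` + `FreeLevel.π_act`;
* (UNIT) = helper49's `UnitTwE.hunit_twE`, with `hB5` := helper51's `B5Gen.hB5_twE`.
-/
import Fermat.Agent.GE8.P3B.GE6.Inst.RecordAbs
import Fermat.Agent.GE8.P3B.GE6.Inst.PsiQG3
import Fermat.Agent.GE8.P3B.GE6.Inst.PiTwE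
import Fermat.Agent.GE8.P3B.GE6.Inst.UnitTwE
import Fermat.Agent.GE8.P3B.GE6.Inst.B5Gen
import Fermat.Agent.GE8.P3B.GB.B9.ProviderFlat.G2HT
import Fermat.Agent.GB.B4.Datum.TQReduced
import Fermat.Agent.GE8.P3B.StepGen
import Fermat.Agent.GE8.P3B.Ok3W

/- TWIN (helper6 B4 generator; conventions of helper24 / helper86) of `Fermat.Agent.GE6.Inst.RecordFL` with `p ≠ 3` relaxed to `Ok3A Sy 𝔪 p` / `Ok3W p W` (RISK-5 fix (B), step B4); everything below lives in the wrapper namespace `Fermat.Agent.GE8.P3B`. -/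
set_option linter.dupNamespace false
open Fermat Fermat.Agent Fermat.Agent.GB Fermat.Agent.GB.B3 Fermat.Agent.GB.B3.ChiLevelMulti Fermat.Agent.GB.B3.GamH Fermat.Agent.GB.B3.HeckeActH Fermat.Agent.GB.B3.RealLevel Fermat.Agent.GB.B3.TWChars Fermat.Agent.GB.B3.TWLevel Fermat.Agent.GB.B4 Fermat.Agent.GB.B4.Datum Fermat.Agent.GB.B4.Datum.ImageRing Fermat.Agent.GB.B4.Datum.TQFields Fermat.Agent.GB.B9 Fermat.Agent.GB.B9.ProviderFlat Fermat.Agent.GB.E2 Fermat.Agent.GB.E2.TameGenAdic Fermat.Agent.GB.Setup Fermat.Agent.GB.Setup.SetupPkg Fermat.Agent.GE Fermat.Agent.GE.Graph Fermat.Agent.GE2 Fermat.Agent.GE2.DeltaQData Fermat.Agent.GE6 Fermat.Agent.GE6.Inst Fermat.Agent.GJ Fermat.Agent.GJ.J2 Fermat.Agent.GJ.J2.Lat Fermat.Agent.GM Fermat.Agent.GM.B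

namespace Fermat.Agent.GE8.P3B

set_option autoImplicit false
set_option linter.unusedSectionVars false
set_option linter.unusedVariables false
set_option linter.style.haveILetI false

open WeierstrassCurve WeierstrassCurve.Affine.Point IsLocalRing
open scoped WeierstrassCurve.Affine
open scoped MatrixGroups
open CongruenceSubgroup ModularCurve.Period CuspForm Polynomial

namespace GE6.Inst.RecordFL

open GM.B
open GB.B3.HeckeActH GB.B3.RealLevel GB.B3.Tower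
  GB.B3.TWChars GB.B3.FinalTW GB.B3.Plug
  GB.B3.TWLevel GB.B3.GamH GB.B3.ChiLevelMulti
  GB.B3.Final
open GJ.J2.Lat
open GB.B4.Datum.ImageRing GB.B4.Datum.TQFields
open GB.Setup.SetupPkg
open GB.B9.ProviderFlat GB.B9.ProviderFlat.G1
open GB.E2.TameGenAdic
open GE2.DeltaQData
open GE6.Inst.FreeLevelInst GE6.Inst.FreeLevelTw
open GE6.Inst.PsiQ GE6.Inst.NodeProof
open GE.Graph GaloisRep

/-- `ℚ̄`. -/
local notation "Qb" => AlgebraicClosure ℚ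
/-- `G_ℚ`. -/
local notation "GQ" => (AlgebraicClosure ℚ ≃ₐ[ℚ] AlgebraicClosure ℚ)
/-- the structure map `A → T_Q`. -/
local notation "chiT" => GB.B4.Datum.ImageRing.chi

noncomputable section

variable {p : ℕ} [hpF : Fact p.Prime] {W : WeierstrassCurve ℤ}
  {hcard₁ : Nat.card (Submodule.torsionBy ℤ
    ((W.map (Int.castRingHom ℚ))⁄(AlgebraicClosure ℚ)).Point p) = p ^ 2}
  {hker : GaloisFactorsThroughFiniteLevel
    (galoisRepModuleEnd (K := AlgebraicClosure ℚ) ℚ (W.map (Int.castRingHom ℚ)) p)}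
  {M A : ℕ} (P : Pkg p W hcard₁ hker M A)

set_option maxHeartbeats 3200000 in
/-- **the record at every Taylor–Wiles set, flat problem, minimal level.** -/
theorem recordStmt_FL (hp3 : Ok3W p W) (hsq : Squarefree M) (hpM : ¬ p ∣ M) (hSu : P.Su = ∅)
    (D0 : DeformationRingData P.O P.rhobar (condFL P.O p P.Smin ∅)) :
    RecordStmt P hp3 (condFL P.O p P.Smin) D0 := by
  intro r n Q E hE hEfull c hc hc1 DQ Pl φ τ hPl hφ hchar hτ π hπ g hπs hkerπ hπρ hlab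
  -- G2 at `twE`
  have k2 := exists_twP_twE Q hp3 E hE hsq
  obtain ⟨SQ, θQ, hpS, hNS, hbadS, hθT, hfrobQ, hsym, dℓ, hnd, hdℓ, twP, hι, hD, hact, hlocP⟩ := k2
  haveI := fact_locHypE Q hp3 E hE c hc hc1 twP hD θQ hlocP
  haveI := finite_prodE Q hp3 E hE c hc hc1
  haveI := free_prodE Q hp3 E hE c hc hc1
  haveI := nontrivial_prodE Q hp3 E hE c hc hc1
  -- G3 at `twE`
  have k3 := exists_psi_twE Q hp3 E hE c hc hc1 twP hD θQ hsq hpM hSu hpS hNS hfrobQ DQ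
  obtain ⟨ψ, hψl, ρQ, hψs, hequiv, hρ, hdet, hres⟩ := k3
  -- arithmetic
  have hE1 : ∀ j, 1 ≤ E j := by
    intro j
    obtain ⟨m, hm1, hm2⟩ := hEfull j
    have h1 := GE6.Inst.ModSide.lt_of_pow_dvd_of_eq hpF.out (Q.cong j) hm1 hm2
    omega
  have hNp : ∀ i : Fin r, p ∣ Nfun p (eRev E) (0 + r) (Fin.natAdd 0 i) :=
    GE6.Inst.B5Gen.dvd_Nfun0 E hE1
  have hSN : ∀ ℓ : ℕ, ℓ.Prime → ℓ ∣ Q.N → ℓ ∈ SQ := fun ℓ hℓ hd =>
    hNS ℓ hℓ (hd.trans (N_dvd_NQ0 Q))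
  have hunr : ∀ j, P.rhobar.IsUnramifiedAt (Q.qv j) := fun j =>
    P.unram (Q.prime j) (fun hd => by
      rcases (Nat.Prime.dvd_mul (Q.prime j)).mp hd with h | h
      · exact (Q.good j).2.1 h
      · exact (Q.good j).2.2 ((Nat.prime_dvd_prime_iff_eq (Q.prime j) hpF.out).mp h))
  -- (UNIT)
  have hUNIT : ∀ (j : Fin r) (m : (twE Q hp3 E hE c hc hc1).L1.M),
      ∃ m' : (twE Q hp3 E hE c hc hc1).L1.M,
        (twE Q hp3 E hE c hc hc1).L1.D j m - m =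
          a₁E Q hp3 E hE c hc hc1 twP hD θQ (ψ (g j : DQ.R)) m' - m' := by
    haveI : IsReduced (TE Q hp3 E hE c hc hc1 twP hD θQ) :=
      GB.B4.Datum.TQReduced.isReduced_TQ_hecke θQ _ hNS
    have hT := G2HT.hT_of_hι Q.Sy Q.𝔪 (primeDataE Q E hE) (Q.hyp hp3) (0 + r) SQ dℓ hdℓ hnd
      twP hι
    have hB5 := GE6.Inst.B5Gen.hB5_twE Q hp3 E hE c hc hc1 hsq hE1 SQ hpS
      (N'' := NQ0 Q) rfl (fun ℓ hℓ hd => Finset.mem_coe.mpr (hNS ℓ hℓ hd))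
      (TE Q hp3 E hE c hc hc1 twP hD θQ) ρQ
      (chiT P.O θQ (prodTw P.O (tw₁E Q hp3 E hE c hc hc1 twP hD)
        (twχE Q hp3 E hE c hc hc1 twP hD))) hNp
      (a₁E Q hp3 E hE c hc hc1 twP hD θQ)
      (fun t i => G2.a₁_D Q.Sy Q.𝔪 (primeDataE Q E hE) (Q.hyp hp3) 0 r c hc hc1 twP hD θQ t i)
      (tw₁E Q hp3 E hE c hc hc1 twP hD)
      (fun t => G2.a₁_chi Q.Sy Q.𝔪 (primeDataE Q E hE) (Q.hyp hp3) 0 r c hc hc1 twP hD θQ t)
      twP (fun t x => rfl) hT hρ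
    have hunit := GE6.Inst.UnitTwE.hunit_twE Q hp3 E hE c hc hc1 twP hD θQ
      (G2Sym.squarefree_N Q hsq) hpS hNS hSN dℓ hdℓ hnd hι hsym hfrobQ ψ hψl ρQ hequiv hρ hdet
      hres hunr Pl hPl φ hφ τ hτ Q.al Q.be (fun j => ⟨Q.ne j, hchar j⟩) g hlab hNp hB5
    intro j m
    obtain ⟨m', hm'⟩ := hunit j m
    exact ⟨m', hm'⟩
  -- (PI)
  have hPI : ∀ l : PrimesOff (↑SQ : Set ℕ), ∃ s : Q.Sy.ι₁, Q.Sy.ℓ s = (l.1 : ℕ) ∧
      ∀ m : (twE Q hp3 E hE c hc hc1).L1.M,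
        (twE Q hp3 E hE c hc hc1).L1.π
            (a₁E Q hp3 E hE c hc hc1 twP hD θQ
              (chiT P.O θQ (prodTw P.O (tw₁E Q hp3 E hE c hc hc1 twP hD)
                (twχE Q hp3 E hE c hc hc1 twP hD)) (formsGenS (NQ0 Q) (↑SQ : Set ℕ) l)) m) =
          (twE Q hp3 E hE c hc hc1).L1.π
            ((twE Q hp3 E hE c hc hc1).L1.act (MvPolynomial.X (Sum.inl s)) m) := by
    intro l
    obtain ⟨i, hi, -⟩ := hsym l
    refine ⟨i, hi, fun m => ?_⟩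
    have h1 := GE6.Inst.PiTwE.pi_a1E_chi_gen Q hp3 E hE c hc hc1 twP hD θQ dℓ hnd hι
      l i hi m
    have h2 := (twE Q hp3 E hE c hc hc1).L1.π_act (MvPolynomial.X (Sum.inl i)) m
    exact h1.trans h2.symm
  exact GE6.Inst.RecordAbs.nonempty_recordAt (twE Q hp3 E hE c hc hc1).L1
    Q.Sy.ι₁ Q.Sy.ℓ (fun s => (MvPolynomial.X (Sum.inl s) : Q.Sy.𝕋 P.O)) DQ g SQ hNS
    (TE Q hp3 E hE c hc hc1 twP hD θQ)
    (chiT P.O θQ (prodTw P.O (tw₁E Q hp3 E hE c hc hc1 twP hD)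
      (twχE Q hp3 E hE c hc hc1 twP hD)))
    (adjoin_range_chi P.O θQ _)
    (a₁E Q hp3 E hE c hc hc1 twP hD θQ) ψ hψl ρQ hequiv hρ hPI hUNIT

end

end GE6.Inst.RecordFL

end Fermat.Agent.GE8.P3B
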