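import Fermat.Agent.GE8.P3B.GE6.Inst.NodeProofPkg
import Fermat.Agent.GE8.P3B.GE6.Inst.RecordFL
import Fermat.Agent.GE8.P3B.GE.Engine.FLPlug
import Fermat.Agent.GE8.P3B.Ok3W

/-!
# GATE-E / E6 node N8b, FINAL, EVERY ODD `p` (helper72): `P3B.FLPlug.NodeFLStmt p`

HAND-WRITTEN twin of `Fermat.Agent.GE6.Inst.NodeFL` over the P3B tree (helper6's generated twins of
`NodeProofPkg` / `RecordFL`, helper64's hand twin of `FLPlug`): the relaxed `p ≠ 3` is
`Ok3W.of_semistable hW`, so `p = 3` is included.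

* **`nodeFLStmt p`** : `P3B.GE.Engine.FLPlug.NodeFLStmt p`;
* **`heckeFLStmt p`** : `GE.Engine.HeckeFLStmt p` (every odd `p`).
-/

set_option autoImplicit false
set_option linter.unusedSectionVars false
set_option linter.unusedVariables false
set_option linter.style.haveILetI false
set_option linter.dupNamespace false

namespace Fermat.Agent.GE8.P3B

namespace GE6.Inst.NodeFL

/-- **E6 at the minimal level, flat case, every odd `p`.** -/
theorem nodeFLStmt (p : ℕ) [hpF : Fact p.Prime] :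
    Fermat.Agent.GE8.P3B.GE.Engine.FLPlug.NodeFLStmt p := by
  intro W hΔ hW hirr hcard₁ hker M _ hsq hpM hRM hmin
  refine ⟨1, le_rfl, fun P D H hπ φ hφ hloc hρ eL heL => ?_⟩
  have hSu : P.Su = ∅ := Fermat.Agent.GE.Engine.su_eq_empty P hmin
  exact Fermat.Agent.GE8.P3B.GE6.Inst.NodeProofPkg.nodeStmt_FL_of_record P
    (Ok3W.of_semistable hW) D H hπ φ hloc hρ eL heL
    (Fermat.Agent.GE8.P3B.GE6.Inst.RecordFL.recordStmt_FL P (Ok3W.of_semistable hW) hsq hpM hSu D)

/-- **the flat Hecke side of the engine, every odd `p`.** -/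
theorem heckeFLStmt (p : ℕ) [hpF : Fact p.Prime] : Fermat.Agent.GE.Engine.HeckeFLStmt p :=
  Fermat.Agent.GE8.P3B.GE.Engine.FLPlug.heckeFLStmt_of_node p (nodeFLStmt p)

end GE6.Inst.NodeFL

end Fermat.Agent.GE8.P3B
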