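/-
GATE-E / E6 ENGINE-INST, SO(a) branch, the `hAnn` SUPPLIER at `twE` (helper39, on request of
helper74 7872; call site of helper44's `GB/B10/L/AnnG2.hAnn_plug_new_of_gen`): **the module-level
(ANN) binder `hAnn` of `GE6/Inst/PsiPkgMinSO.exists_psi_pkg_min_SO` at the object of record
`(FreeLevelTw.twE Q hp3 E hE c hc hc1)` (`s = 0` framed steps, `g` Taylor–Wiles primes, PER-PRIME
exponents `E`)**, for the product action `prodTw (tw₁E …) (twχE …)` of `UnitTwE`.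

`p ∥ M` (`M` squarefree, `p ∣ M`), très ramifiée branch: `ρ̄` is NOT residually modular of level
`M / p` (`hX`), so the `𝔪`-primary part at the level `Nl = M / p * ∏ qv` below `p` vanishes
(`AnnG1Base.hbase_Nl_p`) and every class of the big level is `p`-new.

* `N0E Q := M / p * (∏ qv) * ∏ qv`, `N0E_mul_p : N0E Q * p = Q.N * ∏ i : Fin (0 + g), rRev Q i`,
  `N0E_ne_zero`, `not_dvd_N0E`, `exactDvd_N0E : ExactDvd p (N0E Q * p)`;
* `hNprimes_E`, `hexact_E` : the two side conditions of `exists_psi_pkg_min_SO` at `qv := Q.qv`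
  for ANY level literal `N''` with `hN'' : N'' = Q.N * ∏ i : Fin (0 + g), rRev Q i`;
* **`hAnn_twE`** : the binder `hAnn` (level literal `N₀ * p`, `hN₀ : N₀ * p = Q.N * ∏ …`),
  binders `dℓ hdℓ hnd twP hι hD` = those of `UnitTwE.hunit_twE` VERBATIM at `N'' := N₀ * p`,
  `SQ := S`.
-/
import Fermat.Agent.GE8.P3B.GB.B10.L.AnnG2
import Fermat.Agent.GE8.P3B.GE6.Inst.UnitTwE
import Fermat.Agent.GE8.P3B.StepGen
import Fermat.Agent.GE8.P3B.Ok3W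

/- TWIN (helper6 B4 generator; conventions of helper24 / helper86) of `Fermat.Agent.GE6.Inst.AnnTwE` with `p ≠ 3` relaxed to `Ok3A Sy 𝔪 p` / `Ok3W p W` (RISK-5 fix (B), step B4); everything below lives in the wrapper namespace `Fermat.Agent.GE8.P3B`. -/
set_option linter.dupNamespace false
open Fermat Fermat.Agent Fermat.Agent.Common_helper32 Fermat.Agent.GB Fermat.Agent.GB.B10 Fermat.Agent.GB.B10.L Fermat.Agent.GB.B10.L.ThetaNew Fermat.Agent.GB.B3 Fermat.Agent.GB.B3.ChiLevelMulti Fermat.Agent.GB.B3.GamH Fermat.Agent.GB.B3.HeckeActH Fermat.Agent.GB.B3.RealLevel Fermat.Agent.GB.B3.TWChars Fermat.Agent.GB.B3.TWLevel Fermat.Agent.GB.B4 Fermat.Agent.GB.B4.Datum Fermat.Agent.GB.B4.Datum.ImageRing Fermat.Agent.GB.B4.Datum.TQFields Fermat.Agent.GB.B9 Fermat.Agent.GB.B9.ProviderFlat Fermat.Agent.GB.Setup Fermat.Agent.GB.Setup.SetupPkg Fermat.Agent.GE6 Fermat.Agent.GE6.Inst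 Fermat.Agent.GJ Fermat.Agent.GJ.J2 Fermat.Agent.GJ.J2.Lat Fermat.Agent.GK Fermat.Agent.GK.AL Fermat.Agent.GM Fermat.Agent.GM.B

namespace Fermat.Agent.GE8.P3B

set_option autoImplicit false
set_option linter.unusedSectionVars false
set_option linter.unusedVariables false
set_option linter.style.haveILetI false

noncomputable section

open WeierstrassCurve WeierstrassCurve.Affine.Point IsLocalRing
open scoped WeierstrassCurve.Affine
open scoped MatrixGroups TensorProduct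
open CongruenceSubgroup ModularCurve.Period CuspForm

namespace GE6.Inst.AnnTwE

open GM.B GK.AL
open GB.B3.HeckeActH GB.B3.RealLevel GB.B3.Tower
  GB.B3.TWChars GB.B3.FinalTW GB.B3.Plug
  GB.B3.TWLevel GB.B3.GamH GB.B3.ChiLevelMulti
  GB.B3.Final
open GJ.J2.Lat
open GB.B4.Datum.ImageRing GB.B4.Datum.TQFields
open GB.Setup.SetupPkg
open GB.B9.ProviderFlat GB.B9.ProviderFlat.G1
open GE6.Inst.FreeLevelInst GE6.Inst.FreeLevelTw
open GE6.Inst.UnitTwE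
open GB.B10.L.ThetaNew
open Common_helper32

/-- local instance (Prop-valued class) -/
local instance factPrimeOffAE {S : Set ℕ} (l : PrimesOff S) : Fact (l.1 : ℕ).Prime := ⟨l.1.2⟩

/-- the character `Γ₀(N) → Δ` of a character of `(ℤ/N)ˣ`. -/
local notation "chiΓ" => GB.B3.EisGamma0.chi

variable {p : ℕ} [hpF : Fact p.Prime] {W : WeierstrassCurve ℤ}
  {hcard₁ : Nat.card (Submodule.torsionBy ℤ
    ((W.map (Int.castRingHom ℚ))⁄(AlgebraicClosure ℚ)).Point p) = p ^ 2}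
  {hker : GaloisFactorsThroughFiniteLevel
    (galoisRepModuleEnd (K := AlgebraicClosure ℚ) ℚ (W.map (Int.castRingHom ℚ)) p)}
  {M A : ℕ} {P : Pkg p W hcard₁ hker M A} {g n : ℕ} (Q : TWSet P g n)

/-! ### the level arithmetic at `twE` (`s = 0`) -/

section Level

/-- the product of the `0 + g` step primes of `primeDataE` is `∏ qv`. -/
theorem prod_rRev0 : ∏ i : Fin (0 + g), rRev Q (i : ℕ) = ∏ j : Fin g, Q.qv j := by
  refine (Fintype.prod_equiv (finCongr (Nat.zero_add g)) (fun i : Fin (0 + g) => rRev Q (i : ℕ))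
    (fun i : Fin g => Q.qv (Fin.rev i)) (fun i => ?_)).trans (Equiv.prod_comp Fin.revPerm Q.qv)
  exact rRev_lt Q (finCongr (Nat.zero_add g) i).2

/-- the forms level at `twE` in expanded form. -/
theorem levelE_eq {N'' : ℕ} (hN'' : N'' = Q.N * ∏ i : Fin (0 + g), rRev Q i) :
    N'' = M * ((∏ i, Q.qv i) * ∏ i, Q.qv i) := by
  rw [hN'', prod_rRev0, TWSet.N, Nat.mul_assoc]

/-- a prime dividing `∏ qv` is a Taylor–Wiles prime. -/
theorem exists_eq_qv {ℓ : ℕ} (hℓ : ℓ.Prime) (h : ℓ ∣ ∏ i, Q.qv i) : ∃ i, ℓ = Q.qv i := by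
  obtain ⟨i, -, hi⟩ := (Prime.dvd_finsetProd_iff hℓ.prime _).mp h
  exact ⟨i, (Nat.prime_dvd_prime_iff_eq hℓ (Q.prime i)).mp hi⟩

/-- **`hNprimes`** of `exists_psi_pkg_min(_SO)` at `twE`: every prime of the forms level divides
`M` or is a Taylor–Wiles prime. -/
theorem hNprimes_E {N'' : ℕ} (hN'' : N'' = Q.N * ∏ i : Fin (0 + g), rRev Q i) :
    ∀ ℓ : ℕ, ℓ.Prime → ℓ ∣ N'' → ℓ ∣ M ∨ ℓ ∈ Finset.univ.image Q.qv := by
  intro ℓ hℓ hdvd
  rw [levelE_eq Q hN''] at hdvd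
  have hmem : ∀ i, ℓ = Q.qv i → ℓ ∈ Finset.univ.image Q.qv := fun i hi =>
    Finset.mem_image.mpr ⟨i, Finset.mem_univ _, hi.symm⟩
  rcases (Nat.Prime.dvd_mul hℓ).mp hdvd with h | h
  · exact Or.inl h
  · rcases (Nat.Prime.dvd_mul hℓ).mp h with h | h
    · obtain ⟨i, hi⟩ := exists_eq_qv Q hℓ h
      exact Or.inr (hmem i hi)
    · obtain ⟨i, hi⟩ := exists_eq_qv Q hℓ h
      exact Or.inr (hmem i hi)

/-- a prime of `M` does not divide the cofactor `(∏ qv) * ∏ qv`. -/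
theorem not_dvd_cofactorE {ℓ : ℕ} (hℓ : ℓ.Prime) (hℓM : ℓ ∣ M) :
    ¬ ℓ ∣ (∏ i, Q.qv i) * ∏ i, Q.qv i := by
  have h1 : ¬ ℓ ∣ ∏ i, Q.qv i := fun h => by
    obtain ⟨i, hi⟩ := exists_eq_qv Q hℓ h
    exact (Q.good i).2.1 (hi ▸ hℓM)
  intro h
  rcases (Nat.Prime.dvd_mul hℓ).mp h with h | h
  · exact h1 h
  · exact h1 h

/-- **`hexact`** of `exists_psi_pkg_min(_SO)` at `twE`: every prime of the squarefree `M` exactly
divides the forms level. -/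
theorem hexact_E (hsq : Squarefree M) {N'' : ℕ}
    (hN'' : N'' = Q.N * ∏ i : Fin (0 + g), rRev Q i) :
    ∀ ℓ : ℕ, ℓ.Prime → ℓ ∣ M → ℓ ≠ p → ℓ ∣ N'' ∧ ¬ ℓ ^ 2 ∣ N'' := by
  intro ℓ hℓ hℓM _
  rw [levelE_eq Q hN'']
  refine ⟨Dvd.dvd.mul_right hℓM _, fun h2 => ?_⟩
  have hcop : Nat.Coprime (ℓ ^ 2) ((∏ i, Q.qv i) * ∏ i, Q.qv i) :=
    Nat.Coprime.pow_left 2 ((Nat.Prime.coprime_iff_not_dvd hℓ).mpr (not_dvd_cofactorE Q hℓ hℓM))
  have h3 : ℓ ^ 2 ∣ M := hcop.dvd_of_dvd_mul_right h2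
  exact Nat.squarefree_iff_prime_squarefree.mp hsq ℓ hℓ (by rwa [← pow_two])

/-- the prime-to-`p` part of the forms level at `twE`, `p ∥ M`. -/
def N0E : ℕ := (M / p) * (∏ i, Q.qv i) * ∏ i, Q.qv i

/-- **`hN₀` at `N₀ := N0E Q`.** -/
theorem N0E_mul_p (hpM : p ∣ M) : N0E Q * p = Q.N * ∏ i : Fin (0 + g), rRev Q i := by
  rw [prod_rRev0]
  unfold N0E TWSet.N
  generalize (∏ i, Q.qv i) = a
  obtain ⟨c, rfl⟩ := hpM
  rw [Nat.mul_div_cancel_left c (hpF.out.pos)]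
  ring

theorem N0E_ne_zero (hpM : p ∣ M) : N0E Q ≠ 0 := by
  have hp : p.Prime := hpF.out
  unfold N0E
  have h1 : M / p ≠ 0 :=
    (Nat.div_pos (Nat.le_of_dvd (Nat.pos_of_ne_zero P.hM) hpM) hp.pos).ne'
  have h2 : (∏ i, Q.qv i) ≠ 0 := Finset.prod_ne_zero_iff.mpr fun i _ => (Q.prime i).ne_zero
  exact Nat.mul_ne_zero (Nat.mul_ne_zero h1 h2) h2

/-- `p ∤ N0E` for `p ∥ M`. -/
theorem not_dvd_N0E (hsq : Squarefree M) (hpM : p ∣ M) : ¬ p ∣ N0E Q := by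
  have hp : p.Prime := hpF.out
  unfold N0E
  have h0 : ¬ p ∣ M / p := fun h => by
    have h2 : p * p ∣ M := by
      rw [← Nat.div_mul_cancel hpM]
      exact Nat.mul_dvd_mul_right h p
    exact Nat.squarefree_iff_prime_squarefree.mp hsq p hp h2
  have h1 : ¬ p ∣ ∏ i, Q.qv i := fun h => by
    obtain ⟨i, hi⟩ := exists_eq_qv Q hp h
    exact (Q.good i).2.2 hi.symm
  intro h
  rcases (Nat.Prime.dvd_mul hp).mp h with h | h
  · rcases (Nat.Prime.dvd_mul hp).mp h with h | h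
    · exact h0 h
    · exact h1 h
  · exact h1 h

/-- **`h : ExactDvd p (N₀ * p)`** of `exists_psi_pkg_min_SO` at `N₀ := N0E Q`. -/
theorem exactDvd_N0E (hsq : Squarefree M) (hpM : p ∣ M) : ExactDvd p (N0E Q * p) where
  prime := hpF.out
  dvd := Dvd.intro_left _ rfl
  not_sq := fun h => by
    have hp : p.Prime := hpF.out
    rw [pow_two] at h
    exact not_dvd_N0E Q hsq hpM (Nat.dvd_of_mul_dvd_mul_right hp.pos h)

end Level

/-! ### the `hAnn` binder at `twE` -/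

section Ann

variable (hp3 : Ok3W p W) (E : Fin g → ℕ) (hE : ∀ j, p ^ E j ∣ Q.qv j - 1)
  (c : Fin 0 → P.O) (hc : ∀ v : Fin 0, c v ^ p ^ eRev E (0 + g - 1 - v) = 1)
  (hc1 : ∀ v, (1 : P.O) - c v ∈ Ideal.span {P.ϖ})

/-- **the module-level (ANN) on `M¹_Q × M^χ_Q` at `twE`** (`p ∥ M`, très ramifiée): the binder `hAnn`
of `PsiPkgMinSO.exists_psi_pkg_min_SO` for `tw := prodTw (tw₁E …) (twχE …)`. -/
theorem hAnn_twE (hsq : Squarefree M) (hpM : p ∣ M)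
    (hX : ¬ W.IsResiduallyModularOfLevel p (M / p))
    {N₀ : ℕ} [NeZero N₀] [NeZero (N₀ * p)]
    (hN₀ : N₀ * p = Q.N * ∏ i : Fin (0 + g), rRev Q i) (hpN₀ : ¬ p ∣ N₀)
    (S : Finset ℕ) (hpS : p ∈ S) (hNS : ∀ q' : ℕ, q'.Prime → q' ∣ N₀ * p → q' ∈ S)
    (dℓ : PrimesOff (↑S : Set ℕ) → Gamma0 Q.N)
    (hdℓ : ∀ (l : PrimesOff (↑S : Set ℕ)) (u : (ZMod Q.N)ˣ),
      (u : ZMod Q.N) = ((l.1 : ℕ) : ZMod Q.N) →
        chiΓ (Theta (Δs p (eRev E)) (primeDataE Q E hE).psi (0 + g)) (dℓ l) ^ 2 *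
          Theta (Δs p (eRev E)) (primeDataE Q E hE).psi (0 + g) u = 1)
    (hnd : ∀ l : PrimesOff (↑S : Set ℕ), ¬ (l.1 : ℕ) ∣ Q.N)
    (twP : ↥(heckeAlgebra (N₀ * p) 2 (↑S : Set ℕ)) →+*
      Module.End P.O (bigLevel Q.Sy Q.𝔪 (primeDataE Q E hE) (Q.hyp hp3) (0 + g)).M)
    (hι : ∀ (l : PrimesOff (↑S : Set ℕ))
        (x : (bigLevel Q.Sy Q.𝔪 (primeDataE Q E hE) (Q.hyp hp3) (0 + g)).M),
      (bigReal Q.Sy Q.𝔪 (primeDataE Q E hE) (Q.hyp hp3) (0 + g)).ι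
          (twP (formsGenS (N₀ * p) (↑S : Set ℕ) l) x) =
        diaH (Theta (Δs p (eRev E)) (primeDataE Q E hE).psi (0 + g)) P.O (dℓ l)
          (TH (Theta (Δs p (eRev E)) (primeDataE Q E hE).psi (0 + g)) P.O (hnd l)
            ((bigReal Q.Sy Q.𝔪 (primeDataE Q E hE) (Q.hyp hp3) (0 + g)).ι x)))
    (hD : ∀ t i,
      twP t * (bigLevel Q.Sy Q.𝔪 (primeDataE Q E hE) (Q.hyp hp3) (0 + g)).D i =
        (bigLevel Q.Sy Q.𝔪 (primeDataE Q E hE) (Q.hyp hp3) (0 + g)).D i * twP t) :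
    ∀ t₀ : P.O ⊗[ℤ] ↥(heckeAlgebra (N₀ * p) 2 (↑S : Set ℕ)),
      (∀ (a : P.O),
        ∀ x ∈ (LamNew hpN₀ : AddSubgroup
          (GB.B10.KumLevelHecke.levelData p (N₀ * p) hpS hNS).Λ),
        (GB.B10.KumLevelHecke.levelData p (N₀ * p) hpS hNS).heckeTensor P.O t₀
          (a ⊗ₜ[ℤ] x) = 0) →
      ∀ m : (twE Q hp3 E hE c hc hc1).L1.M × (twE Q hp3 E hE c hc hc1).Lχ.M,
        twO P.O (prodTw P.O (tw₁E Q hp3 E hE c hc hc1 twP hD)
          (twχE Q hp3 E hE c hc hc1 twP hD)) t₀ m = 0 :=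
  haveI : NeZero (GB.B10.L.AnnG1.Nl Q) :=
    ⟨GB.B10.L.AnnG1.nl_ne_zero Q hpM⟩
  GB.B10.L.AnnG2.hAnn_plug_new_of_gen (GB.B10.L.AnnG1.hN Q hpM) Q.Sy
    (GB.B10.L.AnnG1.hrN Q) (GB.B10.L.AnnG1.hpNl Q hsq hpM) Q.𝔪
    (primeDataE Q E hE) (Q.hyp hp3)
    (GB.B10.L.AnnG1Base.hbase_Nl_p Q hsq hpM hX) 0 g c hc hc1
    (GB.B9.ProviderFlat.G7.TWSetG7.squarefree_N Q hsq)
    (Nat.le_of_eq (Nat.zero_add g)) hN₀ hpN₀ S hpS hNS dℓ hdℓ hnd twP hι hD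
    (fun i hi => by rw [rRev_lt Q hi]; exact (Q.good _).2.2)

end Ann

end GE6.Inst.AnnTwE

end

end Fermat.Agent.GE8.P3B
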