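/-
GATE-E (S59) / ENGINE-INST item (iv) (UNIT), supplier (B5) (helper83): **(B5) at the Taylor–Wiles
diamonds of the level of record of E6**, `(twE Q hp3 E hE c hc hc1).L1` (`FreeLevelTw`, helper51) —
NO framed prime (`s = 0`).

GATE-B's only supplier, `GB/B5/Glue/HnuPlug.hB5_plug` (helper35/helper6) and
`ProviderFlat/G4B5.hB5_plug_L1`, is hard-coded to ONE framed step (`bigLevel … (1 + k)`,
`Fin.natAdd 1 i`, `hk : 1 + k ≤ K`).  This file is the generic twin: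

* Plug level, `j` generic: `iotaVJ`, `coe_iotaVJ`, `iotaVJ_injective`, `iotaVJ_D`, `exists_tw_dataJ`
  (`HnuPlug.iotaV … exists_tw_data` with `1 + k ↦ j`; `FramePD` is already `j`-generic);
* Plug level, `s k` generic: **`hB5_plugG`** (`HnuPlug.hB5_plug` with `1 + k ↦ s + k`,
  `Fin.natAdd 1 i ↦ Fin.natAdd s i`), `piOneG` (`= fmk` onto `(Plug.tw … s k c hc hc1).L1.M`),
  `piOneG_apply`, `piOneG_surjective`, `piOneG_D`, **`hB5_plugG_L1`** (`G4B5.hB5_plug_L1` at `s`);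
* `Q : G1.TWSet P g n`, per-prime exponents `E` (`FreeLevelInst.primeDataE`): `hbnd_E` ((BND) at
  every stage, squarefree level), `rRev_ne`, **`hB5_twE`** = the binder `hB5` of
  `UnitInst.hunit_of_labelled` VERBATIM at `L := (twE …).L1`, `r := Q.qv`, the DVR points
  `Idx P.O T` / `ψ` / `Rq` of `GB/Glue/Points`; `castN_unitSub` + **`hB5_FQ1`** = the same at
  `L := FQ1 …` (diamond orders `fun j => p ^ E j`, the `F` of `ModSideData`).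
  LEFT as binders (the G2 / G3 outputs, in the spelling of `G4B5.hB5₁_tw1F`):
  `S hpS N'' hN'' hSN'' T ρQ χ a₁ a₁_D tw₁ ha twP hfmk hT hρ`.
-/
import Fermat.Agent.GE8.P3B.GB.B5.Glue.HnuPlug
import Fermat.Agent.GE8.P3B.GB.B3.Boundary.MatPlug
import Fermat.Agent.GB.B3.Boundary.MatSqfree
import Fermat.Agent.GB.Glue.Points
import Fermat.Agent.GE8.P3B.GE6.Inst.FreeLevelTw
import Fermat.Agent.GE8.P3B.StepGen
import Fermat.Agent.GE8.P3B.Ok3W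

/- TWIN (helper6 B4 generator; conventions of helper24 / helper86) of `Fermat.Agent.GE6.Inst.B5TwE` with `p ≠ 3` relaxed to `Ok3A Sy 𝔪 p` / `Ok3W p W` (RISK-5 fix (B), step B4); everything below lives in the wrapper namespace `Fermat.Agent.GE8.P3B`. -/
set_option linter.dupNamespace false
open Fermat Fermat.Agent Fermat.Agent.Common_helper32 Fermat.Agent.GB Fermat.Agent.GB.B3 Fermat.Agent.GB.B3.ChiLevelMulti Fermat.Agent.GB.B3.EisGamma0 Fermat.Agent.GB.B3.GamH Fermat.Agent.GB.B3.HeckeAct Fermat.Agent.GB.B3.HeckeActH Fermat.Agent.GB.B3.RealLevel Fermat.Agent.GB.B3.TWChars Fermat.Agent.GB.B3.TWLevel Fermat.Agent.GB.B4 Fermat.Agent.GB.B4.Twist Fermat.Agent.GB.B4.Twist.Asm Fermat.Agent.GB.B4.Twist.TwFinal Fermat.Agent.GB.B5 Fermat.Agent.GB.B5.Glue Fermat.Agent.GB.B9 Fermat.Agent.GB.B9.ProviderFlat Fermat.Agent.GB.B9.ProviderFlat.H1 Fermat.Agent.GB.Glue Fermat.Agent.GB.Glue.Points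 Fermat.Agent.GB.Setup Fermat.Agent.GB.Setup.SetupPkg Fermat.Agent.GE6 Fermat.Agent.GE6.Inst Fermat.Agent.GE6.Inst.MapBase Fermat.Agent.GJ Fermat.Agent.GJ.J2 Fermat.Agent.GJ.J2.Lat Fermat.Agent.GM Fermat.Agent.GM.B

namespace Fermat.Agent.GE8.P3B

set_option autoImplicit false
set_option linter.unusedSectionVars false
set_option linter.unusedVariables false
set_option linter.style.haveILetI false

open scoped MatrixGroups
open CongruenceSubgroup Polynomial IsLocalRing CuspForm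
open GM.B ModularCurve.Period
open GB.B3 GB.B3.EisGamma0 GB.B3.GamH
open GB.B3.RealLevel GB.B3.HeckeActH GB.B3.HeckeAct
open GB.B3.TWChars GB.B3.Tower GB.B3.FinalTW
open GB.B3.Plug GB.B3.ChiLevelMulti GB.B3.TWLevel
open GB.B3.StepInst GB.B3.Final
open GJ.J2.Lat
open GB.B4.Twist.Asm GB.B4.Twist.TwFinal GB.B4.Twist.TwInst
open GB.B5.Glue GB.B5.Glue.HnuPlug

namespace GE6.Inst.B5TwE

open Common_helper32

/-- local instance (Prop-valued class) -/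
local instance factPrimeOffB5TwE {S : Set ℕ} (l : PrimesOff S) : Fact (l.1 : ℕ).Prime := ⟨l.1.2⟩

section Plug

variable {N p K : ℕ} [NeZero N] [hpF : Fact p.Prime] {r e N' : ℕ → ℕ}
variable (Sy : Symbols N)
variable {O : Type} [CommRing O] [IsDomain O] [IsDiscreteValuationRing O]
  [IsAdicComplete (maximalIdeal O) O] [CharZero O] [Finite (ResidueField O)]
variable (𝔪 : Ideal (Sy.𝕋 O)) [𝔪.IsMaximal]
variable (H : PrimeData N p K r e N') {ϖ : O} {s0 : Sy.ι₁} (h : Plug.Hyp Sy 𝔪 p ϖ s0)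
variable (j : ℕ)
variable {TQ : Type} [CommRing TQ] [IsLocalRing TQ] [Algebra O TQ]

/-! ### the common data at ANY stage `j`: `ι`, the half-diamonds, `tw_ℂ`, `tw_O`, the `ι`-square -/

/-- the realisation of the big level of stage `j` inside the parabolic classes -/
noncomputable def iotaVJ
    (hbnd : ∀ y : Additive (GammaH (Theta (Δs p e) H.psi j)) →+ O,
      IsLoc (actH Sy O (Theta (Δs p e) H.psi j)) 𝔪 y →
        y ∈ parabolicHoms O (GammaH (Theta (Δs p e) H.psi j)) O) :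
    (bigLevel Sy 𝔪 H h j).M →ₗ[O]
      ↥(parabolicHoms O (GammaH (Theta (Δs p e) H.psi j)) O) :=
  LinearMap.codRestrict _ (bigReal Sy 𝔪 H h j).ι
    (fun x => hbnd _ (((bigReal Sy 𝔪 H h j).range _).1 ⟨x, rfl⟩))

theorem coe_iotaVJ
    (hbnd : ∀ y : Additive (GammaH (Theta (Δs p e) H.psi j)) →+ O,
      IsLoc (actH Sy O (Theta (Δs p e) H.psi j)) 𝔪 y →
        y ∈ parabolicHoms O (GammaH (Theta (Δs p e) H.psi j)) O)
    (x : (bigLevel Sy 𝔪 H h j).M) :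
    ((iotaVJ Sy 𝔪 H h j hbnd x :
        ↥(parabolicHoms O (GammaH (Theta (Δs p e) H.psi j)) O)) :
      Additive (GammaH (Theta (Δs p e) H.psi j)) →+ O)
      = (bigReal Sy 𝔪 H h j).ι x := rfl

theorem iotaVJ_injective
    (hbnd : ∀ y : Additive (GammaH (Theta (Δs p e) H.psi j)) →+ O,
      IsLoc (actH Sy O (Theta (Δs p e) H.psi j)) 𝔪 y →
        y ∈ parabolicHoms O (GammaH (Theta (Δs p e) H.psi j)) O) :
    Function.Injective (iotaVJ Sy 𝔪 H h j hbnd) := fun x y hxy =>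
  (bigReal Sy 𝔪 H h j).inj (by
    rw [← coe_iotaVJ Sy 𝔪 H h j hbnd x, ← coe_iotaVJ Sy 𝔪 H h j hbnd y, hxy])

/-- the diamond at the step `j - 1 - i` -/
theorem iotaVJ_D
    (hbnd : ∀ y : Additive (GammaH (Theta (Δs p e) H.psi j)) →+ O,
      IsLoc (actH Sy O (Theta (Δs p e) H.psi j)) 𝔪 y →
        y ∈ parabolicHoms O (GammaH (Theta (Δs p e) H.psi j)) O)
    (i : Fin j) (y : (bigLevel Sy 𝔪 H h j).M) :
    iotaVJ Sy 𝔪 H h j hbnd ((bigLevel Sy 𝔪 H h j).D i y)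
      = diaV (Theta (Δs p e) H.psi j) O (H.dd hpF.out (j - 1 - i))
          (iotaVJ Sy 𝔪 H h j hbnd y) := by
  apply Subtype.ext
  rw [coe_diaV, coe_iotaVJ, coe_iotaVJ, (bigReal Sy 𝔪 H h j).ι_D, diaLin_apply, dfun_apply]

/-- **the common data** of the plug instances, at any stage `j ≤ K`. -/
theorem exists_tw_dataJ (hj : j ≤ K)
    (hbnd : ∀ y : Additive (GammaH (Theta (Δs p e) H.psi j)) →+ O,
      IsLoc (actH Sy O (Theta (Δs p e) H.psi j)) 𝔪 y →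
        y ∈ parabolicHoms O (GammaH (Theta (Δs p e) H.psi j)) O)
    (S : Finset ℕ) {N'' : ℕ} [NeZero N''] (hN'' : N'' = N * ∏ i : Fin j, r i)
    (hSN'' : ∀ ℓ : ℕ, ℓ.Prime → ℓ ∣ N'' → ℓ ∈ (↑S : Set ℕ)) (hNN'' : N ∣ N'')
    (twP : ↥(heckeAlgebra N'' 2 (↑S : Set ℕ)) →+* Module.End O (bigLevel Sy 𝔪 H h j).M)
    (hT : ∀ (ℓ : ℕ) (hℓ : ℓ.Prime) (hℓN' : ¬ ℓ ∣ N'') (hℓS : ℓ ∉ (↑S : Set ℕ))
        (hℓN : ¬ ℓ ∣ N),
      haveI : Fact ℓ.Prime := ⟨hℓ⟩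
      ∃ d : Gamma0 N,
        (∀ u : (ZMod N)ˣ, (u : ZMod N) = ((ℓ : ℕ) : ZMod N) →
          chi (Theta (Δs p e) H.psi j) d ^ 2 * Theta (Δs p e) H.psi j u = 1) ∧
        ∀ x : (bigLevel Sy 𝔪 H h j).M,
          (bigReal Sy 𝔪 H h j).ι (twP (heckeAlgebra.T hℓ hℓN' hℓS) x)
            = diaH (Theta (Δs p e) H.psi j) O d
                (TH (Theta (Δs p e) H.psi j) O hℓN ((bigReal Sy 𝔪 H h j).ι x))) :
    ∃ (dℓ : PrimesOff (↑S : Set ℕ) → Gamma0 N)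
      (twC : ↥(heckeAlgebra N'' 2 (↑S : Set ℕ)) →+*
        Module.End ℂ ↥(parabolicHoms ℂ (GammaH (Theta (Δs p e) H.psi j)) ℂ))
      (twO : ↥(heckeAlgebra N'' 2 (↑S : Set ℕ)) →+*
        Module.End O ↥(parabolicHoms O (GammaH (Theta (Δs p e) H.psi j)) O)),
      (∀ (l : PrimesOff (↑S : Set ℕ)) (u : (ZMod N)ˣ), (u : ZMod N) = ((l.1 : ℕ) : ZMod N) →
        chi (Theta (Δs p e) H.psi j) (dℓ l) ^ 2 * Theta (Δs p e) H.psi j u = 1) ∧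
      (∀ (l : PrimesOff (↑S : Set ℕ))
          (v : ↥(parabolicHoms ℂ (GammaH (Theta (Δs p e) H.psi j)) ℂ)),
        ((twC (formsGenS N'' (↑S : Set ℕ) l) v :
            ↥(parabolicHoms ℂ (GammaH (Theta (Δs p e) H.psi j)) ℂ)) :
            Additive (GammaH (Theta (Δs p e) H.psi j)) →+ ℂ)
          = diaH (Theta (Δs p e) H.psi j) ℂ (dℓ l)
              (GamH.TH (Theta (Δs p e) H.psi j) ℂ
                (not_dvd_level (↑S : Set ℕ) hSN'' hNN'' l)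
                (v : Additive (GammaH (Theta (Δs p e) H.psi j)) →+ ℂ))) ∧
      (∀ (l : PrimesOff (↑S : Set ℕ))
          (v : ↥(parabolicHoms O (GammaH (Theta (Δs p e) H.psi j)) O)),
        ((twO (formsGenS N'' (↑S : Set ℕ) l) v :
            ↥(parabolicHoms O (GammaH (Theta (Δs p e) H.psi j)) O)) :
            Additive (GammaH (Theta (Δs p e) H.psi j)) →+ O)
          = diaH (Theta (Δs p e) H.psi j) O (dℓ l)
              (GamH.TH (Theta (Δs p e) H.psi j) O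
                (not_dvd_level (↑S : Set ℕ) hSN'' hNN'' l)
                (v : Additive (GammaH (Theta (Δs p e) H.psi j)) →+ O))) ∧
      ∀ t y, iotaVJ Sy 𝔪 H h j hbnd (twP t y) = twO t (iotaVJ Sy 𝔪 H h j hbnd y) := by
  classical
  have hp : p.Prime := hpF.out
  -- the half-diamonds
  have hexd : ∀ l : PrimesOff (↑S : Set ℕ), ∃ d : Gamma0 N,
      (∀ u : (ZMod N)ˣ, (u : ZMod N) = ((l.1 : ℕ) : ZMod N) →
        chi (Theta (Δs p e) H.psi j) d ^ 2 * Theta (Δs p e) H.psi j u = 1) ∧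
      ∀ x : (bigLevel Sy 𝔪 H h j).M,
        (bigReal Sy 𝔪 H h j).ι
            (twP (heckeAlgebra.T l.1.2 (not_dvd_level' (↑S : Set ℕ) hSN'' l) l.2) x)
          = diaH (Theta (Δs p e) H.psi j) O d
              (TH (Theta (Δs p e) H.psi j) O
                (not_dvd_level (↑S : Set ℕ) hSN'' hNN'' l)
                ((bigReal Sy 𝔪 H h j).ι x)) := fun l =>
    hT (l.1 : ℕ) l.1.2 (not_dvd_level' (↑S : Set ℕ) hSN'' l) l.2
      (not_dvd_level (↑S : Set ℕ) hSN'' hNN'' l)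
  choose dℓ hdℓ hdℓT using hexd
  obtain ⟨twC, htwC, -⟩ := exists_tw_primeData H hp h.hp2 j hj hN'' (↑S : Set ℕ) hSN''
    (O := ℂ) dℓ hdℓ
  obtain ⟨twO, htwO, -⟩ := exists_tw_primeData H hp h.hp2 j hj hN'' (↑S : Set ℕ) hSN''
    (O := O) dℓ hdℓ
  refine ⟨dℓ, twC, twO, hdℓ, htwC, htwO, ?_⟩
  refine square_of_gens (iotaVJ Sy 𝔪 H h j hbnd) twP twO
    (Set.range (formsGenS N'' (↑S : Set ℕ)))
    (GB.B4.Twist.TwHom.closure_range_formsGenS N'' (↑S : Set ℕ)) ?_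
  rintro _ ⟨l, rfl⟩ y
  apply Subtype.ext
  have e0 := coe_iotaVJ Sy 𝔪 H h j hbnd (twP (formsGenS N'' (↑S : Set ℕ) l) y)
  have e4 := coe_iotaVJ Sy 𝔪 H h j hbnd y
  have e1 := htwO l (iotaVJ Sy 𝔪 H h j hbnd y)
  rw [e4] at e1
  have e3 := formsGenS_of_not_dvd N'' (↑S : Set ℕ) l (not_dvd_level' (↑S : Set ℕ) hSN'' l)
  have e2 := hdℓT l y
  rw [← e3] at e2
  exact e0.trans (e2.trans e1.symm)

end Plug

section PlugG

variable {N p K : ℕ} [NeZero N] [hpF : Fact p.Prime] {r e N' : ℕ → ℕ}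
variable (Sy : Symbols N)
variable {O : Type} [CommRing O] [IsDomain O] [IsDiscreteValuationRing O]
  [IsAdicComplete (maximalIdeal O) O] [CharZero O] [Finite (ResidueField O)]
variable (𝔪 : Ideal (Sy.𝕋 O)) [𝔪.IsMaximal]
variable (H : PrimeData N p K r e N') {ϖ : O} {s0 : Sy.ι₁} (h : Plug.Hyp Sy 𝔪 p ϖ s0)
variable (s k : ℕ)
variable {TQ : Type} [CommRing TQ] [IsLocalRing TQ] [Algebra O TQ]

/-! ### (B5) at the Taylor–Wiles diamonds, `s` framed steps -/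

/-- **(B5), plug form, `s` generic** (`HnuPlug.hB5_plug` is `s = 1`): `L` any level which is an
equivariant quotient `π : (bigLevel … (s + k)).M ↠ L.M`, `i` a Taylor–Wiles diamond.  At every
local point `x` of `TQ` killing the annihilator of `L.M / unitSub i`, `ρQ ⊗_x O'` is NOT unipotent
on inertia at the prime `r (k - 1 - i)` of the diamond `i`. -/
theorem hB5_plugG (hk : s + k ≤ K)
    (hbnd : ∀ y : Additive (GammaH (Theta (Δs p e) H.psi (s + k))) →+ O,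
      IsLoc (actH Sy O (Theta (Δs p e) H.psi (s + k))) 𝔪 y →
        y ∈ parabolicHoms O (GammaH (Theta (Δs p e) H.psi (s + k))) O)
    (S : Finset ℕ) (hpS : p ∈ S)
    {N'' : ℕ} [NeZero N''] (hN'' : N'' = N * ∏ i : Fin (s + k), r i)
    (hSN'' : ∀ ℓ : ℕ, ℓ.Prime → ℓ ∣ N'' → ℓ ∈ (↑S : Set ℕ))
    (ρQ : GaloisRepAdic TQ)
    (χ : ↥(heckeAlgebra N'' 2 (↑S : Set ℕ)) →+* TQ)
    {𝕋' : Type} [CommRing 𝕋'] [Algebra O 𝕋'] {M0' : Type} [AddCommGroup M0'] [Module O M0']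
    {act0' : 𝕋' →ₐ[O] Module.End O M0'} {Nk : Fin k → ℕ} [∀ i, NeZero (Nk i)]
    (L : FreeLevel O 𝕋' M0' act0' k Nk) (hNk : ∀ i, p ∣ Nk i)
    (π : (bigLevel Sy 𝔪 H h (s + k)).M →ₗ[O] L.M) (hπ : Function.Surjective π)
    (hπD : ∀ i y, π ((bigLevel Sy 𝔪 H h (s + k)).D (Fin.natAdd s i) y) = L.D i (π y))
    (a : TQ →ₐ[O] Module.End O L.M) (a_D : ∀ t i, a t * L.D i = L.D i * a t)
    (twM : ↥(heckeAlgebra N'' 2 (↑S : Set ℕ)) →+* Module.End O L.M)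
    (ha : ∀ t, a (χ t) = twM t)
    (twP : ↥(heckeAlgebra N'' 2 (↑S : Set ℕ)) →+* Module.End O (bigLevel Sy 𝔪 H h (s + k)).M)
    (hfmk : ∀ t (y : (bigLevel Sy 𝔪 H h (s + k)).M), twM t (π y) = π (twP t y))
    (hT : ∀ (ℓ : ℕ) (hℓ : ℓ.Prime) (hℓN' : ¬ ℓ ∣ N'') (hℓS : ℓ ∉ (↑S : Set ℕ))
        (hℓN : ¬ ℓ ∣ N),
      haveI : Fact ℓ.Prime := ⟨hℓ⟩
      ∃ d : Gamma0 N,
        (∀ u : (ZMod N)ˣ, (u : ZMod N) = ((ℓ : ℕ) : ZMod N) →
          chi (Theta (Δs p e) H.psi (s + k)) d ^ 2 * Theta (Δs p e) H.psi (s + k) u = 1) ∧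
        ∀ x : (bigLevel Sy 𝔪 H h (s + k)).M,
          (bigReal Sy 𝔪 H h (s + k)).ι (twP (heckeAlgebra.T hℓ hℓN' hℓS) x)
            = diaH (Theta (Δs p e) H.psi (s + k)) O d
                (TH (Theta (Δs p e) H.psi (s + k)) O hℓN ((bigReal Sy 𝔪 H h (s + k)).ι x)))
    (hρ : ∀ (ℓ : ℕ) (hℓ : ℓ.Prime) (hℓN' : ¬ ℓ ∣ N'') (hℓS : ℓ ∉ (↑S : Set ℕ))
      (A : ValuationSubring Qb), A.LiesOverPrime ℓ → ∀ σ : GQ, A.IsFrobeniusAt σ ℓ →
        LinearMap.charpoly (ρQ.ρ σ)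
          = X ^ 2 - C (χ (heckeAlgebra.T hℓ hℓN' hℓS)) * X + C ((ℓ : TQ)))
    (i : Fin k) (hei : 1 ≤ e (k - 1 - i)) (hrp : r (k - 1 - i) ≠ p)
    {O' : Type} [CommRing O'] [IsDomain O'] [IsDiscreteValuationRing O']
    [IsAdicComplete (maximalIdeal O') O'] [Finite (ResidueField O')] [CharZero O']
    (hpO' : (p : O') ∈ maximalIdeal O') (x : TQ →+* O') (hx : IsLocalHom x)
    (hocc : ∀ t : TQ, (∀ m, a t m ∈ L.unitSub p hNk i) → x t = 0) :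
    ¬ (ρQ.baseChangeAlong x hx).IsUnipotentOnInertiaAt (r (k - 1 - i)) := by
  classical
  have hp : p.Prime := hpF.out
  have hNN'' : N ∣ N'' := Dvd.intro _ hN''.symm
  obtain ⟨dℓ, twC, twO, hdℓ, htwC, htwO, hιT⟩ :=
    exists_tw_dataJ Sy 𝔪 H h (s + k) hk hbnd S hN'' hSN'' hNN'' twP hT
  have hidx : s + k - 1 - ((Fin.natAdd s i : Fin (s + k)) : ℕ) = k - 1 - i := by
    rw [Fin.val_natAdd]
    omega
  have hιD : ∀ y, iotaVJ Sy 𝔪 H h (s + k) hbnd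
        ((bigLevel Sy 𝔪 H h (s + k)).D (Fin.natAdd s i) y)
      = diaV (Theta (Δs p e) H.psi (s + k)) O (H.dd hp (k - 1 - i))
          (iotaVJ Sy 𝔪 H h (s + k) hbnd y) := by
    intro y
    rw [iotaVJ_D, hidx]
  have hπT : ∀ t y, π (twP t y) = a (χ t) (π y) := by
    intro t y
    rw [ha]
    exact (hfmk t y).symm
  have hlt : k - 1 - (i : ℕ) < s + k := by
    have := i.2
    omega
  haveI : NeZero (p ^ e (k - 1 - i)) := ⟨pow_ne_zero _ hp.ne_zero⟩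
  -- `∑_{j < p^E} D^j` lands in `unitSub`
  have hsum : ∀ m, ∑ j : Fin (p ^ e (k - 1 - i)), ((L.D i) ^ (j : ℕ)) m ∈ L.unitSub p hNk i := by
    intro m
    obtain ⟨E, hE⟩ : ∃ E, e (k - 1 - i) = E + 1 := ⟨e (k - 1 - i) - 1, by omega⟩
    have h1 : ∑ j : Fin (p ^ e (k - 1 - i)), ((L.D i) ^ (j : ℕ)) m
        = (∑ j ∈ Finset.range (p ^ e (k - 1 - i)), (L.D i) ^ j) m := by
      rw [Fin.sum_univ_eq_sum_range (fun j => ((L.D i) ^ j) m), LinearMap.sum_apply]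
    rw [h1, hE, pow_succ', geom_sum_mul_eq, Module.End.mul_apply]
    exact L.range_le_unitSub p hNk i (Submodule.mem_sup_left ⟨_, rfl⟩)
  refine GB.B5.Glue.HnuPoint.not_isUnipotentOnInertiaAt_of_squares_cyclic
    (Theta (Δs p e) H.psi (s + k))
    (FramePD.hθ H (s + k) hk) (FramePD.hodd hp h.hp2 (s + k))
    _ (FramePD.hL H (s + k) hk) (FramePD.hnd H (s + k) hk)
    (FramePD.hdvd H (s + k) hk) (FramePD.hsq H (s + k) hk) _ _
    (FramePD.hpr H (s + k) hk) (FramePD.hprod H (s + k) hk)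
    S hSN'' hNN'' dℓ hdℓ twC htwC
    (GB.B5.Glue.HnuPoint.zsmul_eq_zero_of_charZero (R := O)) twO htwO p h.hp2 hpS χ
    ρQ hρ hpO' x hx (FramePD.mem_L r (s + k) (k - 1 - i) hlt) hrp
    (H.dd hp (k - 1 - i)) (FramePD.chi_dd_mem_range H hp (s + k) hk (k - 1 - i) hlt)
    (p ^ e (k - 1 - i)) (FramePD.chi_dd_pow H hp (s + k) (k - 1 - i))
    (iotaVJ Sy 𝔪 H h (s + k) hbnd) (iotaVJ_injective Sy 𝔪 H h (s + k) hbnd) π hπ
    (fun t => twP t) a hιT hπT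
    ((bigLevel Sy 𝔪 H h (s + k)).D (Fin.natAdd s i)) hιD (L.D i) (hπD i)
    (L.unitSub p hNk i)
    (fun t m hm => L.map_mem_unitSub p hNk i (a t) (fun j => a_D t j) hm) hsum
    (fun m hm => ?_) hocc
  have hm' : ((p ^ e (k - 1 - i) : ℕ) : O) • m ∈ L.unitSub p hNk i := by
    rw [Nat.cast_smul_eq_nsmul, ← natCast_zsmul]
    exact hm
  refine L.mem_unitSub_of_smul_mem p hNk i _ (fun o ho => ?_) hm'
  rcases mul_eq_zero.mp ho with h0 | h0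
  · exact absurd (Nat.cast_eq_zero.mp h0) (pow_ne_zero _ hp.ne_zero)
  · exact h0

/-! ### on `M¹ = (Plug.tw … s k …).L1.M` -/

variable (c : Fin s → O) (hc : ∀ v : Fin s, c v ^ p ^ e (s + k - 1 - v) = 1)
  (hc1 : ∀ v, (1 : O) - c v ∈ Ideal.span {ϖ})

/-- the orders of the Taylor–Wiles diamonds of `Plug.tw … s k …` are nonzero -/
instance neZero_Nfun_natAddG (i : Fin k) : NeZero (Nfun p e (s + k) (Fin.natAdd s i)) :=
  ⟨(Nfun_pos hpF.out e (s + k) _).ne'⟩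

/-- the quotient map `(bigLevel … (s + k)).M ↠ M¹` (`= fmk` at the trivial family) -/
noncomputable def piOneG :
    (bigLevel Sy 𝔪 H h (s + k)).M →ₗ[O] (tw Sy 𝔪 H h s k c hc hc1).L1.M :=
  (famRange (frD (bigLevel Sy 𝔪 H h (s + k))) (fun _ => (1 : O))).mkQ

theorem piOneG_apply (x : (bigLevel Sy 𝔪 H h (s + k)).M) :
    piOneG Sy 𝔪 H h s k c hc hc1 x
      = fmk (frD (bigLevel Sy 𝔪 H h (s + k))) (fun _ => (1 : O)) x := rfl

theorem piOneG_surjective : Function.Surjective (piOneG Sy 𝔪 H h s k c hc hc1) :=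
  Submodule.mkQ_surjective (famRange (frD (bigLevel Sy 𝔪 H h (s + k))) (fun _ => (1 : O)))

/-- `π ∘ B.D (Fin.natAdd s i) = L1.D i ∘ π` -/
theorem piOneG_D (i : Fin k) (y : (bigLevel Sy 𝔪 H h (s + k)).M) :
    piOneG Sy 𝔪 H h s k c hc hc1 ((bigLevel Sy 𝔪 H h (s + k)).D (Fin.natAdd s i) y)
      = (tw Sy 𝔪 H h s k c hc hc1).L1.D i (piOneG Sy 𝔪 H h s k c hc hc1 y) := rfl

/-- **(B5) at the `i`-th Taylor–Wiles diamond, on `M¹ = (Plug.tw … s k …).L1.M`**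
(`G4B5.hB5_plug_L1` is `s = 1`). -/
theorem hB5_plugG_L1 (hk : s + k ≤ K)
    (hbnd : ∀ y : Additive (GammaH (Theta (Δs p e) H.psi (s + k))) →+ O,
      IsLoc (actH Sy O (Theta (Δs p e) H.psi (s + k))) 𝔪 y →
        y ∈ parabolicHoms O (GammaH (Theta (Δs p e) H.psi (s + k))) O)
    (S : Finset ℕ) (hpS : p ∈ S)
    {N'' : ℕ} [NeZero N''] (hN'' : N'' = N * ∏ i : Fin (s + k), r i)
    (hSN'' : ∀ ℓ : ℕ, ℓ.Prime → ℓ ∣ N'' → ℓ ∈ (↑S : Set ℕ))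
    (ρQ : GaloisRepAdic TQ)
    (χ : ↥(heckeAlgebra N'' 2 (↑S : Set ℕ)) →+* TQ)
    (hNk : ∀ i : Fin k, p ∣ Nfun p e (s + k) (Fin.natAdd s i))
    (a₁ : TQ →ₐ[O] Module.End O (tw Sy 𝔪 H h s k c hc hc1).L1.M)
    (a₁_D : ∀ t i, a₁ t * (tw Sy 𝔪 H h s k c hc hc1).L1.D i
      = (tw Sy 𝔪 H h s k c hc hc1).L1.D i * a₁ t)
    (tw₁ : ↥(heckeAlgebra N'' 2 (↑S : Set ℕ)) →+*
      Module.End O (tw Sy 𝔪 H h s k c hc hc1).L1.M)
    (ha : ∀ t, a₁ (χ t) = tw₁ t)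
    (twP : ↥(heckeAlgebra N'' 2 (↑S : Set ℕ)) →+* Module.End O (bigLevel Sy 𝔪 H h (s + k)).M)
    (hfmk : ∀ t (x : (bigLevel Sy 𝔪 H h (s + k)).M),
      tw₁ t (fmk (frD (bigLevel Sy 𝔪 H h (s + k))) (fun _ => (1 : O)) x)
        = fmk (frD (bigLevel Sy 𝔪 H h (s + k))) (fun _ => (1 : O)) (twP t x))
    (hT : ∀ (ℓ : ℕ) (hℓ : ℓ.Prime) (hℓN' : ¬ ℓ ∣ N'') (hℓS : ℓ ∉ (↑S : Set ℕ))
        (hℓN : ¬ ℓ ∣ N),
      haveI : Fact ℓ.Prime := ⟨hℓ⟩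
      ∃ d : Gamma0 N,
        (∀ u : (ZMod N)ˣ, (u : ZMod N) = ((ℓ : ℕ) : ZMod N) →
          chi (Theta (Δs p e) H.psi (s + k)) d ^ 2 * Theta (Δs p e) H.psi (s + k) u = 1) ∧
        ∀ x : (bigLevel Sy 𝔪 H h (s + k)).M,
          (bigReal Sy 𝔪 H h (s + k)).ι (twP (heckeAlgebra.T hℓ hℓN' hℓS) x)
            = diaH (Theta (Δs p e) H.psi (s + k)) O d
                (TH (Theta (Δs p e) H.psi (s + k)) O hℓN ((bigReal Sy 𝔪 H h (s + k)).ι x)))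
    (hρ : ∀ (ℓ : ℕ) (hℓ : ℓ.Prime) (hℓN' : ¬ ℓ ∣ N'') (hℓS : ℓ ∉ (↑S : Set ℕ))
      (A : ValuationSubring Qb), A.LiesOverPrime ℓ → ∀ σ : GQ, A.IsFrobeniusAt σ ℓ →
        LinearMap.charpoly (ρQ.ρ σ)
          = X ^ 2 - C (χ (heckeAlgebra.T hℓ hℓN' hℓS)) * X + C ((ℓ : TQ)))
    (i : Fin k) (hei : 1 ≤ e (k - 1 - i)) (hrp : r (k - 1 - i) ≠ p)
    {O' : Type} [CommRing O'] [IsDomain O'] [IsDiscreteValuationRing O']
    [IsAdicComplete (maximalIdeal O') O'] [Finite (ResidueField O')] [CharZero O']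
    (hpO' : (p : O') ∈ maximalIdeal O') (x : TQ →+* O') (hx : IsLocalHom x)
    (hocc : ∀ t : TQ,
      (∀ m, a₁ t m ∈ (tw Sy 𝔪 H h s k c hc hc1).L1.unitSub p hNk i) → x t = 0) :
    ¬ (ρQ.baseChangeAlong x hx).IsUnipotentOnInertiaAt (r (k - 1 - i)) :=
  hB5_plugG Sy 𝔪 H h s k hk hbnd S hpS hN'' hSN'' ρQ χ (tw Sy 𝔪 H h s k c hc hc1).L1 hNk
    (piOneG Sy 𝔪 H h s k c hc hc1) (piOneG_surjective Sy 𝔪 H h s k c hc hc1)
    (piOneG_D Sy 𝔪 H h s k c hc hc1) a₁ a₁_D tw₁ ha twP hfmk hT hρ i hei hrp hpO' x hx hocc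

end PlugG

/-! ### at a Taylor–Wiles set `Q` of the setup bundle, per-prime exponents, no framed prime -/

section Pkg

open GB.Setup.SetupPkg GB.B9.ProviderFlat.H1
  GB.B9.ProviderFlat.G1 GB.Glue.Points
  GE6.Inst.FreeLevelInst GE6.Inst.FreeLevelTw
  GE6.Inst.MapBase

variable {p : ℕ} [hpF : Fact p.Prime] {W : WeierstrassCurve ℤ}
  {hcard₁ : Nat.card (Submodule.torsionBy ℤ
    ((W.map (Int.castRingHom ℚ)).toAffine.baseChange (AlgebraicClosure ℚ)).Point p) = p ^ 2}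
  {hker : GaloisFactorsThroughFiniteLevel
    (WeierstrassCurve.Affine.Point.galoisRepModuleEnd (K := AlgebraicClosure ℚ) ℚ
      (W.map (Int.castRingHom ℚ)) p)}
  {M A : ℕ} {P : Pkg p W hcard₁ hker M A} {g n : ℕ} (Q : TWSet P g n)
  (hp3 : Ok3W p W) (E : Fin g → ℕ) (hE : ∀ j, p ^ E j ∣ Q.qv j - 1)
  (c : Fin 0 → P.O) (hc : ∀ v : Fin 0, c v ^ p ^ eRev E (0 + g - 1 - v) = 1)
  (hc1 : ∀ v, (1 : P.O) - c v ∈ Ideal.span {P.ϖ})

/-- the level `Q.N` is squarefree -/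
theorem squarefree_NQ (hsq : Squarefree M) : Squarefree Q.N :=
  GB.B3.Boundary.Mat.squarefree_mul_prod_fin hsq Q.qv Q.prime Q.inj
    (fun i => (Q.good i).2.1)

include hp3 in
/-- **(BND) at every stage of the tower of `Q.N` with the exponents `E`** (squarefree level). -/
theorem hbnd_E (hsq : Squarefree M) (j : ℕ)
    (y : Additive (GammaH (Theta (Δs p (eRev E)) (primeDataE Q E hE).psi j)) →+ P.O)
    (hy : IsLoc (actH Q.Sy P.O (Theta (Δs p (eRev E)) (primeDataE Q E hE).psi j)) Q.𝔪 y) :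
    y ∈ parabolicHoms P.O (GammaH (Theta (Δs p (eRev E)) (primeDataE Q E hE).psi j)) P.O :=
  GB.B3.Boundary.Mat.isLoc_mem_parabolicHoms_theta_of_squarefree Q.Sy Q.𝔪
    (primeDataE Q E hE) (Q.hyp hp3) (squarefree_NQ Q hsq) j hy

/-- the prime of the `i`-th Taylor–Wiles diamond is not `p` -/
theorem rRev_ne (i : Fin g) : rRev Q (g - 1 - (i : ℕ)) ≠ p := by
  rw [rRev_idx Q i]
  exact (Q.good i).2.2

/-- **the binder `hB5` of `UnitInst.hunit_of_labelled`, VERBATIM, at `L := (twE …).L1`**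
(`r := Q.qv`; `hE1 : 1 ≤ E i` — the exponents of record are `≥ n + 1 ≥ 1`). -/
theorem hB5_twE (hsq : Squarefree M) (hE1 : ∀ i, 1 ≤ E i)
    (S : Finset ℕ) (hpS : p ∈ S)
    {N'' : ℕ} [NeZero N''] (hN'' : N'' = Q.N * ∏ i : Fin (0 + g), rRev Q i)
    (hSN'' : ∀ ℓ : ℕ, ℓ.Prime → ℓ ∣ N'' → ℓ ∈ (↑S : Set ℕ))
    (T : Type) [CommRing T] [IsLocalRing T] [Algebra P.O T] [IsLocalHom (algebraMap P.O T)]
    [Module.Finite P.O T] [IsReduced T] [IsNoetherianRing T] [IsAdicComplete (maximalIdeal T) T]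
    (ρQ : GaloisRepAdic T)
    (χ : ↥(heckeAlgebra N'' 2 (↑S : Set ℕ)) →+* T)
    (hNk : ∀ i : Fin g, p ∣ Nfun p (eRev E) (0 + g) (Fin.natAdd 0 i))
    (a₁ : T →ₐ[P.O] Module.End P.O (twE Q hp3 E hE c hc hc1).L1.M)
    (a₁_D : ∀ t i, a₁ t * (twE Q hp3 E hE c hc hc1).L1.D i =
      (twE Q hp3 E hE c hc hc1).L1.D i * a₁ t)
    (tw₁ : ↥(heckeAlgebra N'' 2 (↑S : Set ℕ)) →+*
      Module.End P.O (twE Q hp3 E hE c hc hc1).L1.M)
    (ha : ∀ t, a₁ (χ t) = tw₁ t)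
    (twP : ↥(heckeAlgebra N'' 2 (↑S : Set ℕ)) →+*
      Module.End P.O (bigLevel Q.Sy Q.𝔪 (primeDataE Q E hE) (Q.hyp hp3) (0 + g)).M)
    (hfmk : ∀ t (x : (bigLevel Q.Sy Q.𝔪 (primeDataE Q E hE) (Q.hyp hp3) (0 + g)).M),
      tw₁ t (fmk (frD (bigLevel Q.Sy Q.𝔪 (primeDataE Q E hE) (Q.hyp hp3) (0 + g)))
          (fun _ => (1 : P.O)) x)
        = fmk (frD (bigLevel Q.Sy Q.𝔪 (primeDataE Q E hE) (Q.hyp hp3) (0 + g)))
          (fun _ => (1 : P.O)) (twP t x))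
    (hT : ∀ (ℓ : ℕ) (hℓ : ℓ.Prime) (hℓN' : ¬ ℓ ∣ N'') (hℓS : ℓ ∉ (↑S : Set ℕ))
        (hℓN : ¬ ℓ ∣ Q.N),
      haveI : Fact ℓ.Prime := ⟨hℓ⟩
      ∃ d : Gamma0 Q.N,
        (∀ u : (ZMod Q.N)ˣ, (u : ZMod Q.N) = ((ℓ : ℕ) : ZMod Q.N) →
          chi (Theta (Δs p (eRev E)) (primeDataE Q E hE).psi (0 + g)) d ^ 2 *
            Theta (Δs p (eRev E)) (primeDataE Q E hE).psi (0 + g) u = 1) ∧
        ∀ x : (bigLevel Q.Sy Q.𝔪 (primeDataE Q E hE) (Q.hyp hp3) (0 + g)).M,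
          (bigReal Q.Sy Q.𝔪 (primeDataE Q E hE) (Q.hyp hp3) (0 + g)).ι
              (twP (heckeAlgebra.T hℓ hℓN' hℓS) x)
            = diaH (Theta (Δs p (eRev E)) (primeDataE Q E hE).psi (0 + g)) P.O d
                (TH (Theta (Δs p (eRev E)) (primeDataE Q E hE).psi (0 + g)) P.O hℓN
                  ((bigReal Q.Sy Q.𝔪 (primeDataE Q E hE) (Q.hyp hp3) (0 + g)).ι x)))
    (hρ : ∀ (ℓ : ℕ) (hℓ : ℓ.Prime) (hℓN' : ¬ ℓ ∣ N'') (hℓS : ℓ ∉ (↑S : Set ℕ)),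
      ∀ A : ValuationSubring Qb, A.LiesOverPrime ℓ → ∀ σ : GQ, A.IsFrobeniusAt σ ℓ →
        LinearMap.charpoly (ρQ.ρ σ)
          = X ^ 2 - C (χ (heckeAlgebra.T hℓ hℓN' hℓS)) * X + C ((ℓ : T))) :
    ∀ (i : Fin g) (q : Idx P.O T)
      (hloc : IsLocalHom ((ψ q : T →ₐ[P.O] Rq q) : T →+* Rq q)),
      (∀ t : T, (∀ m, a₁ t m ∈ (twE Q hp3 E hE c hc hc1).L1.unitSub p hNk i) → ψ q t = 0) →
      ¬ (ρQ.baseChangeAlong ((ψ q : T →ₐ[P.O] Rq q) : T →+* Rq q) hloc).IsUnipotentOnInertiaAt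
        (Q.qv i) := by
  intro i q hloc hocc
  have h := hB5_plugG_L1 Q.Sy Q.𝔪 (primeDataE Q E hE) (Q.hyp hp3) 0 g c hc hc1
    (Nat.le_of_eq (Nat.zero_add g)) (hbnd_E Q hp3 E hE hsq (0 + g)) S hpS hN'' hSN''
    ρQ χ hNk a₁ a₁_D tw₁ ha twP hfmk hT hρ i
    (by rw [eRev_idx E i]; exact hE1 i) (rRev_ne Q i)
    (natCast_mem_maximalIdeal_Rq q P.hpO) ((ψ q : T →ₐ[P.O] Rq q) : T →+* Rq q) hloc hocc
  rwa [rRev_idx Q i] at h

/-! ### the same at `F := FQ1 …` (diamond orders `fun j => p ^ E j`) -/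

section CastN

variable {O : Type} [CommRing O] {𝕋 : Type} [CommRing 𝕋] [Algebra O 𝕋]
  {M0 : Type} [AddCommGroup M0] [Module O M0] {act0 : 𝕋 →ₐ[O] Module.End O M0}
  {k : ℕ} {N₁ N₂ : Fin k → ℕ} [∀ i, NeZero (N₁ i)] [∀ i, NeZero (N₂ i)]

/-- `castN` does not change `unitSub` -/
theorem castN_unitSub (h : N₁ = N₂) (F : FreeLevel O 𝕋 M0 act0 k N₁) (p : ℕ)
    (hN₁ : ∀ i, p ∣ N₁ i) (hN₂ : ∀ i, p ∣ N₂ i) (i : Fin k) :
    (castN h F).unitSub p hN₂ i = F.unitSub p hN₁ i := by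
  subst h
  rfl

/-- `mapBase` does not change `unitSub` -/
theorem mapBase_unitSub (F : FreeLevel O 𝕋 M0 act0 k N₁)
    {M0' : Type} [AddCommGroup M0'] [Module O M0'] (act0' : 𝕋 →ₐ[O] Module.End O M0')
    (e : M0 ≃ₗ[O] M0') (he : ∀ t y, e (act0 t y) = act0' t (e y)) (p : ℕ)
    (hN₁ : ∀ i, p ∣ N₁ i) (i : Fin k) :
    (mapBase F act0' e he).unitSub p hN₁ i = F.unitSub p hN₁ i := rfl

end CastN

variable (ρ : Q.Sy.𝕋 P.O →ₐ[P.O] Q.Sy.𝕋 P.O)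
  (e : M0 Q.Sy Q.𝔪 (Δs p (eRev E)) (primeDataE Q E hE).psi ≃ₗ[P.O] Mbase P)
  (he : ∀ t y, e (act0 Q.Sy Q.𝔪 (Δs p (eRev E)) (primeDataE Q E hE).psi t y)
    = actQ Q ρ t (e y))

/-- the orders `p ^ E j` are nonzero -/
instance neZero_pow_E (j : Fin g) : NeZero ((fun j : Fin g => p ^ E j) j) :=
  ⟨pow_ne_zero _ hpF.out.ne_zero⟩

/-- `unitSub` of `FQ1 …` is `unitSub` of `(twE …).L1` -/
theorem FQ1_unitSub (hN : ∀ j : Fin g, p ∣ (fun j : Fin g => p ^ E j) j)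
    (hNk : ∀ i : Fin g, p ∣ Nfun p (eRev E) (0 + g) (Fin.natAdd 0 i)) (i : Fin g) :
    (FQ1 Q hp3 E hE c hc hc1 ρ e he).unitSub p hN i
      = (twE Q hp3 E hE c hc hc1).L1.unitSub p hNk i :=
  castN_unitSub (Nfun0_eq_E E) _ p hNk hN i

/-- the orders of the diamonds of `(twE …).L1` are divisible by `p` (`1 ≤ E j`) -/
theorem dvd_Nfun0 (hE1 : ∀ i, 1 ≤ E i) (i : Fin g) :
    p ∣ Nfun p (eRev E) (0 + g) (Fin.natAdd 0 i) := by
  rw [GB.B3.Plug.Nfun_natAdd, eRev_idx]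
  exact dvd_pow_self p (by have := hE1 i; omega)

/-- **the binder `hB5` of `UnitInst.hunit_of_labelled`, VERBATIM, at `L := FQ1 …`** (the `F` of
`ModSideData`; an action `a₁` on `(twE …).L1.M` IS an action on `(FQ1 …).M`, `FQ1_M : rfl`). -/
theorem hB5_FQ1 (hsq : Squarefree M) (hE1 : ∀ i, 1 ≤ E i)
    (hN : ∀ j : Fin g, p ∣ (fun j : Fin g => p ^ E j) j)
    (S : Finset ℕ) (hpS : p ∈ S)
    {N'' : ℕ} [NeZero N''] (hN'' : N'' = Q.N * ∏ i : Fin (0 + g), rRev Q i)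
    (hSN'' : ∀ ℓ : ℕ, ℓ.Prime → ℓ ∣ N'' → ℓ ∈ (↑S : Set ℕ))
    (T : Type) [CommRing T] [IsLocalRing T] [Algebra P.O T] [IsLocalHom (algebraMap P.O T)]
    [Module.Finite P.O T] [IsReduced T] [IsNoetherianRing T] [IsAdicComplete (maximalIdeal T) T]
    (ρQ : GaloisRepAdic T)
    (χ : ↥(heckeAlgebra N'' 2 (↑S : Set ℕ)) →+* T)
    (a₁ : T →ₐ[P.O] Module.End P.O (FQ1 Q hp3 E hE c hc hc1 ρ e he).M)
    (a₁_D : ∀ t i, a₁ t * (FQ1 Q hp3 E hE c hc hc1 ρ e he).D i =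
      (FQ1 Q hp3 E hE c hc hc1 ρ e he).D i * a₁ t)
    (tw₁ : ↥(heckeAlgebra N'' 2 (↑S : Set ℕ)) →+*
      Module.End P.O (twE Q hp3 E hE c hc hc1).L1.M)
    (ha : ∀ t, a₁ (χ t) = tw₁ t)
    (twP : ↥(heckeAlgebra N'' 2 (↑S : Set ℕ)) →+*
      Module.End P.O (bigLevel Q.Sy Q.𝔪 (primeDataE Q E hE) (Q.hyp hp3) (0 + g)).M)
    (hfmk : ∀ t (x : (bigLevel Q.Sy Q.𝔪 (primeDataE Q E hE) (Q.hyp hp3) (0 + g)).M),
      tw₁ t (fmk (frD (bigLevel Q.Sy Q.𝔪 (primeDataE Q E hE) (Q.hyp hp3) (0 + g)))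
          (fun _ => (1 : P.O)) x)
        = fmk (frD (bigLevel Q.Sy Q.𝔪 (primeDataE Q E hE) (Q.hyp hp3) (0 + g)))
          (fun _ => (1 : P.O)) (twP t x))
    (hT : ∀ (ℓ : ℕ) (hℓ : ℓ.Prime) (hℓN' : ¬ ℓ ∣ N'') (hℓS : ℓ ∉ (↑S : Set ℕ))
        (hℓN : ¬ ℓ ∣ Q.N),
      haveI : Fact ℓ.Prime := ⟨hℓ⟩
      ∃ d : Gamma0 Q.N,
        (∀ u : (ZMod Q.N)ˣ, (u : ZMod Q.N) = ((ℓ : ℕ) : ZMod Q.N) →
          chi (Theta (Δs p (eRev E)) (primeDataE Q E hE).psi (0 + g)) d ^ 2 *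
            Theta (Δs p (eRev E)) (primeDataE Q E hE).psi (0 + g) u = 1) ∧
        ∀ x : (bigLevel Q.Sy Q.𝔪 (primeDataE Q E hE) (Q.hyp hp3) (0 + g)).M,
          (bigReal Q.Sy Q.𝔪 (primeDataE Q E hE) (Q.hyp hp3) (0 + g)).ι
              (twP (heckeAlgebra.T hℓ hℓN' hℓS) x)
            = diaH (Theta (Δs p (eRev E)) (primeDataE Q E hE).psi (0 + g)) P.O d
                (TH (Theta (Δs p (eRev E)) (primeDataE Q E hE).psi (0 + g)) P.O hℓN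
                  ((bigReal Q.Sy Q.𝔪 (primeDataE Q E hE) (Q.hyp hp3) (0 + g)).ι x)))
    (hρ : ∀ (ℓ : ℕ) (hℓ : ℓ.Prime) (hℓN' : ¬ ℓ ∣ N'') (hℓS : ℓ ∉ (↑S : Set ℕ)),
      ∀ A : ValuationSubring Qb, A.LiesOverPrime ℓ → ∀ σ : GQ, A.IsFrobeniusAt σ ℓ →
        LinearMap.charpoly (ρQ.ρ σ)
          = X ^ 2 - C (χ (heckeAlgebra.T hℓ hℓN' hℓS)) * X + C ((ℓ : T))) :
    ∀ (i : Fin g) (q : Idx P.O T)
      (hloc : IsLocalHom ((ψ q : T →ₐ[P.O] Rq q) : T →+* Rq q)),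
      (∀ t : T, (∀ m, a₁ t m ∈ (FQ1 Q hp3 E hE c hc hc1 ρ e he).unitSub p hN i) → ψ q t = 0) →
      ¬ (ρQ.baseChangeAlong ((ψ q : T →ₐ[P.O] Rq q) : T →+* Rq q) hloc).IsUnipotentOnInertiaAt
        (Q.qv i) := by
  intro i q hloc hocc
  refine hB5_twE Q hp3 E hE c hc hc1 hsq hE1 S hpS hN'' hSN'' T ρQ χ (dvd_Nfun0 E hE1)
    a₁ a₁_D tw₁ ha twP hfmk hT hρ i q hloc (fun t ht => hocc t (fun m => ?_))
  rw [FQ1_unitSub Q hp3 E hE c hc hc1 ρ e he hN (dvd_Nfun0 E hE1) i]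
  exact ht m

end Pkg

end GE6.Inst.B5TwE

end Fermat.Agent.GE8.P3B
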