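/-
GATE-E (S59) / E6 sub-gate, node N7b "BASE-T instance", the SYMBOL BRIDGE (helper67; helper12 7678).

Two descriptions of the localised Hecke module at the base level `N`:

* (symbols)  `locSub (actLam O N pr hpr) (ker lam)` — the primary part of `O ⊗[ℤ] Lam N` for the
  POLYNOMIAL ring `MvPolynomial σ O` of Hecke symbols (`X s ↦ (latT N (pr s)).baseChange O`,
  helper74's `GE9/Eta/Base/LocBridge.actLam`; `σ := I0 W p M` in helper51's `FreeLevelInst`);
* (Hecke)    `locSub (tensorEndAlg O (latActAlg N S)) (maxθ O θ)` — the primary part for the honest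
  Hecke algebra `O ⊗[ℤ] heckeAlgebra N 2 S`, the ring whose localisation is `Tloc O θ`
  (helper12's `LocModule.locModule`, `FaithLoc.tloc_faithful`).

They are the SAME submodule of `O ⊗[ℤ] Lam N`:

* `ren` : `MvPolynomial σ O →ₐ[O] O ⊗[ℤ] heckeAlgebra N 2 S`, `X s ↦ 1 ⊗ T_{pr s}`;
* `actLam_eq_comp` : `actLam = (tensorEndAlg O (latActAlg N S)).comp ren`;
* `ren_surjective` : when `S` contains the primes of `N` and every prime `ℓ ∤ N`, `ℓ ∉ S` is a symbol;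
* `comap_maxθ_ren` : `(maxθ O θ).comap ren = ker lam` when `lam (X s) = θ (T_{pr s})`;
* `isLoc_actLam_iff`, `locSub_actLam_eq` : the comparison;
* `renP`, `isLoc_iff_pkg`, `locSub_eq_pkg` : the instance at a bundle `P : SetupPkg.Pkg`
  (`σ = I0 W p M`, `S = P.S0`, `θ = P.theta`, `lam = lam0 P`).
NEW file; imports `GE9/Eta/Base/LocBridge` + `GJ/J2/LatAct` + `GJ/Tate/Faithful` +
`GB/B4/Datum/{Carrier, TQFieldsHecke}` + `GE6/Inst/FreeLevelInst`.
-/
import Mathlib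
import Fermat.Agent.GE9.Eta.Base.LocBridge
import Fermat.Agent.GJ.J2.LatAct
import Fermat.Agent.GJ.Tate.Faithful
import Fermat.Agent.GB.B4.Datum.Carrier
import Fermat.Agent.GB.B4.Datum.TQFieldsHecke
import Fermat.Agent.GE8.P3B.GE6.Inst.FreeLevelInst
import Fermat.Agent.GE8.P3B.StepGen
import Fermat.Agent.GE8.P3B.Ok3W

/- TWIN (helper6 B4 generator; conventions of helper24 / helper86) of `Fermat.Agent.GE6.Inst.BaseSym` with `p ≠ 3` relaxed to `Ok3A Sy 𝔪 p` / `Ok3W p W` (RISK-5 fix (B), step B4); everything below lives in the wrapper namespace `Fermat.Agent.GE8.P3B`. -/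
set_option linter.dupNamespace false
open Fermat Fermat.Agent Fermat.Agent.GB Fermat.Agent.GB.B3 Fermat.Agent.GB.B3.HeckeAct Fermat.Agent.GB.B3.RealLevel Fermat.Agent.GB.B4 Fermat.Agent.GB.B4.Datum Fermat.Agent.GB.B4.Datum.Carrier Fermat.Agent.GB.B4.Datum.TQFieldsHecke Fermat.Agent.GB.Setup Fermat.Agent.GB.Setup.SetupPkg Fermat.Agent.GE6 Fermat.Agent.GE6.Inst Fermat.Agent.GE9 Fermat.Agent.GE9.Eta Fermat.Agent.GE9.Eta.Base Fermat.Agent.GE9.Eta.Base.LocBridge Fermat.Agent.GJ Fermat.Agent.GJ.J2 Fermat.Agent.GJ.J2.Lat Fermat.Agent.GJ.J2.LatAct Fermat.Agent.GJ.Tate Fermat.Agent.GJ.Tate.Lim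

namespace Fermat.Agent.GE8.P3B

set_option autoImplicit false
set_option linter.unusedSectionVars false
set_option linter.style.haveILetI false

open scoped TensorProduct
open CongruenceSubgroup CuspForm

namespace GE6.Inst.BaseSym

open Function IsLocalRing MvPolynomial
open GB.B3.RealLevel GB.B3.HeckeAct
open Fermat.Agent.GB.B3.LocBridge (isLoc_comp_iff)
open GB.B4.Datum.Carrier GB.B4.Datum.TQFieldsHecke
open GJ.J2.Lat GJ.J2.LatAct GJ.Tate.Lim
open GE9.Eta.Base.LocBridge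

noncomputable section

section Generic

variable (O : Type) [CommRing O] (N : ℕ) [NeZero N] (S : Set ℕ)
  {σ : Type} (pr : σ → ℕ) (hpr : ∀ s, (pr s).Prime)
  (hprN : ∀ s, ¬ pr s ∣ N) (hprS : ∀ s, pr s ∉ S)

/-- the Hecke operator of a symbol -/
def symT (s : σ) : ↥(heckeAlgebra N 2 S) := heckeAlgebra.T (hpr s) (hprN s) (hprS s)

/-- **symbols to Hecke operators**: `X s ↦ 1 ⊗ T_{pr s}`. -/
def ren : MvPolynomial σ O →ₐ[O] O ⊗[ℤ] ↥(heckeAlgebra N 2 S) :=
  MvPolynomial.aeval fun s => (1 : O) ⊗ₜ[ℤ] symT N S pr hpr hprN hprS s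

theorem ren_X (s : σ) :
    ren O N S pr hpr hprN hprS (X s) = (1 : O) ⊗ₜ[ℤ] symT N S pr hpr hprN hprS s := by
  rw [ren, MvPolynomial.aeval_X]

/-- the action of the Hecke algebra `O ⊗ 𝕋` on `O ⊗ Lam N`. -/
abbrev tA : O ⊗[ℤ] ↥(heckeAlgebra N 2 S) →ₐ[O] Module.End O (O ⊗[ℤ] Lam N) :=
  tensorEndAlg O (latActAlg N S)

theorem tA_symT (s : σ) :
    tA O N S ((1 : O) ⊗ₜ[ℤ] symT N S pr hpr hprN hprS s)
      = (latT N ⟨pr s, hpr s⟩).baseChange O := by
  rw [tA, tensorEndAlg_tmul, one_smul]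
  congr 1
  exact latAct_T N S (hpr s) (hprN s) (hprS s)

/-- **the symbol action factors through the Hecke algebra.** -/
theorem actLam_eq_comp :
    actLam O N pr hpr = (tA O N S).comp (ren O N S pr hpr hprN hprS) := by
  apply MvPolynomial.algHom_ext
  intro s
  rw [actLam_X, AlgHom.comp_apply, ren_X, tA_symT]

/-- `1 ⊗ t` is in the range of `ren` for every Hecke operator `t`, when the symbols exhaust the
generators. -/
theorem one_tmul_mem_range (hS : ∀ q : ℕ, q.Prime → q ∣ N → q ∈ S)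
    (hall : ∀ ℓ : ℕ, ℓ.Prime → ¬ ℓ ∣ N → ℓ ∉ S → ∃ s, pr s = ℓ) (t : ↥(heckeAlgebra N 2 S)) :
    (1 : O) ⊗ₜ[ℤ] t ∈ (ren O N S pr hpr hprN hprS).range := by
  have ht : t ∈ Algebra.adjoin ℤ (gens N 2 S) := by
    rw [adjoin_gens]; exact Algebra.mem_top
  induction ht using Algebra.adjoin_induction with
  | mem x hx =>
    rcases gens_cases hx with ⟨ℓ, hℓ, hℓN, hℓS, rfl⟩ | ⟨q, hq, hqN, hqS, rfl⟩
    · obtain ⟨s, hs⟩ := hall ℓ hℓ hℓN hℓS
      refine ⟨X s, ?_⟩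
      show ren O N S pr hpr hprN hprS (X s) = _
      rw [ren_X]
      congr 1
      apply Subtype.ext
      subst hs
      rfl
    · exact absurd (hS q hq hqN) hqS
  | algebraMap r =>
    refine ⟨algebraMap O _ (r : O), ?_⟩
    show ren O N S pr hpr hprN hprS (algebraMap O _ (r : O)) = _
    rw [AlgHom.commutes, Algebra.TensorProduct.algebraMap_apply, Algebra.algebraMap_self_apply,
      eq_intCast]
    have h1 : ((r : ℤ) : O) = r • (1 : O) := by rw [zsmul_one]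
    have h2 : ((r : ℤ) : ↥(heckeAlgebra N 2 S)) = r • (1 : ↥(heckeAlgebra N 2 S)) := by
      rw [zsmul_one]
    rw [h1, h2, TensorProduct.smul_tmul]
  | add x y _ _ hx hy =>
    rw [TensorProduct.tmul_add]
    exact Subalgebra.add_mem _ hx hy
  | mul x y _ _ hx hy =>
    have : (1 : O) ⊗ₜ[ℤ] (x * y) = ((1 : O) ⊗ₜ[ℤ] x) * ((1 : O) ⊗ₜ[ℤ] y) := by
      rw [Algebra.TensorProduct.tmul_mul_tmul, one_mul]
    rw [this]
    exact Subalgebra.mul_mem _ hx hy

/-- **`ren` is onto** when `S` contains the primes of `N` and every prime outside `N`, `S` is a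
symbol. -/
theorem ren_surjective (hS : ∀ q : ℕ, q.Prime → q ∣ N → q ∈ S)
    (hall : ∀ ℓ : ℕ, ℓ.Prime → ¬ ℓ ∣ N → ℓ ∉ S → ∃ s, pr s = ℓ) :
    Surjective (ren O N S pr hpr hprN hprS) := by
  intro b
  have hb : b ∈ (ren O N S pr hpr hprN hprS).range := by
    induction b using TensorProduct.induction_on with
    | zero => exact Subalgebra.zero_mem _
    | tmul x t =>
      have : x ⊗ₜ[ℤ] t = x • ((1 : O) ⊗ₜ[ℤ] t) := by
        rw [TensorProduct.smul_tmul', smul_eq_mul, mul_one]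
      rw [this]
      exact Subalgebra.smul_mem _ (one_tmul_mem_range O N S pr hpr hprN hprS hS hall t) x
    | add a b ha hb => exact Subalgebra.add_mem _ ha hb
  exact hb

variable [IsLocalRing O] (θ : ↥(heckeAlgebra N 2 S) →+* ResidueField O)
  (lam : MvPolynomial σ O →ₐ[O] ResidueField O)

/-- the residual characters match. -/
theorem thetaO_comp_ren
    (hlam : ∀ s, lam (X s) = θ (symT N S pr hpr hprN hprS s)) :
    (thetaO O θ).comp (ren O N S pr hpr hprN hprS) = lam := by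
  apply MvPolynomial.algHom_ext
  intro s
  rw [AlgHom.comp_apply, ren_X, thetaO_tmul, map_one, one_mul, hlam]

/-- **the maximal ideals match**: `𝔪_θ ∩ O[X_s] = ker lam`. -/
theorem comap_maxθ_ren
    (hlam : ∀ s, lam (X s) = θ (symT N S pr hpr hprN hprS s)) :
    (maxθ O θ).comap (ren O N S pr hpr hprN hprS)
      = RingHom.ker (lam : MvPolynomial σ O →+* ResidueField O) := by
  ext t
  rw [Ideal.mem_comap, mem_maxθ, RingHom.mem_ker, ← thetaO_comp_ren O N S pr hpr hprN hprS θ lam hlam]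
  rfl

/-- **the two notions of primary part coincide.** -/
theorem isLoc_actLam_iff (hS : ∀ q : ℕ, q.Prime → q ∣ N → q ∈ S)
    (hall : ∀ ℓ : ℕ, ℓ.Prime → ¬ ℓ ∣ N → ℓ ∉ S → ∃ s, pr s = ℓ)
    (hlam : ∀ s, lam (X s) = θ (symT N S pr hpr hprN hprS s)) (x : O ⊗[ℤ] Lam N) :
    IsLoc (actLam O N pr hpr) (RingHom.ker (lam : MvPolynomial σ O →+* ResidueField O)) x ↔
      IsLoc (tA O N S) (maxθ O θ) x := by
  rw [actLam_eq_comp O N S pr hpr hprN hprS, ← comap_maxθ_ren O N S pr hpr hprN hprS θ lam hlam]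
  exact isLoc_comp_iff (ren O N S pr hpr hprN hprS)
    (ren_surjective O N S pr hpr hprN hprS hS hall) (tA O N S) (maxθ O θ) x

/-- the same as an equality of submodules of `O ⊗[ℤ] Lam N`. -/
theorem locSub_actLam_eq (hS : ∀ q : ℕ, q.Prime → q ∣ N → q ∈ S)
    (hall : ∀ ℓ : ℕ, ℓ.Prime → ¬ ℓ ∣ N → ℓ ∉ S → ∃ s, pr s = ℓ)
    (hlam : ∀ s, lam (X s) = θ (symT N S pr hpr hprN hprS s)) :
    GB.B8.LevelStage.locSub (actLam O N pr hpr)
        (RingHom.ker (lam : MvPolynomial σ O →+* ResidueField O))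
      = GB.B8.LevelStage.locSub (tA O N S) (maxθ O θ) := by
  ext x
  exact isLoc_actLam_iff O N S pr hpr hprN hprS θ lam hS hall hlam x

end Generic

section PkgInst

open GB.Setup.SetupPkg GE6.Inst.FreeLevelInst
open WeierstrassCurve

variable {p : ℕ} [hpF : Fact p.Prime] {W : WeierstrassCurve ℤ}
  {hcard₁ : Nat.card (Submodule.torsionBy ℤ
    ((W.map (Int.castRingHom ℚ)).toAffine.baseChange (AlgebraicClosure ℚ)).Point p) = p ^ 2}
  {hker : GaloisFactorsThroughFiniteLevel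
    (WeierstrassCurve.Affine.Point.galoisRepModuleEnd (K := AlgebraicClosure ℚ) ℚ
      (W.map (Int.castRingHom ℚ)) p)}
  {M A : ℕ} [NeZero M] (P : Pkg p W hcard₁ hker M A)

theorem pr0_not_dvd (s : I0 W p M) : ¬ pr0 W p M s ∣ M := s.2.2.2.1

theorem pr0_notMem_S0 (s : I0 W p M) : pr0 W p M s ∉ (↑P.S0 : Set ℕ) := by
  simp only [Pkg.S0, Finset.coe_union, Set.mem_union, Finset.mem_coe, Finset.coe_singleton,
    Set.mem_singleton_iff, Nat.mem_primeFactors]
  rintro ((⟨-, h, -⟩ | h) | ⟨-, h, -⟩)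
  · exact s.2.2.2.1 h
  · exact s.2.2.2.2 h
  · exact s.2.2.1 (Int.natCast_dvd.mpr h)

/-- **the symbols of the base level to the Hecke algebra `P.O ⊗ 𝕋^{S0}(M)`.** -/
def renP : MvPolynomial (I0 W p M) P.O →ₐ[P.O] P.O ⊗[ℤ] ↥(heckeAlgebra M 2 (↑P.S0 : Set ℕ)) :=
  ren P.O M (↑P.S0 : Set ℕ) (pr0 W p M) (pr0_prime W p M) pr0_not_dvd (pr0_notMem_S0 P)

theorem renP_X (s : I0 W p M) :
    renP P (X s) = (1 : P.O) ⊗ₜ[ℤ]
      (heckeAlgebra.T (pr0_prime W p M s) (pr0_not_dvd s) (pr0_notMem_S0 P s) :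
        ↥(heckeAlgebra M 2 (↑P.S0 : Set ℕ))) :=
  ren_X P.O M (↑P.S0 : Set ℕ) (pr0 W p M) (pr0_prime W p M) pr0_not_dvd (pr0_notMem_S0 P) s

theorem hall_pkg : ∀ ℓ : ℕ, ℓ.Prime → ¬ ℓ ∣ M → ℓ ∉ (↑P.S0 : Set ℕ) → ∃ s, pr0 W p M s = ℓ :=
  fun ℓ hℓ _ hℓS => ⟨⟨ℓ, hℓ, P.good_of_notMem_S0 hℓ hℓS⟩, rfl⟩

theorem hlam_pkg (s : I0 W p M) :
    lam0 P (X s) = P.theta (symT M (↑P.S0 : Set ℕ) (pr0 W p M) (pr0_prime W p M) pr0_not_dvd
      (pr0_notMem_S0 P) s) := by
  rw [lam0_X]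
  exact (P.theta_T (pr0_prime W p M s) (pr0_not_dvd s) (pr0_notMem_S0 P s)).symm

theorem renP_surjective : Surjective (renP P) :=
  ren_surjective P.O M (↑P.S0 : Set ℕ) (pr0 W p M) (pr0_prime W p M) pr0_not_dvd
    (pr0_notMem_S0 P) P.hMS0 (hall_pkg P)

/-- the symbol action on `P.O ⊗ Lam M` factors through the Hecke algebra. -/
theorem actLam_eq_comp_pkg :
    actLam P.O M (pr0 W p M) (pr0_prime W p M) = (tA P.O M (↑P.S0 : Set ℕ)).comp (renP P) :=
  actLam_eq_comp P.O M (↑P.S0 : Set ℕ) (pr0 W p M) (pr0_prime W p M) pr0_not_dvd (pr0_notMem_S0 P)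

/-- `𝔪_θ ∩ P.O[X_ℓ] = ker lam0`. -/
theorem comap_maxθ_renP :
    (maxθ P.O P.theta).comap (renP P)
      = RingHom.ker (lam0 P : MvPolynomial (I0 W p M) P.O →+* P.k) :=
  comap_maxθ_ren P.O M (↑P.S0 : Set ℕ) (pr0 W p M) (pr0_prime W p M) pr0_not_dvd
    (pr0_notMem_S0 P) P.theta (lam0 P) (hlam_pkg P)

/-- **the base module of the symbols IS the `𝔪_θ`-primary part for the Hecke algebra.** -/
theorem isLoc_iff_pkg (x : P.O ⊗[ℤ] Lam M) :
    IsLoc (actLam P.O M (pr0 W p M) (pr0_prime W p M))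
        (RingHom.ker (lam0 P : MvPolynomial (I0 W p M) P.O →+* P.k)) x ↔
      IsLoc (tA P.O M (↑P.S0 : Set ℕ)) (maxθ P.O P.theta) x :=
  isLoc_actLam_iff P.O M (↑P.S0 : Set ℕ) (pr0 W p M) (pr0_prime W p M) pr0_not_dvd
    (pr0_notMem_S0 P) P.theta (lam0 P) P.hMS0 (hall_pkg P) (hlam_pkg P) x

theorem locSub_eq_pkg :
    GB.B8.LevelStage.locSub (actLam P.O M (pr0 W p M) (pr0_prime W p M))
        (RingHom.ker (lam0 P : MvPolynomial (I0 W p M) P.O →+* P.k))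
      = GB.B8.LevelStage.locSub (tA P.O M (↑P.S0 : Set ℕ)) (maxθ P.O P.theta) := by
  ext x
  exact isLoc_iff_pkg P x

/-- on the primary part, the symbol `X ℓ` acts as `1 ⊗ T_ℓ` (hence as `piT (T_ℓ) • ·` for
`LocModule.locModule`, by `LocModule.coe_algebraMap_smul`). -/
theorem actLam_X_eq_tA (s : I0 W p M) (x : P.O ⊗[ℤ] Lam M) :
    actLam P.O M (pr0 W p M) (pr0_prime W p M) (X s) x
      = tA P.O M (↑P.S0 : Set ℕ) ((1 : P.O) ⊗ₜ[ℤ]
          (heckeAlgebra.T (pr0_prime W p M s) (pr0_not_dvd s) (pr0_notMem_S0 P s) :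
            ↥(heckeAlgebra M 2 (↑P.S0 : Set ℕ)))) x := by
  rw [actLam_eq_comp_pkg P, AlgHom.comp_apply, renP_X]

end PkgInst

end

end GE6.Inst.BaseSym

end Fermat.Agent.GE8.P3B
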