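/-
GATE-E (S59) / ENGINE-INST (helper51): the full exponents `E j = v_p(qv j - 1)` of a Taylor–Wiles set of depth `n`
are `≥ n + 1 ≥ 1` — the binder `hE1` of `B5Gen.hB5_twE` / `UnitTwEB5.hunit_twE_closed` from the
fullness clause of `Wire.NodeStmt` / `NodeProof.RecordStmt`.
-/
import Fermat.Agent.GE8.P3B.GB.B9.ProviderFlat.G1
import Fermat.Agent.GE8.P3B.StepGen
import Fermat.Agent.GE8.P3B.Ok3W

/- TWIN (helper6 B4 generator; conventions of helper24 / helper86) of `Fermat.Agent.GE6.Inst.FullExp` with `p ≠ 3` relaxed to `Ok3A Sy 𝔪 p` / `Ok3W p W` (RISK-5 fix (B), step B4); everything below lives in the wrapper namespace `Fermat.Agent.GE8.P3B`. -/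
set_option linter.dupNamespace false
open Fermat Fermat.Agent Fermat.Agent.GB Fermat.Agent.GB.B9 Fermat.Agent.GB.Setup Fermat.Agent.GB.Setup.SetupPkg

namespace Fermat.Agent.GE8.P3B

set_option autoImplicit false

namespace GE6.Inst.FullExp

open GB.Setup.SetupPkg GB.B9.ProviderFlat.G1

/-- a full exponent dominates every `p`-power dividing `q - 1` -/
theorem le_of_full {p : ℕ} (hp : p.Prime) {q e m a : ℕ} (h : q = p ^ e * m + 1) (hm : ¬ p ∣ m)
    (ha : p ^ a ∣ q - 1) : a ≤ e := by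
  subst h
  rw [Nat.add_sub_cancel] at ha
  by_contra hlt
  have h1 : p ^ (e + 1) ∣ p ^ e * m := (pow_dvd_pow p (by omega)).trans ha
  rw [pow_succ] at h1
  exact hm ((Nat.mul_dvd_mul_iff_left (pow_pos hp.pos e)).mp h1)

variable {p : ℕ} [hpF : Fact p.Prime] {W : WeierstrassCurve ℤ}
  {hcard₁ : Nat.card (Submodule.torsionBy ℤ
    ((W.map (Int.castRingHom ℚ)).toAffine.baseChange (AlgebraicClosure ℚ)).Point p) = p ^ 2}
  {hker : GaloisFactorsThroughFiniteLevel
    (WeierstrassCurve.Affine.Point.galoisRepModuleEnd (K := AlgebraicClosure ℚ) ℚ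
      (W.map (Int.castRingHom ℚ)) p)}
  {M A : ℕ} {P : Pkg p W hcard₁ hker M A} {g n : ℕ} (Q : TWSet P g n)

/-- the full exponents of a Taylor–Wiles set of depth `n` are `≥ n + 1` -/
theorem succ_le_of_full (E : Fin g → ℕ)
    (hfull : ∀ j, ∃ m : ℕ, Q.qv j = p ^ E j * m + 1 ∧ ¬ p ∣ m) (j : Fin g) : n + 1 ≤ E j := by
  obtain ⟨m, h, hm⟩ := hfull j
  exact le_of_full hpF.out h hm (Q.cong j)

/-- … in particular `≥ 1` (the binder `hE1` of `B5Gen.hB5_twE` / `UnitTwEB5.hunit_twE_closed`) -/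
theorem one_le_of_full (E : Fin g → ℕ)
    (hfull : ∀ j, ∃ m : ℕ, Q.qv j = p ^ E j * m + 1 ∧ ¬ p ∣ m) (j : Fin g) : 1 ≤ E j :=
  (Nat.le_add_left 1 n).trans (succ_le_of_full Q E hfull j)

end GE6.Inst.FullExp

end Fermat.Agent.GE8.P3B
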