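/-
GATE-E / E6 node N6b (S1) SEMILIN-TWE, MODULE SIDE (helper49; helper12's table, board 7845):
**on the coinvariants of the Taylor–Wiles level the twisted Hecke operator of a generator is the
symbol of the base**:

  `L1.π (tw₁ (T_ℓ) m) = act0 (X_ℓ) (L1.π m)`   (`ℓ ∉ S`, `ℓ = Sy.ℓ i`).

* `pi_D` : `F.π (F.D i x) = F.π x` for any `FreeLevel`;
* `mem_closure_chi` : the classes of the diamond elements `dfun dd j i` generate
  `∏ i : Fin j, Δs i` as a MONOID (each `Δs i` is generated by `ψ i (dd i)`, `ψ i (dd i') = 1`);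
* **`pi_eq_of_dia`** : for a level `F` realised in `Hom(Γ_H(Θ_j), O)_𝔪` with diamonds
  `⟨dfun dd j i⟩`: `R.ι y = ⟨d⟩ (R.ι x) ⟹ F.π y = F.π x` for EVERY `d ∈ Γ₀(N)`
  (`⟨d⟩` restricts to a word in the `F.D i`, and `F.π ∘ F.D i = F.π`);
* `pi_eq_of_dia_big` : the same at `Plug.bigLevel / bigReal Sy 𝔪 H h j`;
* `pi_twP_gen` : `B.π (twP (T_ℓ) x) = act0 (X_ℓ) (B.π x)` from the generator formula `hι` of
  `G2.exists_twP_hecke`;
* **`pi_tw₁_gen`** : `L1.π (G2.tw₁ … (formsGenS N'' S l) m) = act0 … (X (inl i)) (L1.π m)` at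
  `(Plug.tw Sy 𝔪 H h s k c hc hc1).L1`, any `s k`; `pi_a₁_chi_gen` : the same for
  `G2.a₁ … (chi (T_ℓ))`;
* **`pi_tw1E_gen`**, `pi_a1E_chi_gen` : the instance at `(FreeLevelTw.twE Q hp3 E hE c hc hc1).L1`
  in the binder block of `UnitTwE.hunit_twE` (`twP hD dℓ hnd hι`) = helper12's header VERBATIM.
-/
import Fermat.Agent.GE8.P3B.GE6.Inst.UnitTwE
import Fermat.Agent.GE8.P3B.StepGen
import Fermat.Agent.GE8.P3B.Ok3W

/- TWIN (helper6 B4 generator; conventions of helper24 / helper86) of `Fermat.Agent.GE6.Inst.PiTwE` with `p ≠ 3` relaxed to `Ok3A Sy 𝔪 p` / `Ok3W p W` (RISK-5 fix (B), step B4); everything below lives in the wrapper namespace `Fermat.Agent.GE8.P3B`. -/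
set_option linter.dupNamespace false
open Fermat Fermat.Agent Fermat.Agent.GB Fermat.Agent.GB.B3 Fermat.Agent.GB.B3.ChiLevelMulti Fermat.Agent.GB.B3.EisGamma0 Fermat.Agent.GB.B3.GamH Fermat.Agent.GB.B3.HeckeActH Fermat.Agent.GB.B3.RealLevel Fermat.Agent.GB.B3.TWChars Fermat.Agent.GB.B3.TWLevel Fermat.Agent.GB.B4 Fermat.Agent.GB.B4.Datum Fermat.Agent.GB.B4.Datum.TwRestrict Fermat.Agent.GB.B9 Fermat.Agent.GB.B9.ProviderFlat Fermat.Agent.GB.Setup Fermat.Agent.GB.Setup.SetupPkg Fermat.Agent.GE6 Fermat.Agent.GE6.Inst Fermat.Agent.GJ Fermat.Agent.GJ.J2 Fermat.Agent.GJ.J2.Lat Fermat.Agent.GM Fermat.Agent.GM.B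

namespace Fermat.Agent.GE8.P3B

set_option autoImplicit false
set_option linter.unusedSectionVars false
set_option linter.unusedVariables false
set_option linter.style.haveILetI false

open scoped MatrixGroups
open CongruenceSubgroup ModularCurve.Period CuspForm

namespace GE6.Inst.PiTwE

open GM.B GB.B3 GB.B3.EisGamma0
  GB.B3.HeckeActH GB.B3.RealLevel GB.B3.Tower
  GB.B3.TWChars GB.B3.FinalTW GB.B3.Plug
  GB.B3.TWLevel GB.B3.GamH GB.B3.StepInst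
  GB.B3.ChiLevelMulti GB.B3.Final
  GJ.J2.Lat
  GB.B4.Datum.TwRestrict
  GB.B9.ProviderFlat

/-- local instance (Prop-valued class) -/
local instance factPrimeOffPiTwE {S : Set ℕ} (l : PrimesOff S) : Fact (l.1 : ℕ).Prime := ⟨l.1.2⟩

/-! ### the projection onto the coinvariants kills the diamonds -/

section PiD

variable {O : Type} [CommRing O] {𝕋 : Type} [CommRing 𝕋] [Algebra O 𝕋]
  {M0 : Type} [AddCommGroup M0] [Module O M0] {act0 : 𝕋 →ₐ[O] Module.End O M0}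
  {k : ℕ} {Nk : Fin k → ℕ}

theorem pi_D (F : FreeLevel O 𝕋 M0 act0 k Nk) (i : Fin k) (x : F.M) :
    F.π (F.D i x) = F.π x := by
  have h : F.π ((F.D i - 1) x) = 0 := (F.ker_π _).2 (Submodule.mem_iSup_of_mem i ⟨x, rfl⟩)
  rw [LinearMap.sub_apply, Module.End.one_apply, map_sub, sub_eq_zero] at h
  exact h

end PiD

/-! ### the diamond elements generate -/

section Abs

variable {N : ℕ} {Δs : ℕ → Type} [∀ i, CommGroup (Δs i)] [∀ i, Finite (Δs i)]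
  (ψ : ∀ i, (ZMod N)ˣ →* Δs i) (dd : ℕ → Gamma0 N) {j : ℕ}

/-- **the classes of the diamond elements generate `∏ i : Fin j, Δs i` as a monoid** -/
theorem mem_closure_chi
    (hord : ∀ i, i < j → orderOf (ψ i (dUnits N (dd i))) = Nat.card (Δs i))
    (hoff : ∀ i i', i ≠ i' → ψ i (dUnits N (dd i')) = 1) (δ : ∀ i : Fin j, Δs i) :
    δ ∈ Submonoid.closure (Set.range fun i : Fin j => chi (Theta Δs ψ j) (dfun dd j i)) := by
  classical
  rw [← Finset.univ_prod_mulSingle δ]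
  refine Submonoid.prod_mem _ fun i' _ => ?_
  have htop : Subgroup.zpowers (ψ i' (dUnits N (dd i'))) = ⊤ := by
    rw [← Subgroup.card_eq_iff_eq_top, Nat.card_zpowers]
    exact hord i' i'.2
  have hmem : δ i' ∈ Submonoid.powers (ψ i' (dUnits N (dd i'))) := by
    rw [mem_powers_iff_mem_zpowers, htop]
    exact Subgroup.mem_top _
  obtain ⟨n, hn⟩ := (Submonoid.mem_powers_iff _ _).mp hmem
  have hg : chi (Theta Δs ψ j) (dfun dd j (Fin.rev i')) =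
      Pi.mulSingle (M := fun i : Fin j => Δs i) i' (ψ i' (dUnits N (dd i'))) := by
    rw [dfun_apply]
    have hidx : j - 1 - ((Fin.rev i' : Fin j) : ℕ) = (i' : ℕ) := by
      rw [Fin.val_rev]
      have := i'.2
      omega
    rw [hidx]
    funext i''
    rw [chi_apply, Theta_apply]
    by_cases h : i'' = i'
    · subst h
      rw [Pi.mulSingle_eq_same]
    · rw [Pi.mulSingle_eq_of_ne h]
      exact hoff _ _ (fun h' => h (Fin.ext h'))
  have hpow : Pi.mulSingle (M := fun i : Fin j => Δs i) i' (δ i') =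
      chi (Theta Δs ψ j) (dfun dd j (Fin.rev i')) ^ n := by
    rw [hg, ← hn]
    exact map_pow (MonoidHom.mulSingle (fun i : Fin j => Δs i) i') _ n
  rw [hpow]
  exact pow_mem (Submonoid.subset_closure (Set.mem_range_self (Fin.rev i'))) n

variable [NeZero N] (Sy : Symbols N) {O : Type} [CommRing O] (𝔪 : Ideal (Sy.𝕋 O))
  {M0 : Type} [AddCommGroup M0] [Module O M0] {act0 : Sy.𝕋 O →ₐ[O] Module.End O M0}
  {Nj : Fin j → ℕ} {F : FreeLevel O (Sy.𝕋 O) M0 act0 j Nj}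
  (R : Realizes F (actH Sy O (Theta Δs ψ j)) 𝔪
    (fun i => diaLin O (Theta Δs ψ j) (dfun dd j i)))

/-- **a diamond operator of the ambient module induces the identity on the coinvariants** -/
theorem pi_eq_of_dia
    (hord : ∀ i, i < j → orderOf (ψ i (dUnits N (dd i))) = Nat.card (Δs i))
    (hoff : ∀ i i', i ≠ i' → ψ i (dUnits N (dd i')) = 1)
    (d : Gamma0 N) (x y : F.M)
    (hxy : R.ι y = diaH (Theta Δs ψ j) O d (R.ι x)) : F.π y = F.π x := by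
  classical
  -- the good elements form a submonoid
  let K : Submonoid (Gamma0 N) :=
    { carrier := {d' | ∀ x' y' : F.M,
        R.ι y' = diaH (Theta Δs ψ j) O d' (R.ι x') → F.π y' = F.π x'}
      one_mem' := fun x' y' h' => by
        rw [diaH_of_ker (Theta Δs ψ j) 1 (map_one _)] at h'
        rw [R.inj h']
      mul_mem' := fun {a b} ha hb x' y' h' => by
        obtain ⟨Y, hY⟩ := exists_restrict R (diaLin O (Theta Δs ψ j) a) (fun s => by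
          refine LinearMap.ext fun φ => ?_
          rw [Module.End.mul_apply, Module.End.mul_apply, diaLin_apply, diaLin_apply]
          exact diaH_act Sy O (Theta Δs ψ j) a s φ)
        have h1 : F.π (Y x') = F.π x' := ha x' (Y x') (by rw [hY x', diaLin_apply])
        have h2 : F.π y' = F.π (Y x') := hb (Y x') y' (by
          rw [h', diaH_mul, hY x', diaLin_apply])
        rw [h2, h1] }
  have hgen : ∀ i : Fin j, dfun dd j i ∈ K := fun i x' y' h' => by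
    have h1 : R.ι y' = R.ι (F.D i x') := by
      rw [h', R.ι_D, diaLin_apply]
    rw [R.inj h1]
    exact pi_D F i x'
  -- every class is the class of a good element
  have hcl : chi (Theta Δs ψ j) d ∈ Submonoid.map (chi (Theta Δs ψ j)) K := by
    have h1 := mem_closure_chi ψ dd hord hoff (chi (Theta Δs ψ j) d)
    refine (Submonoid.closure_le.mpr ?_) h1
    rintro _ ⟨i, rfl⟩
    exact ⟨dfun dd j i, hgen i, rfl⟩
  obtain ⟨d', hd'K, hd'⟩ := hcl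
  refine hd'K x y ?_
  rw [hxy]
  exact diaH_congr (Theta Δs ψ j) d d' hd'.symm _

end Abs

/-! ### at the big level of the B3 tower -/

section Big

variable {N p : ℕ} [NeZero N] [hpF : Fact p.Prime] {K : ℕ} {r e N' : ℕ → ℕ}
variable (Sy : Symbols N)
variable {O : Type} [CommRing O] [IsDomain O] [IsPrincipalIdealRing O] [IsLocalRing O]
  [IsAdicComplete (IsLocalRing.maximalIdeal O) O] [Module.IsTorsionFree ℤ O] [CharZero O]
variable (𝔪 : Ideal (Sy.𝕋 O)) [𝔪.IsMaximal]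
variable (H : PrimeData N p K r e N') {ϖ : O} {s0 : Sy.ι₁} (h : Plug.Hyp Sy 𝔪 p ϖ s0)

/-- **a diamond operator induces the identity on the coinvariants of the big level** -/
theorem pi_eq_of_dia_big (j : ℕ) (d : Gamma0 N) (x y : (bigLevel Sy 𝔪 H h j).M)
    (hxy : (bigReal Sy 𝔪 H h j).ι y =
      diaH (Theta (Δs p e) H.psi j) O d ((bigReal Sy 𝔪 H h j).ι x)) :
    (bigLevel Sy 𝔪 H h j).π y = (bigLevel Sy 𝔪 H h j).π x :=
  pi_eq_of_dia H.psi (H.dd hpF.out) Sy 𝔪 (bigReal Sy 𝔪 H h j)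
    (fun i _ => by rw [H.orderOf_psi_dd hpF.out i, H.card_target hpF.out i])
    (fun i i' hii' => H.psi_dd_of_ne hpF.out i i' hii') d x y hxy

variable (j : ℕ) {N'' : ℕ} [NeZero N''] {S : Finset ℕ}

/-- **the twisted Hecke operator of a generator induces the symbol on the coinvariants of the big
level** -/
theorem pi_twP_gen
    (twP : ↥(heckeAlgebra N'' 2 (↑S : Set ℕ)) →+* Module.End O (bigLevel Sy 𝔪 H h j).M)
    (dℓ : PrimesOff (↑S : Set ℕ) → Gamma0 N)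
    (hnd : ∀ l : PrimesOff (↑S : Set ℕ), ¬ (l.1 : ℕ) ∣ N)
    (hι : ∀ (l : PrimesOff (↑S : Set ℕ)) (x : (bigLevel Sy 𝔪 H h j).M),
      (bigReal Sy 𝔪 H h j).ι (twP (formsGenS N'' (↑S : Set ℕ) l) x) =
        diaH (Theta (Δs p e) H.psi j) O (dℓ l)
          (TH (Theta (Δs p e) H.psi j) O (hnd l) ((bigReal Sy 𝔪 H h j).ι x)))
    (l : PrimesOff (↑S : Set ℕ)) (i : Sy.ι₁) (hi : Sy.ℓ i = (l.1 : ℕ))
    (x : (bigLevel Sy 𝔪 H h j).M) :
    (bigLevel Sy 𝔪 H h j).π (twP (formsGenS N'' (↑S : Set ℕ) l) x) =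
      act0 Sy 𝔪 (Δs p e) H.psi (MvPolynomial.X (Sum.inl i)) ((bigLevel Sy 𝔪 H h j).π x) := by
  rw [← (bigLevel Sy 𝔪 H h j).π_act]
  refine pi_eq_of_dia_big Sy 𝔪 H h j (dℓ l) _ _ ?_
  haveI := Sy.factℓ i
  rw [hι l x, (bigReal Sy 𝔪 H h j).ι_act, actH_X_inl]
  exact congrArg _ (G2.TH_congr (Theta (Δs p e) H.psi j) O hi.symm (hnd l) (Sy.hℓN i) _)

variable (s k : ℕ) (c : Fin s → O) (hc : ∀ v : Fin s, c v ^ p ^ e (s + k - 1 - v) = 1)
  (hc1 : ∀ v, (1 : O) - c v ∈ Ideal.span {ϖ})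
  (twP : ↥(heckeAlgebra N'' 2 (↑S : Set ℕ)) →+*
    Module.End O (bigLevel Sy 𝔪 H h (s + k)).M)
  (hD : ∀ t i, twP t * (bigLevel Sy 𝔪 H h (s + k)).D i =
    (bigLevel Sy 𝔪 H h (s + k)).D i * twP t)

/-- **(S1) at `Plug.tw`**: on the coinvariants of `M¹_Q` the twisted Hecke operator of a generator
is the symbol of the base. -/
theorem pi_tw₁_gen
    (dℓ : PrimesOff (↑S : Set ℕ) → Gamma0 N)
    (hnd : ∀ l : PrimesOff (↑S : Set ℕ), ¬ (l.1 : ℕ) ∣ N)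
    (hι : ∀ (l : PrimesOff (↑S : Set ℕ)) (x : (bigLevel Sy 𝔪 H h (s + k)).M),
      (bigReal Sy 𝔪 H h (s + k)).ι (twP (formsGenS N'' (↑S : Set ℕ) l) x) =
        diaH (Theta (Δs p e) H.psi (s + k)) O (dℓ l)
          (TH (Theta (Δs p e) H.psi (s + k)) O (hnd l) ((bigReal Sy 𝔪 H h (s + k)).ι x)))
    (l : PrimesOff (↑S : Set ℕ)) (i : Sy.ι₁) (hi : Sy.ℓ i = (l.1 : ℕ))
    (m : (tw Sy 𝔪 H h s k c hc hc1).L1.M) :
    (tw Sy 𝔪 H h s k c hc hc1).L1.π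
        (G2.tw₁ Sy 𝔪 H h s k c hc hc1 twP hD (formsGenS N'' (↑S : Set ℕ) l) m) =
      act0 Sy 𝔪 (Δs p e) H.psi (MvPolynomial.X (Sum.inl i))
        ((tw Sy 𝔪 H h s k c hc hc1).L1.π m) := by
  obtain ⟨x, rfl⟩ := fmk_surjective (frD (bigLevel Sy 𝔪 H h (s + k))) (fun _ => (1 : O)) m
  exact pi_twP_gen Sy 𝔪 H h (s + k) twP dℓ hnd hι l i hi x

/-- the same for `G2.a₁` on the image of a generator in `T_Q` -/
theorem pi_a₁_chi_gen (θA : ↥(heckeAlgebra N'' 2 (↑S : Set ℕ)) →+* IsLocalRing.ResidueField O)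
    (dℓ : PrimesOff (↑S : Set ℕ) → Gamma0 N)
    (hnd : ∀ l : PrimesOff (↑S : Set ℕ), ¬ (l.1 : ℕ) ∣ N)
    (hι : ∀ (l : PrimesOff (↑S : Set ℕ)) (x : (bigLevel Sy 𝔪 H h (s + k)).M),
      (bigReal Sy 𝔪 H h (s + k)).ι (twP (formsGenS N'' (↑S : Set ℕ) l) x) =
        diaH (Theta (Δs p e) H.psi (s + k)) O (dℓ l)
          (TH (Theta (Δs p e) H.psi (s + k)) O (hnd l) ((bigReal Sy 𝔪 H h (s + k)).ι x)))
    (l : PrimesOff (↑S : Set ℕ)) (i : Sy.ι₁) (hi : Sy.ℓ i = (l.1 : ℕ))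
    (m : (tw Sy 𝔪 H h s k c hc hc1).L1.M) :
    (tw Sy 𝔪 H h s k c hc hc1).L1.π
        (G2.a₁ Sy 𝔪 H h s k c hc hc1 twP hD θA
          (GB.B4.Datum.ImageRing.chi O θA
            (GB.B4.Datum.TQFields.prodTw O (G2.tw₁ Sy 𝔪 H h s k c hc hc1 twP hD)
              (G2.twχ Sy 𝔪 H h s k c hc hc1 twP hD)) (formsGenS N'' (↑S : Set ℕ) l)) m) =
      act0 Sy 𝔪 (Δs p e) H.psi (MvPolynomial.X (Sum.inl i))
        ((tw Sy 𝔪 H h s k c hc hc1).L1.π m) := by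
  rw [G2.a₁_chi]
  exact pi_tw₁_gen Sy 𝔪 H h s k c hc hc1 twP hD dℓ hnd hι l i hi m

end Big

/-! ### the instance at `twE` -/

section TwE

open WeierstrassCurve WeierstrassCurve.Affine.Point
open scoped WeierstrassCurve.Affine
open GB.Setup.SetupPkg GB.B9.ProviderFlat.G1
open GE6.Inst.FreeLevelInst GE6.Inst.FreeLevelTw
open GE6.Inst.UnitTwE

variable {p : ℕ} [hpF : Fact p.Prime] {W : WeierstrassCurve ℤ}
  {hcard₁ : Nat.card (Submodule.torsionBy ℤ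
    ((W.map (Int.castRingHom ℚ))⁄(AlgebraicClosure ℚ)).Point p) = p ^ 2}
  {hker : GaloisFactorsThroughFiniteLevel
    (galoisRepModuleEnd (K := AlgebraicClosure ℚ) ℚ (W.map (Int.castRingHom ℚ)) p)}
  {M A : ℕ} {P : Pkg p W hcard₁ hker M A} {g n : ℕ} (Q : TWSet P g n)
  (hp3 : Ok3W p W) (E : Fin g → ℕ) (hE : ∀ j, p ^ E j ∣ Q.qv j - 1)
  (c : Fin 0 → P.O) (hc : ∀ v : Fin 0, c v ^ p ^ eRev E (0 + g - 1 - v) = 1)
  (hc1 : ∀ v, (1 : P.O) - c v ∈ Ideal.span {P.ϖ})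

variable {N'' : ℕ} [NeZero N''] {SQ : Finset ℕ}
  (twP : ↥(heckeAlgebra N'' 2 (↑SQ : Set ℕ)) →+*
    Module.End P.O (bigLevel Q.Sy Q.𝔪 (primeDataE Q E hE) (Q.hyp hp3) (0 + g)).M)
  (hD : ∀ t i,
    twP t * (bigLevel Q.Sy Q.𝔪 (primeDataE Q E hE) (Q.hyp hp3) (0 + g)).D i =
      (bigLevel Q.Sy Q.𝔪 (primeDataE Q E hE) (Q.hyp hp3) (0 + g)).D i * twP t)
  (θQ : ↥(heckeAlgebra N'' 2 (↑SQ : Set ℕ)) →+* P.k)

/-- **N6b (S1)**: at the object of record `(twE …).L1` of E6, the twisted Hecke operator of the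
generator `T_ℓ` (`ℓ ∉ SQ`, `ℓ = Q.Sy.ℓ i`) induces the symbol `X_ℓ` on the base. -/
theorem pi_tw1E_gen
    (dℓ : PrimesOff (↑SQ : Set ℕ) → Gamma0 Q.N)
    (hnd : ∀ l : PrimesOff (↑SQ : Set ℕ), ¬ (l.1 : ℕ) ∣ Q.N)
    (hι : ∀ (l : PrimesOff (↑SQ : Set ℕ))
        (x : (bigLevel Q.Sy Q.𝔪 (primeDataE Q E hE) (Q.hyp hp3) (0 + g)).M),
      (bigReal Q.Sy Q.𝔪 (primeDataE Q E hE) (Q.hyp hp3) (0 + g)).ι
          (twP (formsGenS N'' (↑SQ : Set ℕ) l) x) =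
        diaH (Theta (Δs p (eRev E)) (primeDataE Q E hE).psi (0 + g)) P.O (dℓ l)
          (TH (Theta (Δs p (eRev E)) (primeDataE Q E hE).psi (0 + g)) P.O (hnd l)
            ((bigReal Q.Sy Q.𝔪 (primeDataE Q E hE) (Q.hyp hp3) (0 + g)).ι x)))
    (l : PrimesOff (↑SQ : Set ℕ)) (i : Q.Sy.ι₁) (hi : Q.Sy.ℓ i = (l.1 : ℕ))
    (m : (twE Q hp3 E hE c hc hc1).L1.M) :
    (twE Q hp3 E hE c hc hc1).L1.π
        (tw₁E Q hp3 E hE c hc hc1 twP hD (formsGenS N'' (↑SQ : Set ℕ) l) m) =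
      act0 Q.Sy Q.𝔪 (Δs p (eRev E)) (primeDataE Q E hE).psi (MvPolynomial.X (Sum.inl i))
        ((twE Q hp3 E hE c hc hc1).L1.π m) :=
  pi_tw₁_gen Q.Sy Q.𝔪 (primeDataE Q E hE) (Q.hyp hp3) 0 g c hc hc1 twP hD dℓ hnd hι l i hi m

/-- the same for `a₁E` on the image of the generator in `T_Q` -/
theorem pi_a1E_chi_gen
    (dℓ : PrimesOff (↑SQ : Set ℕ) → Gamma0 Q.N)
    (hnd : ∀ l : PrimesOff (↑SQ : Set ℕ), ¬ (l.1 : ℕ) ∣ Q.N)
    (hι : ∀ (l : PrimesOff (↑SQ : Set ℕ))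
        (x : (bigLevel Q.Sy Q.𝔪 (primeDataE Q E hE) (Q.hyp hp3) (0 + g)).M),
      (bigReal Q.Sy Q.𝔪 (primeDataE Q E hE) (Q.hyp hp3) (0 + g)).ι
          (twP (formsGenS N'' (↑SQ : Set ℕ) l) x) =
        diaH (Theta (Δs p (eRev E)) (primeDataE Q E hE).psi (0 + g)) P.O (dℓ l)
          (TH (Theta (Δs p (eRev E)) (primeDataE Q E hE).psi (0 + g)) P.O (hnd l)
            ((bigReal Q.Sy Q.𝔪 (primeDataE Q E hE) (Q.hyp hp3) (0 + g)).ι x)))
    (l : PrimesOff (↑SQ : Set ℕ)) (i : Q.Sy.ι₁) (hi : Q.Sy.ℓ i = (l.1 : ℕ))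
    (m : (twE Q hp3 E hE c hc hc1).L1.M) :
    (twE Q hp3 E hE c hc hc1).L1.π
        (a₁E Q hp3 E hE c hc hc1 twP hD θQ
          (GB.B4.Datum.ImageRing.chi P.O θQ
            (GB.B4.Datum.TQFields.prodTw P.O (tw₁E Q hp3 E hE c hc hc1 twP hD)
              (twχE Q hp3 E hE c hc hc1 twP hD)) (formsGenS N'' (↑SQ : Set ℕ) l)) m) =
      act0 Q.Sy Q.𝔪 (Δs p (eRev E)) (primeDataE Q E hE).psi (MvPolynomial.X (Sum.inl i))
        ((twE Q hp3 E hE c hc hc1).L1.π m) :=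
  pi_a₁_chi_gen Q.Sy Q.𝔪 (primeDataE Q E hE) (Q.hyp hp3) 0 g c hc hc1 twP hD θQ dℓ hnd hι l i hi m

end TwE

end GE6.Inst.PiTwE

end Fermat.Agent.GE8.P3B
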