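/-
GATE-E / E6 ENGINE-INST, node N4 (MODQ), the G2 record at the level of record of E6 (helper74):
**the twisted Hecke action `twP` on the big level of `(FreeLevelTw.twE Q hp3 E hE c hc hc1)`, for a
GENERIC forms level `N''` with `hN'' : N'' = Q.N * ∏ i : Fin (0 + g), rRev Q i`.**

This is the first half of `GB/B9/ProviderFlat/FlatGroups.groupsOn_flat` at `s = 0` (no framed
prime), `H := FreeLevelInst.primeDataE Q E hE`.  The level is a VARIABLE with an equation (as in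
`G2.exists_twP_hecke`, `UnitTwE.hunit_twE`, `B5Gen.hB5_twE`), so that the strict-ordinary branch can
call it at `N'' := N₀ * p` LITERALLY (`PsiPkgMinSO.exists_psi_pkg_min_SO` wants that spelling), and
the flat branch at any spelling of `M * (∏ qv) ^ 2`.

* `dvd_levelE` : `M ∣ N''`;
* **`exists_twP_twE_gen`** : `SQ θQ` (`PkgLevel.exists_thetaQ`), the half-diamonds `dℓ hnd hdℓ`
  (`G2.exists_dl_theta`), `hsym` (`G2Sym.hsym_Q`), `twP hD hι hact` + (LOC) (`G2.exists_twP_hecke`)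
  — the binder block of `UnitTwE.hunit_twE` VERBATIM;
* `fact_locHyp_twE` : the (LOC) instance binder of `UnitTwE.hunit_twE` (the other three instance
  binders are level-independent: `PsiQ.finite_prodE`, `PsiQ.free_prodE`, `PsiQ.nontrivial_prodE`).
-/
import Fermat.Agent.GE8.P3B.GE6.Inst.UnitTwE
import Fermat.Agent.GE8.P3B.GB.B9.ProviderFlat.G2Sym
import Fermat.Agent.GB.Setup.PkgLevel
import Fermat.Agent.GE8.P3B.StepGen
import Fermat.Agent.GE8.P3B.Ok3W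

/- TWIN (helper6 B4 generator; conventions of helper24 / helper86) of `Fermat.Agent.GE6.Inst.TwPGen` with `p ≠ 3` relaxed to `Ok3A Sy 𝔪 p` / `Ok3W p W` (RISK-5 fix (B), step B4); everything below lives in the wrapper namespace `Fermat.Agent.GE8.P3B`. -/
set_option linter.dupNamespace false
open Fermat Fermat.Agent Fermat.Agent.GB Fermat.Agent.GB.B3 Fermat.Agent.GB.B3.ChiLevelMulti Fermat.Agent.GB.B3.GamH Fermat.Agent.GB.B3.HeckeActH Fermat.Agent.GB.B3.RealLevel Fermat.Agent.GB.B3.TWChars Fermat.Agent.GB.B3.TWLevel Fermat.Agent.GB.B4 Fermat.Agent.GB.B4.Datum Fermat.Agent.GB.B4.Datum.ImageRing Fermat.Agent.GB.B4.Datum.TQFields Fermat.Agent.GB.B9 Fermat.Agent.GB.B9.ProviderFlat Fermat.Agent.GB.Setup Fermat.Agent.GB.Setup.SetupPkg Fermat.Agent.GE6 Fermat.Agent.GE6.Inst Fermat.Agent.GJ Fermat.Agent.GJ.J2 Fermat.Agent.GJ.J2.Lat Fermat.Agent.GM Fermat.Agent.GM.B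

namespace Fermat.Agent.GE8.P3B

set_option autoImplicit false
set_option linter.unusedSectionVars false
set_option linter.unusedVariables false
set_option linter.style.haveILetI false

open WeierstrassCurve WeierstrassCurve.Affine.Point IsLocalRing
open scoped WeierstrassCurve.Affine
open scoped MatrixGroups
open CongruenceSubgroup ModularCurve.Period CuspForm Polynomial

namespace GE6.Inst.TwPGen

open GM.B
open GB.B3.HeckeActH GB.B3.RealLevel GB.B3.Tower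
  GB.B3.TWChars GB.B3.FinalTW GB.B3.Plug
  GB.B3.TWLevel GB.B3.GamH GB.B3.ChiLevelMulti
  GB.B3.Final
open GJ.J2.Lat
open GB.B4.Datum.ImageRing GB.B4.Datum.TQFields
open GB.Setup.SetupPkg
open GB.B9.ProviderFlat GB.B9.ProviderFlat.G1
open GE6.Inst.FreeLevelInst GE6.Inst.FreeLevelTw
open GE6.Inst.UnitTwE

/-- local instance (Prop-valued class) -/
local instance factPrimeOffTG {S : Set ℕ} (l : PrimesOff S) : Fact (l.1 : ℕ).Prime := ⟨l.1.2⟩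

/-- `ℚ̄`. -/
local notation "Qb" => AlgebraicClosure ℚ
/-- `G_ℚ`. -/
local notation "GQ" => (AlgebraicClosure ℚ ≃ₐ[ℚ] AlgebraicClosure ℚ)
/-- the character `Γ₀(N) → Δ` of a character of `(ℤ/N)ˣ`. -/
local notation "chiΓ" => GB.B3.EisGamma0.chi

noncomputable section

variable {p : ℕ} [hpF : Fact p.Prime] {W : WeierstrassCurve ℤ}
  {hcard₁ : Nat.card (Submodule.torsionBy ℤ
    ((W.map (Int.castRingHom ℚ))⁄(AlgebraicClosure ℚ)).Point p) = p ^ 2}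
  {hker : GaloisFactorsThroughFiniteLevel
    (galoisRepModuleEnd (K := AlgebraicClosure ℚ) ℚ (W.map (Int.castRingHom ℚ)) p)}
  {M A : ℕ} {P : Pkg p W hcard₁ hker M A} {g n : ℕ} (Q : TWSet P g n)
  (hp3 : Ok3W p W) (E : Fin g → ℕ) (hE : ∀ j, p ^ E j ∣ Q.qv j - 1)

/-- the level of `P` divides the forms level at `Q` -/
theorem dvd_levelE {N'' : ℕ} (hN'' : N'' = Q.N * ∏ i : Fin (0 + g), rRev Q i) : M ∣ N'' := by
  rw [hN'']
  exact Dvd.dvd.mul_right (Dvd.intro (∏ i, Q.qv i) rfl) _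

/-- `Q.N` divides the forms level at `Q` -/
theorem N_dvd_levelE {N'' : ℕ} (hN'' : N'' = Q.N * ∏ i : Fin (0 + g), rRev Q i) : Q.N ∣ N'' := by
  rw [hN'']
  exact Dvd.intro _ rfl

/-- **the G2 record at `twE`, generic forms level** (first half of `FlatGroups.groupsOn_flat` at
`s = 0`, `H := primeDataE Q E hE`): the residual eigensystem `θQ` at the forms level, the
half-diamonds, and the twisted Hecke action `twP` on the big level with (LOC). -/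
theorem exists_twP_twE_gen (hsq : Squarefree M) {N'' : ℕ} [NeZero N'']
    (hN'' : N'' = Q.N * ∏ i : Fin (0 + g), rRev Q i) :
    ∃ (SQ : Finset ℕ) (θQ : ↥(heckeAlgebra N'' 2 (↑SQ : Set ℕ)) →+* P.k),
      SQ = N''.primeFactors ∪ {p} ∪ W.Δ.natAbs.primeFactors ∧
      p ∈ SQ ∧ (∀ ℓ : ℕ, ℓ.Prime → ℓ ∣ N'' → ℓ ∈ SQ) ∧
      (∀ ℓ : ℕ, ℓ.Prime → ℓ ∣ Q.N → ℓ ∈ SQ) ∧
      (∀ ℓ : ℕ, ℓ.Prime → ¬ W.IsGoodPrimeFor ℓ → ℓ ∈ SQ) ∧
      (∀ (ℓ : ℕ) (hℓ : ℓ.Prime) (hℓN : ¬ ℓ ∣ N'') (hℓS : ℓ ∉ (↑SQ : Set ℕ)),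
        θQ (heckeAlgebra.T hℓ hℓN hℓS) = ((W.apOfModel ℓ : ℤ) : P.k)) ∧
      (∀ (ℓ : ℕ) (hℓ : ℓ.Prime) (hℓN : ¬ ℓ ∣ N'') (hℓS : ℓ ∉ (↑SQ : Set ℕ))
        (Pl : ValuationSubring Qb), Pl.LiesOverPrime ℓ → ∀ σ : GQ, Pl.IsFrobeniusAt σ ℓ →
          LinearMap.charpoly (P.rhobar.ρ σ) =
            X ^ 2 - C (θQ (heckeAlgebra.T hℓ hℓN hℓS)) * X + C ((ℓ : ℕ) : P.k)) ∧
      ∃ (dℓ : PrimesOff (↑SQ : Set ℕ) → Gamma0 Q.N)
        (hnd : ∀ l : PrimesOff (↑SQ : Set ℕ), ¬ (l.1 : ℕ) ∣ Q.N),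
        (∀ (l : PrimesOff (↑SQ : Set ℕ)) (u : (ZMod Q.N)ˣ),
          (u : ZMod Q.N) = ((l.1 : ℕ) : ZMod Q.N) →
            chiΓ (Theta (Δs p (eRev E)) (primeDataE Q E hE).psi (0 + g)) (dℓ l) ^ 2 *
              Theta (Δs p (eRev E)) (primeDataE Q E hE).psi (0 + g) u = 1) ∧
        (∀ l : PrimesOff (↑SQ : Set ℕ), ∃ i : Q.Sy.ι₁, Q.Sy.ℓ i = (l.1 : ℕ) ∧
          θQ (formsGenS N'' (↑SQ : Set ℕ) l) = Q.lamTop (MvPolynomial.X (Sum.inl i))) ∧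
        ∃ (twP : ↥(heckeAlgebra N'' 2 (↑SQ : Set ℕ)) →+*
            Module.End P.O (bigLevel Q.Sy Q.𝔪 (primeDataE Q E hE) (Q.hyp hp3) (0 + g)).M)
          (hD : ∀ t i,
            twP t * (bigLevel Q.Sy Q.𝔪 (primeDataE Q E hE) (Q.hyp hp3) (0 + g)).D i =
              (bigLevel Q.Sy Q.𝔪 (primeDataE Q E hE) (Q.hyp hp3) (0 + g)).D i * twP t),
          (∀ (l : PrimesOff (↑SQ : Set ℕ))
              (x : (bigLevel Q.Sy Q.𝔪 (primeDataE Q E hE) (Q.hyp hp3) (0 + g)).M),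
            (bigReal Q.Sy Q.𝔪 (primeDataE Q E hE) (Q.hyp hp3) (0 + g)).ι
                (twP (formsGenS N'' (↑SQ : Set ℕ) l) x) =
              diaH (Theta (Δs p (eRev E)) (primeDataE Q E hE).psi (0 + g)) P.O (dℓ l)
                (TH (Theta (Δs p (eRev E)) (primeDataE Q E hE).psi (0 + g)) P.O (hnd l)
                  ((bigReal Q.Sy Q.𝔪 (primeDataE Q E hE) (Q.hyp hp3) (0 + g)).ι x))) ∧
          (∀ t u,
            twP t * (bigLevel Q.Sy Q.𝔪 (primeDataE Q E hE) (Q.hyp hp3) (0 + g)).act u =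
              (bigLevel Q.Sy Q.𝔪 (primeDataE Q E hE) (Q.hyp hp3) (0 + g)).act u * twP t) ∧
          LocHyp P.O θQ twP := by
  -- the residual eigensystem at the forms level
  obtain ⟨SQ, θQ, hSQ, hpS, hNS, hbadS, hθT, hfrobQ, -⟩ :=
    GB.Setup.PkgLevel.exists_thetaQ P (dvd_levelE Q hN'')
  have hQN : Q.N ∣ N'' := N_dvd_levelE Q hN''
  have hnd : ∀ l : PrimesOff (↑SQ : Set ℕ), ¬ (l.1 : ℕ) ∣ Q.N := G2Sym.hnd_Q Q hQN SQ hNS
  -- G2 : half-diamonds, the twisted action on the big level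
  obtain ⟨dℓ, hdℓ⟩ := G2.exists_dl_theta (primeDataE Q E hE) (0 + g)
    (Nat.le_of_eq (Nat.zero_add g)) P.hp2 (↑SQ : Set ℕ) hnd
  have hsym : ∀ l : PrimesOff (↑SQ : Set ℕ), ∃ i : Q.Sy.ι₁, Q.Sy.ℓ i = (l.1 : ℕ) ∧
      θQ (formsGenS N'' (↑SQ : Set ℕ) l) = Q.lamTop (MvPolynomial.X (Sum.inl i)) :=
    G2Sym.hsym_Q Q hQN SQ hNS hpS hbadS θQ hθT
  have hev : ∀ t ∈ Q.𝔪, Q.lamTop t = 0 := G2Sym.hev_Q Q
  obtain ⟨twP, hι, hD, hact, hlocP⟩ :=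
    G2.exists_twP_hecke Q.Sy Q.𝔪 (primeDataE Q E hE) (Q.hyp hp3) 0 g
      (G2Sym.squarefree_N Q hsq) (Nat.le_of_eq (Nat.zero_add g)) hN'' SQ hNS dℓ hdℓ hnd
      Q.lamTop hev θQ hsym
  exact ⟨SQ, θQ, hSQ, hpS, hNS, fun ℓ hℓ hd => hNS ℓ hℓ (hd.trans hQN), hbadS, hθT, hfrobQ,
    dℓ, hnd, hdℓ, hsym, twP, hD, hι, hact, hlocP⟩

/-! ### the instance binders of `UnitTwE.hunit_twE` -/

section Inst

variable (c : Fin 0 → P.O) (hc : ∀ v : Fin 0, c v ^ p ^ eRev E (0 + g - 1 - v) = 1)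
  (hc1 : ∀ v, (1 : P.O) - c v ∈ Ideal.span {P.ϖ})
  {N'' : ℕ} [NeZero N''] {SQ : Finset ℕ}
  (twP : ↥(heckeAlgebra N'' 2 (↑SQ : Set ℕ)) →+*
    Module.End P.O (bigLevel Q.Sy Q.𝔪 (primeDataE Q E hE) (Q.hyp hp3) (0 + g)).M)
  (hD : ∀ t i,
    twP t * (bigLevel Q.Sy Q.𝔪 (primeDataE Q E hE) (Q.hyp hp3) (0 + g)).D i =
      (bigLevel Q.Sy Q.𝔪 (primeDataE Q E hE) (Q.hyp hp3) (0 + g)).D i * twP t)
  (θQ : ↥(heckeAlgebra N'' 2 (↑SQ : Set ℕ)) →+* P.k)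

/-- (LOC) for the product action at `twE`, as a `Fact` -/
theorem fact_locHyp_twE (hlocP : LocHyp P.O θQ twP) :
    Fact (LocHyp P.O θQ (prodTw P.O (tw₁E Q hp3 E hE c hc hc1 twP hD)
      (twχE Q hp3 E hE c hc hc1 twP hD))) :=
  ⟨G2.locHyp_T Q.Sy Q.𝔪 (primeDataE Q E hE) (Q.hyp hp3) 0 g c hc hc1 twP hD θQ hlocP⟩

end Inst

end

end GE6.Inst.TwPGen

end Fermat.Agent.GE8.P3B
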