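/-
GATE-E (S59) / ENGINE-INST node N5 (iv) UNIT, LAST PLUG (helper51): **helper49's
`UnitTwE.hunit_twE` with its only open binder `hB5` DISCHARGED** by `B5Gen.hB5_G2` (`s = 0`).

* `not_unip_congr` : transport of `¬ IsUnipotentOnInertiaAt` along an equality of primes (a `rw`
  on these terms re-checks the whole motive and times out: the ring is `G2.T …`);
* `hB5_TE` : the binder `hB5` of `UnitTwE.hunit_twE` VERBATIM (at helper49's `TE …`, `a₁E …`);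
* **`hunit_twE_closed`** : `UnitTwE.hunit_twE` without `hB5` (new binders: `hE1 : ∀ j, 1 ≤ E j`,
  `hN'' : N'' = Q.N * ∏ i : Fin (0 + g), rRev Q i`) = the field `unit` of `ModSide.ModSideData`
  VERBATIM at `F := FQ1 …`, module structure `UnitInst.moduleOfHom (a₁E …) ψQ`.
-/
import Fermat.Agent.GE8.P3B.GE6.Inst.UnitTwE
import Fermat.Agent.GE8.P3B.GE6.Inst.B5Gen
import Fermat.Agent.GE8.P3B.StepGen
import Fermat.Agent.GE8.P3B.Ok3W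

/- TWIN (helper6 B4 generator; conventions of helper24 / helper86) of `Fermat.Agent.GE6.Inst.UnitTwEB5` with `p ≠ 3` relaxed to `Ok3A Sy 𝔪 p` / `Ok3W p W` (RISK-5 fix (B), step B4); everything below lives in the wrapper namespace `Fermat.Agent.GE8.P3B`. -/
set_option linter.dupNamespace false
open Fermat Fermat.Agent Fermat.Agent.Common_helper32 Fermat.Agent.GB Fermat.Agent.GB.B3 Fermat.Agent.GB.B3.ChiLevelMulti Fermat.Agent.GB.B3.GamH Fermat.Agent.GB.B3.HeckeActH Fermat.Agent.GB.B3.RealLevel Fermat.Agent.GB.B3.TWChars Fermat.Agent.GB.B3.TWLevel Fermat.Agent.GB.B4 Fermat.Agent.GB.B4.Datum Fermat.Agent.GB.B4.Datum.ImageRing Fermat.Agent.GB.B4.Datum.TQFields Fermat.Agent.GB.B9 Fermat.Agent.GB.B9.ProviderFlat Fermat.Agent.GB.E2 Fermat.Agent.GB.E2.TWDiag Fermat.Agent.GB.E2.TameGenAdic Fermat.Agent.GB.Glue Fermat.Agent.GB.Glue.Points Fermat.Agent.GB.Setup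 Fermat.Agent.GB.Setup.SetupPkg Fermat.Agent.GE2 Fermat.Agent.GE2.DeltaQ Fermat.Agent.GE2.DeltaQData Fermat.Agent.GE2.LabelMap Fermat.Agent.GE6 Fermat.Agent.GE6.Inst Fermat.Agent.GE6.Inst.UnitInst Fermat.Agent.GJ Fermat.Agent.GJ.J2 Fermat.Agent.GJ.J2.Lat Fermat.Agent.GM Fermat.Agent.GM.B

namespace Fermat.Agent.GE8.P3B

set_option autoImplicit false
set_option linter.unusedSectionVars false
set_option linter.unusedVariables false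
set_option linter.style.haveILetI false

open WeierstrassCurve WeierstrassCurve.Affine.Point IsLocalRing
open scoped WeierstrassCurve.Affine
open scoped MatrixGroups
open CongruenceSubgroup ModularCurve.Period CuspForm Polynomial

namespace GE6.Inst.UnitTwEB5

open GM.B
open GB.B3.HeckeActH GB.B3.RealLevel GB.B3.Tower
  GB.B3.TWChars GB.B3.FinalTW GB.B3.Plug
  GB.B3.TWLevel GB.B3.GamH GB.B3.ChiLevelMulti
  GB.B3.Final
open GJ.J2.Lat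
open GB.B4.Datum.ImageRing GB.B4.Datum.TQFields
open GB.Setup.SetupPkg
open GB.B9.ProviderFlat GB.B9.ProviderFlat.G1
open GB.E2.TWDiag GB.E2.TameGenAdic GB.Glue.Points
open GE2.DeltaQData GE2.LabelMap GE2.DeltaQ
open GE6.Inst.FreeLevelInst GE6.Inst.FreeLevelTw
open GE6.Inst.UnitInst GE6.Inst.UnitTwE GE6.Inst.B5Gen
open Common_helper32

/-- local instance (Prop-valued class) -/
local instance factPrimeOffUEB5 {S : Set ℕ} (l : PrimesOff S) : Fact (l.1 : ℕ).Prime := ⟨l.1.2⟩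

/-- `ℚ̄`. -/
local notation "Qb" => AlgebraicClosure ℚ
/-- `G_ℚ`. -/
local notation "GQ" => (AlgebraicClosure ℚ ≃ₐ[ℚ] AlgebraicClosure ℚ)
/-- the character `Γ₀(N) → Δ` of a character of `(ℤ/N)ˣ`. -/
local notation "chiΓ" => GB.B3.EisGamma0.chi
/-- the structure map `A → T_Q`. -/
local notation "chiT" => GB.B4.Datum.ImageRing.chi

/-- transport of "not unipotent on inertia" along an equality of primes -/
theorem not_unip_congr {A' : Type} [CommRing A'] [IsLocalRing A'] (ρ : GaloisRepAdic A') {a b : ℕ}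
    (h : a = b) (H : ¬ ρ.IsUnipotentOnInertiaAt a) : ¬ ρ.IsUnipotentOnInertiaAt b := h ▸ H

noncomputable section

variable {p : ℕ} [hpF : Fact p.Prime] {W : WeierstrassCurve ℤ}
  {hcard₁ : Nat.card (Submodule.torsionBy ℤ
    ((W.map (Int.castRingHom ℚ))⁄(AlgebraicClosure ℚ)).Point p) = p ^ 2}
  {hker : GaloisFactorsThroughFiniteLevel
    (galoisRepModuleEnd (K := AlgebraicClosure ℚ) ℚ (W.map (Int.castRingHom ℚ)) p)}
  {M A : ℕ} {P : Pkg p W hcard₁ hker M A} {g n : ℕ} (Q : TWSet P g n)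
  (hp3 : Ok3W p W) (E : Fin g → ℕ) (hE : ∀ j, p ^ E j ∣ Q.qv j - 1)
  (c : Fin 0 → P.O) (hc : ∀ v : Fin 0, c v ^ p ^ eRev E (0 + g - 1 - v) = 1)
  (hc1 : ∀ v, (1 : P.O) - c v ∈ Ideal.span {P.ϖ})

variable {N'' : ℕ} [NeZero N''] {SQ : Finset ℕ}
  (twP : ↥(heckeAlgebra N'' 2 (↑SQ : Set ℕ)) →+*
    Module.End P.O (bigLevel Q.Sy Q.𝔪 (primeDataE Q E hE) (Q.hyp hp3) (0 + g)).M)
  (hD : ∀ t i,
    twP t * (bigLevel Q.Sy Q.𝔪 (primeDataE Q E hE) (Q.hyp hp3) (0 + g)).D i =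
      (bigLevel Q.Sy Q.𝔪 (primeDataE Q E hE) (Q.hyp hp3) (0 + g)).D i * twP t)
  (θQ : ↥(heckeAlgebra N'' 2 (↑SQ : Set ℕ)) →+* P.k)

set_option maxHeartbeats 1600000 in
/-- **the binder `hB5` of `UnitTwE.hunit_twE`, VERBATIM.** -/
theorem hB5_TE (hsqN : Squarefree Q.N) (hE1 : ∀ j, 1 ≤ E j)
    (hN'' : N'' = Q.N * ∏ i : Fin (0 + g), rRev Q i)
    (hpS : p ∈ SQ) (hNS : ∀ ℓ : ℕ, ℓ.Prime → ℓ ∣ N'' → ℓ ∈ SQ)
    (dℓ : PrimesOff (↑SQ : Set ℕ) → Gamma0 Q.N)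
    (hdℓ : ∀ (l : PrimesOff (↑SQ : Set ℕ)) (u : (ZMod Q.N)ˣ),
      (u : ZMod Q.N) = ((l.1 : ℕ) : ZMod Q.N) →
        chiΓ (Theta (Δs p (eRev E)) (primeDataE Q E hE).psi (0 + g)) (dℓ l) ^ 2 *
          Theta (Δs p (eRev E)) (primeDataE Q E hE).psi (0 + g) u = 1)
    (hnd : ∀ l : PrimesOff (↑SQ : Set ℕ), ¬ (l.1 : ℕ) ∣ Q.N)
    (hι : ∀ (l : PrimesOff (↑SQ : Set ℕ))
        (x : (bigLevel Q.Sy Q.𝔪 (primeDataE Q E hE) (Q.hyp hp3) (0 + g)).M),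
      (bigReal Q.Sy Q.𝔪 (primeDataE Q E hE) (Q.hyp hp3) (0 + g)).ι
          (twP (formsGenS N'' (↑SQ : Set ℕ) l) x) =
        diaH (Theta (Δs p (eRev E)) (primeDataE Q E hE).psi (0 + g)) P.O (dℓ l)
          (TH (Theta (Δs p (eRev E)) (primeDataE Q E hE).psi (0 + g)) P.O (hnd l)
            ((bigReal Q.Sy Q.𝔪 (primeDataE Q E hE) (Q.hyp hp3) (0 + g)).ι x)))
    [Fact (LocHyp P.O θQ (prodTw P.O (tw₁E Q hp3 E hE c hc hc1 twP hD)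
      (twχE Q hp3 E hE c hc hc1 twP hD)))]
    [Module.Finite P.O ((twE Q hp3 E hE c hc hc1).L1.M × (twE Q hp3 E hE c hc hc1).Lχ.M)]
    [Module.Free P.O ((twE Q hp3 E hE c hc hc1).L1.M × (twE Q hp3 E hE c hc hc1).Lχ.M)]
    [Nontrivial ((twE Q hp3 E hE c hc hc1).L1.M × (twE Q hp3 E hE c hc hc1).Lχ.M)]
    (ρQ : GaloisRepAdic (TE Q hp3 E hE c hc hc1 twP hD θQ))
    (hρ : ∀ (ℓ : ℕ) (hℓ : ℓ.Prime) (hℓN : ¬ ℓ ∣ N'') (hℓS : ℓ ∉ (↑SQ : Set ℕ))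
        (Pl : ValuationSubring Qb), Pl.LiesOverPrime ℓ → ∀ σ : GQ, Pl.IsFrobeniusAt σ ℓ →
          LinearMap.charpoly (ρQ.ρ σ) =
            X ^ 2 - C (chiT P.O θQ (prodTw P.O (tw₁E Q hp3 E hE c hc hc1 twP hD)
                (twχE Q hp3 E hE c hc hc1 twP hD)) (heckeAlgebra.T hℓ hℓN hℓS)) * X
              + C ((ℓ : TE Q hp3 E hE c hc hc1 twP hD θQ)))
    (hNp : ∀ i : Fin g, p ∣ Nfun p (eRev E) (0 + g) (Fin.natAdd 0 i)) :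
    ∀ (i : Fin g) (q : Idx P.O (TE Q hp3 E hE c hc hc1 twP hD θQ))
      (hloc : IsLocalHom ((ψ q : TE Q hp3 E hE c hc hc1 twP hD θQ →ₐ[P.O] Rq q) :
        TE Q hp3 E hE c hc hc1 twP hD θQ →+* Rq q)),
      (∀ t : TE Q hp3 E hE c hc hc1 twP hD θQ,
        (∀ m, a₁E Q hp3 E hE c hc hc1 twP hD θQ t m ∈
          (twE Q hp3 E hE c hc hc1).L1.unitSub p hNp i) → ψ q t = 0) →
      ¬ (ρQ.baseChangeAlong ((ψ q : TE Q hp3 E hE c hc hc1 twP hD θQ →ₐ[P.O] Rq q) :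
        TE Q hp3 E hE c hc hc1 twP hD θQ →+* Rq q) hloc).IsUnipotentOnInertiaAt (Q.qv i) := by
  intro i q hloc hocc
  have hk : 0 + g ≤ g := Nat.le_of_eq (Nat.zero_add g)
  have hei : 1 ≤ eRev E (g - 1 - (i : ℕ)) := by rw [eRev_idx]; exact hE1 i
  have hrp : rRev Q (g - 1 - (i : ℕ)) ≠ p := by rw [rRev_idx]; exact (Q.good i).2.2
  have hpO' := natCast_mem_maximalIdeal_Rq q P.hpO
  have key := hB5_G2 Q.Sy Q.𝔪 (primeDataE Q E hE) (Q.hyp hp3) 0 g c hc hc1 twP hD θQ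
    hsqN hk hN'' hpS hNS ρQ hρ dℓ hdℓ hnd hι hNp i hei hrp hpO'
    ((ψ q : TE Q hp3 E hE c hc hc1 twP hD θQ →ₐ[P.O] Rq q) :
      TE Q hp3 E hE c hc hc1 twP hD θQ →+* Rq q) hloc
  exact not_unip_congr _ (rRev_idx Q i) (key hocc)

set_option maxHeartbeats 1600000 in
/-- **(UNIT) at `twE`, all binders on the G2 / G3 records**: helper49's `UnitTwE.hunit_twE` with
`hB5 := hB5_TE`. -/
theorem hunit_twE_closed (hsqN : Squarefree Q.N) (hE1 : ∀ j, 1 ≤ E j)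
    (hN'' : N'' = Q.N * ∏ i : Fin (0 + g), rRev Q i)
    (hpS : p ∈ SQ) (hNS : ∀ ℓ : ℕ, ℓ.Prime → ℓ ∣ N'' → ℓ ∈ SQ)
    (hSN : ∀ ℓ : ℕ, ℓ.Prime → ℓ ∣ Q.N → ℓ ∈ SQ)
    (dℓ : PrimesOff (↑SQ : Set ℕ) → Gamma0 Q.N)
    (hdℓ : ∀ (l : PrimesOff (↑SQ : Set ℕ)) (u : (ZMod Q.N)ˣ),
      (u : ZMod Q.N) = ((l.1 : ℕ) : ZMod Q.N) →
        chiΓ (Theta (Δs p (eRev E)) (primeDataE Q E hE).psi (0 + g)) (dℓ l) ^ 2 *
          Theta (Δs p (eRev E)) (primeDataE Q E hE).psi (0 + g) u = 1)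
    (hnd : ∀ l : PrimesOff (↑SQ : Set ℕ), ¬ (l.1 : ℕ) ∣ Q.N)
    (hι : ∀ (l : PrimesOff (↑SQ : Set ℕ))
        (x : (bigLevel Q.Sy Q.𝔪 (primeDataE Q E hE) (Q.hyp hp3) (0 + g)).M),
      (bigReal Q.Sy Q.𝔪 (primeDataE Q E hE) (Q.hyp hp3) (0 + g)).ι
          (twP (formsGenS N'' (↑SQ : Set ℕ) l) x) =
        diaH (Theta (Δs p (eRev E)) (primeDataE Q E hE).psi (0 + g)) P.O (dℓ l)
          (TH (Theta (Δs p (eRev E)) (primeDataE Q E hE).psi (0 + g)) P.O (hnd l)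
            ((bigReal Q.Sy Q.𝔪 (primeDataE Q E hE) (Q.hyp hp3) (0 + g)).ι x)))
    (hsym : ∀ l : PrimesOff (↑SQ : Set ℕ), ∃ i : Q.Sy.ι₁, Q.Sy.ℓ i = (l.1 : ℕ) ∧
      θQ (formsGenS N'' (↑SQ : Set ℕ) l) = Q.lamTop (MvPolynomial.X (Sum.inl i)))
    (hfrobQ : ∀ (ℓ : ℕ) (hℓ : ℓ.Prime) (hℓN : ¬ ℓ ∣ N'') (hℓS : ℓ ∉ (↑SQ : Set ℕ))
      (Pl : ValuationSubring Qb), Pl.LiesOverPrime ℓ → ∀ σ : GQ, Pl.IsFrobeniusAt σ ℓ →
        LinearMap.charpoly (P.rhobar.ρ σ) =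
          X ^ 2 - C (θQ (heckeAlgebra.T hℓ hℓN hℓS)) * X + C ((ℓ : ℕ) : P.k))
    [Fact (LocHyp P.O θQ (prodTw P.O (tw₁E Q hp3 E hE c hc hc1 twP hD)
      (twχE Q hp3 E hE c hc hc1 twP hD)))]
    [Module.Finite P.O ((twE Q hp3 E hE c hc hc1).L1.M × (twE Q hp3 E hE c hc hc1).Lχ.M)]
    [Module.Free P.O ((twE Q hp3 E hE c hc hc1).L1.M × (twE Q hp3 E hE c hc hc1).Lχ.M)]
    [Nontrivial ((twE Q hp3 E hE c hc hc1).L1.M × (twE Q hp3 E hE c hc hc1).Lχ.M)]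
    [IsReduced (TE Q hp3 E hE c hc hc1 twP hD θQ)]
    -- G3 over `T_Q`
    {𝒟 : ∀ ⦃B : Type⦄ [CommRing B] [IsLocalRing B] [Algebra P.O B], GaloisRepAdic B → Prop}
    {DQ : GaloisRep.DeformationRingData P.O P.rhobar 𝒟}
    (ψQ : DQ.R →ₐ[P.O] TE Q hp3 E hE c hc hc1 twP hD θQ)
    (hψl : IsLocalHom (ψQ : DQ.R →+* TE Q hp3 E hE c hc hc1 twP hD θQ))
    (ρQ : GaloisRepAdic (TE Q hp3 E hE c hc hc1 twP hD θQ))
    (hequiv : (DQ.ρ.baseChangeAlong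
      (ψQ : DQ.R →+* TE Q hp3 E hE c hc hc1 twP hD θQ) hψl).IsEquiv ρQ)
    (hρ : ∀ (ℓ : ℕ) (hℓ : ℓ.Prime) (hℓN : ¬ ℓ ∣ N'') (hℓS : ℓ ∉ (↑SQ : Set ℕ))
        (Pl : ValuationSubring Qb), Pl.LiesOverPrime ℓ → ∀ σ : GQ, Pl.IsFrobeniusAt σ ℓ →
          LinearMap.charpoly (ρQ.ρ σ) =
            X ^ 2 - C (chiT P.O θQ (prodTw P.O (tw₁E Q hp3 E hE c hc hc1 twP hD)
                (twχE Q hp3 E hE c hc hc1 twP hD)) (heckeAlgebra.T hℓ hℓN hℓS)) * X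
              + C ((ℓ : TE Q hp3 E hE c hc hc1 twP hD θQ)))
    (hdet : ρQ.DetIsCyclotomic p)
    (hres : ρQ.residual.IsEquiv
      (P.rhobar.baseChangeAlong
        (ResidueField.map (algebraMap P.O (TE Q hp3 E hE c hc hc1 twP hD θQ)))))
    (hunrbar : ∀ j, P.rhobar.IsUnramifiedAt (Q.qv j))
    -- the labels and the labelled units of `ModSideStmt`
    (Pl : Fin g → ValuationSubring Qb) (hPl : ∀ j, (Pl j).LiesOverPrime (Q.qv j))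
    (φ : Fin g → GQ) (hφ : ∀ j, (Pl j).IsFrobeniusAt (φ j) (Q.qv j))
    (τ : Fin g → GQ) (hτ : ∀ j, IsTameGenerator (Pl j) p (τ j))
    (α β : Fin g → P.k)
    (hαβ : ∀ j, α j ≠ β j ∧
      LinearMap.charpoly (P.rhobar.ρ (φ j)) = (X - C (α j)) * (X - C (β j)))
    (gu : Fin g → (DQ.R)ˣ)
    (hlab : ∀ j, LabelledAt DQ.ρ (ResidueField.map (algebraMap P.O DQ.R)) (Pl j) (φ j) (τ j)
      (α j) (β j) (gu j))
    (hNp : ∀ i : Fin g, p ∣ Nfun p (eRev E) (0 + g) (Fin.natAdd 0 i)) :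
    letI := moduleOfHom (a₁E Q hp3 E hE c hc hc1 twP hD θQ) ψQ
    ∀ (j : Fin g) (m : (twE Q hp3 E hE c hc hc1).L1.M),
      ∃ m' : (twE Q hp3 E hE c hc hc1).L1.M,
        (twE Q hp3 E hE c hc hc1).L1.D j m - m = (gu j : DQ.R) • m' - m' :=
  hunit_twE Q hp3 E hE c hc hc1 twP hD θQ hsqN hpS hNS hSN dℓ hdℓ hnd hι hsym hfrobQ ψQ hψl ρQ
    hequiv hρ hdet hres hunrbar Pl hPl φ hφ τ hτ α β hαβ gu hlab hNp
    (hB5_TE Q hp3 E hE c hc hc1 twP hD θQ hsqN hE1 hN'' hpS hNS dℓ hdℓ hnd hι ρQ hρ hNp)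

end

end GE6.Inst.UnitTwEB5

end Fermat.Agent.GE8.P3B
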