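/-
GATE-E (S59) / E6 node N8b, the RECORD, strict-ordinary problem, branch SO(a) (helper74):
**`NodeProof.RecordStmt P hp3 (condSO P.O p P.Smin) D0`** — the record at every Taylor–Wiles set for
the ENGINE's strict-ordinary deformation problem at the minimal level, `p ∥ M`, `M` squarefree
(`P.Su = ∅`), `W` NOT residually modular of level `M / p`, `ρ̄` ordinary at `p`.  This is the
hypothesis `hrec` of helper72's `NodeProofPkg.nodeStmt_SO_of_record`; twin of helper52's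
`RecordFL.recordStmt_FL`.

At a Taylor–Wiles set `Q` (with its full exponents `E`):

* G2 at `twE`, forms level `N'' := N0E Q * p` LITERALLY (`TwPGen.exists_twP_twE_gen`);
* (ANN) for the `p`-new lattice: helper39's `AnnTwE.hAnn_twE`;
* `ψ : R_Q → T_Q`, `ρ_Q`, `ρ^univ_Q ⊗_ψ ≅ ρ_Q`, (ES): helper39's
  `PsiPkgMinSO.exists_psi_pkg_min_SO`;
* `BQ := S_Q`, `tQ ℓ := χ(T_ℓ)`, (GEN): helper52's `RecordAbs.nonempty_recordAt`;
* (PI): helper49's `PiTwE.pi_a1E_chi_gen` + `FreeLevel.π_act`;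
* (UNIT): helper49 / helper51's `UnitTwEB5.hunit_twE_closed`.
-/
import Fermat.Agent.GE8.P3B.GE6.Inst.RecordAbs
import Fermat.Agent.GE8.P3B.GE6.Inst.TwPGen
import Fermat.Agent.GE8.P3B.GE6.Inst.AnnTwE
import Fermat.Agent.GE6.Inst.PsiPkgMinSO
import Fermat.Agent.GE8.P3B.GE6.Inst.PsiQ
import Fermat.Agent.GE8.P3B.GE6.Inst.PiTwE
import Fermat.Agent.GE8.P3B.GE6.Inst.UnitTwEB5
import Fermat.Agent.GE8.P3B.GE6.Inst.FullExp
import Fermat.Agent.GB.B4.Datum.TQReduced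
import Fermat.Agent.GE8.P3B.StepGen
import Fermat.Agent.GE8.P3B.Ok3W

/- TWIN (helper6 B4 generator; conventions of helper24 / helper86) of `Fermat.Agent.GE6.Inst.RecordSO` with `p ≠ 3` relaxed to `Ok3A Sy 𝔪 p` / `Ok3W p W` (RISK-5 fix (B), step B4); everything below lives in the wrapper namespace `Fermat.Agent.GE8.P3B`. -/
set_option linter.dupNamespace false
open Fermat Fermat.Agent Fermat.Agent.GB Fermat.Agent.GB.B3 Fermat.Agent.GB.B3.ChiLevelMulti Fermat.Agent.GB.B3.GamH Fermat.Agent.GB.B3.HeckeActH Fermat.Agent.GB.B3.RealLevel Fermat.Agent.GB.B3.TWChars Fermat.Agent.GB.B3.TWLevel Fermat.Agent.GB.B4 Fermat.Agent.GB.B4.Datum Fermat.Agent.GB.B4.Datum.ImageRing Fermat.Agent.GB.B4.Datum.TQFields Fermat.Agent.GB.B9 Fermat.Agent.GB.B9.ProviderFlat Fermat.Agent.GB.E2 Fermat.Agent.GB.E2.TameGenAdic Fermat.Agent.GB.Setup Fermat.Agent.GB.Setup.SetupPkg Fermat.Agent.GE Fermat.Agent.GE.Graph Fermat.Agent.GE2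 Fermat.Agent.GE2.DeltaQData Fermat.Agent.GE6 Fermat.Agent.GE6.Inst Fermat.Agent.GJ Fermat.Agent.GJ.J2 Fermat.Agent.GJ.J2.Lat Fermat.Agent.GM Fermat.Agent.GM.B

namespace Fermat.Agent.GE8.P3B

set_option autoImplicit false
set_option linter.unusedSectionVars false
set_option linter.unusedVariables false
set_option linter.style.haveILetI false

open WeierstrassCurve WeierstrassCurve.Affine.Point IsLocalRing
open scoped WeierstrassCurve.Affine
open scoped MatrixGroups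
open CongruenceSubgroup ModularCurve.Period CuspForm Polynomial

namespace GE6.Inst.RecordSO

open GM.B
open GB.B3.HeckeActH GB.B3.RealLevel GB.B3.Tower
  GB.B3.TWChars GB.B3.FinalTW GB.B3.Plug
  GB.B3.TWLevel GB.B3.GamH GB.B3.ChiLevelMulti
  GB.B3.Final
open GJ.J2.Lat
open GB.B4.Datum.ImageRing GB.B4.Datum.TQFields
open GB.Setup.SetupPkg
open GB.B9.ProviderFlat GB.B9.ProviderFlat.G1
open GB.E2.TameGenAdic
open GE2.DeltaQData
open GE6.Inst.FreeLevelInst GE6.Inst.FreeLevelTw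
open GE6.Inst.UnitTwE GE6.Inst.TwPGen GE6.Inst.AnnTwE
open GE6.Inst.NodeProof
open GE.Graph GaloisRep

/-- `ℚ̄`. -/
local notation "Qb" => AlgebraicClosure ℚ
/-- `G_ℚ`. -/
local notation "GQ" => (AlgebraicClosure ℚ ≃ₐ[ℚ] AlgebraicClosure ℚ)
/-- the structure map `A → T_Q`. -/
local notation "chiT" => GB.B4.Datum.ImageRing.chi

noncomputable section

variable {p : ℕ} [hpF : Fact p.Prime] {W : WeierstrassCurve ℤ}
  {hcard₁ : Nat.card (Submodule.torsionBy ℤ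
    ((W.map (Int.castRingHom ℚ))⁄(AlgebraicClosure ℚ)).Point p) = p ^ 2}
  {hker : GaloisFactorsThroughFiniteLevel
    (galoisRepModuleEnd (K := AlgebraicClosure ℚ) ℚ (W.map (Int.castRingHom ℚ)) p)}
  {M A : ℕ} (P : Pkg p W hcard₁ hker M A)

set_option maxHeartbeats 12800000 in
/-- **the record at every Taylor–Wiles set, strict-ordinary problem SO(a), minimal level.** -/
theorem recordStmt_SO (hp3 : Ok3W p W) (hsq : Squarefree M) (hpM : p ∣ M) (hSu : P.Su = ∅)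
    (hX : ¬ W.IsResiduallyModularOfLevel p (M / p))
    (hordbar : (GaloisRepAdic.ofResidualGaloisRep P.rhobar).IsOrdinaryAt p)
    (D0 : DeformationRingData P.O P.rhobar (condSO P.O p P.Smin ∅)) :
    RecordStmt P hp3 (condSO P.O p P.Smin) D0 := by
  intro r n Q E hE hEfull c hc hc1 DQ Pl φ τ hPl hφ hchar hτ π hπ g hπs hkerπ hπρ hlab
  -- the forms level `N0E Q * p`, `p ∥`
  haveI : NeZero (N0E Q) := ⟨N0E_ne_zero Q hpM⟩
  haveI : NeZero (N0E Q * p) := ⟨Nat.mul_ne_zero (N0E_ne_zero Q hpM) hpF.out.ne_zero⟩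
  have hN'' : N0E Q * p = Q.N * ∏ i : Fin (0 + r), rRev Q i := N0E_mul_p Q hpM
  -- G2 at `twE`
  have k2 := exists_twP_twE_gen Q hp3 E hE hsq hN''
  obtain ⟨SQ, θQ, hSQ, hpS, hNS, hSN, hbadS, hθT, hfrobQ, dℓ, hnd, hdℓ, hsym, twP, hD, hι, hact,
    hlocP⟩ := k2
  haveI := fact_locHyp_twE Q hp3 E hE c hc hc1 twP hD θQ hlocP
  haveI := GE6.Inst.PsiQ.finite_prodE Q hp3 E hE c hc hc1
  haveI := GE6.Inst.PsiQ.free_prodE Q hp3 E hE c hc hc1
  haveI := GE6.Inst.PsiQ.nontrivial_prodE Q hp3 E hE c hc hc1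
  -- (ANN) for the `p`-new lattice
  have hAnn := hAnn_twE Q hp3 E hE c hc hc1 hsq hpM hX hN'' (not_dvd_N0E Q hsq hpM) SQ hpS hNS
    dℓ hdℓ hnd twP hι hD
  -- G3 at `twE`, strict-ordinary branch
  have k3 := GE6.Inst.PsiPkgMinSO.exists_psi_pkg_min_SO P hSu
    (exactDvd_N0E Q hsq hpM) hpS hNS hfrobQ hordbar
    (tw := prodTw P.O (tw₁E Q hp3 E hE c hc hc1 twP hD) (twχE Q hp3 E hE c hc hc1 twP hD))
    hAnn Q.qv (hNprimes_E Q hN'') (hexact_E Q hsq hN'') DQ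
  obtain ⟨ψ, hψl, ρQ, hψs, hequiv, hρ, hdet, hres⟩ := k3
  -- arithmetic
  have hE1 : ∀ j, 1 ≤ E j := GE6.Inst.FullExp.one_le_of_full Q E hEfull
  have hNp : ∀ i : Fin r, p ∣ Nfun p (eRev E) (0 + r) (Fin.natAdd 0 i) :=
    GE6.Inst.B5Gen.dvd_Nfun0 E hE1
  have hunr : ∀ j, P.rhobar.IsUnramifiedAt (Q.qv j) := fun j =>
    P.unram (Q.prime j) (fun hd => by
      rcases (Nat.Prime.dvd_mul (Q.prime j)).mp hd with h | h
      · exact (Q.good j).2.1 h
      · exact (Q.good j).2.2 ((Nat.prime_dvd_prime_iff_eq (Q.prime j) hpF.out).mp h))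
  -- (UNIT)
  have hUNIT : ∀ (j : Fin r) (m : (twE Q hp3 E hE c hc hc1).L1.M),
      ∃ m' : (twE Q hp3 E hE c hc hc1).L1.M,
        (twE Q hp3 E hE c hc hc1).L1.D j m - m =
          a₁E Q hp3 E hE c hc hc1 twP hD θQ (ψ (g j : DQ.R)) m' - m' := by
    haveI : IsReduced (TE Q hp3 E hE c hc hc1 twP hD θQ) :=
      GB.B4.Datum.TQReduced.isReduced_TQ_hecke θQ _ hNS
    have hunit := GE6.Inst.UnitTwEB5.hunit_twE_closed Q hp3 E hE c hc hc1 twP hD θQ
      (G2Sym.squarefree_N Q hsq) hE1 hN'' hpS hNS hSN dℓ hdℓ hnd hι hsym hfrobQ ψ hψl ρQ hequiv hρ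
      hdet hres hunr Pl hPl φ hφ τ hτ Q.al Q.be (fun j => ⟨Q.ne j, hchar j⟩) g hlab hNp
    intro j m
    obtain ⟨m', hm'⟩ := hunit j m
    exact ⟨m', hm'⟩
  -- (PI)
  have hPI : ∀ l : PrimesOff (↑SQ : Set ℕ), ∃ s : Q.Sy.ι₁, Q.Sy.ℓ s = (l.1 : ℕ) ∧
      ∀ m : (twE Q hp3 E hE c hc hc1).L1.M,
        (twE Q hp3 E hE c hc hc1).L1.π
            (a₁E Q hp3 E hE c hc hc1 twP hD θQ
              (chiT P.O θQ (prodTw P.O (tw₁E Q hp3 E hE c hc hc1 twP hD)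
                (twχE Q hp3 E hE c hc hc1 twP hD))
                (formsGenS (N0E Q * p) (↑SQ : Set ℕ) l)) m) =
          (twE Q hp3 E hE c hc hc1).L1.π
            ((twE Q hp3 E hE c hc hc1).L1.act (MvPolynomial.X (Sum.inl s)) m) := by
    intro l
    obtain ⟨i, hi, -⟩ := hsym l
    refine ⟨i, hi, fun m => ?_⟩
    have h1 := GE6.Inst.PiTwE.pi_a1E_chi_gen Q hp3 E hE c hc hc1 twP hD θQ dℓ hnd hι
      l i hi m
    have h2 := (twE Q hp3 E hE c hc hc1).L1.π_act (MvPolynomial.X (Sum.inl i)) m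
    exact h1.trans h2.symm
  exact GE6.Inst.RecordAbs.nonempty_recordAt (twE Q hp3 E hE c hc hc1).L1
    Q.Sy.ι₁ Q.Sy.ℓ (fun s => (MvPolynomial.X (Sum.inl s) : Q.Sy.𝕋 P.O)) DQ g SQ hNS
    (TE Q hp3 E hE c hc hc1 twP hD θQ)
    (chiT P.O θQ (prodTw P.O (tw₁E Q hp3 E hE c hc hc1 twP hD)
      (twχE Q hp3 E hE c hc hc1 twP hD)))
    (adjoin_range_chi P.O θQ _)
    (a₁E Q hp3 E hE c hc hc1 twP hD θQ) ψ hψl ρQ hequiv hρ hPI hUNIT

end

end GE6.Inst.RecordSO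

end Fermat.Agent.GE8.P3B
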