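/-
GATE-E / E6 ENGINE-INST, node N8b, strict-ordinary branch SO(a) (helper74): **the node statement
`Wire.NodeStmt P hp3 (condSO P.O p P.Smin) D φ (LTP P) eL`** at a bundle of minimal level `M`,
`p ∥ M`, `M` squarefree, `W` not residually modular of level `M / p`, `ρ̄` ordinary at `p` — in the
binder shape of helper12's ruling (board 7876: the context `D H hπ φ hloc hρ eL heL` of
`GE/Engine/Base.exists_base_of_datum` + `BaseTPkg.exists_eLP`).

`nodeStmt_SO` = helper72's `NodeProofPkg.nodeStmt_SO_of_record` ∘ `RecordSO.recordStmt_SO`;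
`nodeStmt_SOa` = the same at a bundle of level `M₀ * p` LITERALLY (`hno` at level `M₀`), the
spelling of `GE/Engine/FullLamSOa` / `BaseSOa`.
-/
import Fermat.Agent.GE8.P3B.GE6.Inst.RecordSO
import Fermat.Agent.GE8.P3B.GE6.Inst.NodeProofPkg
import Fermat.Agent.GE8.P3B.StepGen
import Fermat.Agent.GE8.P3B.Ok3W

/- TWIN (helper6 B4 generator; conventions of helper24 / helper86) of `Fermat.Agent.GE6.Inst.NodeSO` with `p ≠ 3` relaxed to `Ok3A Sy 𝔪 p` / `Ok3W p W` (RISK-5 fix (B), step B4); everything below lives in the wrapper namespace `Fermat.Agent.GE8.P3B`. -/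
set_option linter.dupNamespace false
open Fermat Fermat.Agent Fermat.Agent.GB Fermat.Agent.GB.B4 Fermat.Agent.GB.B4.Datum Fermat.Agent.GB.B4.Datum.Carrier Fermat.Agent.GB.B8 Fermat.Agent.GB.B8.LevelGen Fermat.Agent.GB.B8.LevelStage Fermat.Agent.GB.Setup Fermat.Agent.GB.Setup.SetupPkg Fermat.Agent.GE Fermat.Agent.GE.Graph Fermat.Agent.GE6 Fermat.Agent.GE6.Inst Fermat.Agent.GE6.Inst.BaseTLoc

namespace Fermat.Agent.GE8.P3B

set_option autoImplicit false
set_option linter.unusedSectionVars false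
set_option linter.unusedVariables false
set_option linter.style.haveILetI false

open scoped TensorProduct

namespace GE6.Inst.NodeSO

open IsLocalRing Function Polynomial GaloisRep CuspForm
open WeierstrassCurve WeierstrassCurve.Affine.Point
open GB.Setup.SetupPkg GB.B4.Datum.Carrier
  GB.B8.LevelStage GB.B8.LevelGen
  GE.Graph
  GE6.Inst.FreeLevelInst GE6.Inst.BaseTLoc
  GE6.Inst.BaseTPkg GE6.Inst.Wire GE6.Inst.NodeProof

variable {p : ℕ} [hpF : Fact p.Prime] {W : WeierstrassCurve ℤ}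
  {hcard₁ : Nat.card (Submodule.torsionBy ℤ
    ((W.map (Int.castRingHom ℚ)).toAffine.baseChange (AlgebraicClosure ℚ)).Point p) = p ^ 2}
  {hker : GaloisFactorsThroughFiniteLevel
    (WeierstrassCurve.Affine.Point.galoisRepModuleEnd (K := AlgebraicClosure ℚ) ℚ
      (W.map (Int.castRingHom ℚ)) p)}
  {A : ℕ}

/-- **N8b, strict-ordinary branch SO(a)**: the node at a bundle of minimal level `M`, `p ∥ M`. -/
theorem nodeStmt_SO {M : ℕ} [NeZero M] (P : Pkg p W hcard₁ hker M A) (hp3 : Ok3W p W)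
    (hsq : Squarefree M) (hpM : p ∣ M) (hSu : P.Su = ∅)
    (hX : ¬ W.IsResiduallyModularOfLevel p (M / p))
    (hordbar : (GaloisRepAdic.ofResidualGaloisRep P.rhobar).IsOrdinaryAt p)
    (D : DeformationRingData P.O P.rhobar (condSO P.O p P.Smin ∅))
    (H : HeckeGaloisRepDatum M (↑P.S0 : Set ℕ) P.O P.theta (Tloc P.O P.theta))
    (hπ : H.π = piT P.O P.theta)
    (φ : D.R →ₐ[P.O] Tloc P.O P.theta)
    (hloc : IsLocalHom (φ : D.R →+* Tloc P.O P.theta))
    (hρ : (D.ρ.baseChangeAlong (φ : D.R →+* Tloc P.O P.theta) hloc).IsEquiv H.ρ)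
    (eL : Mbase P ≃ₗ[P.O] LTP P)
    (heL : ∀ (s : I0 W p M) (y : Mbase P),
      eL (actBase P (MvPolynomial.X s) y)
        = piT P.O P.theta (heckeAlgebra.T s.2.1 s.2.2.2.1 (pr0_notMem_S0 P s)) • eL y) :
    NodeStmt P hp3 (condSO P.O p P.Smin) D φ (LTP P) eL :=
  GE6.Inst.NodeProofPkg.nodeStmt_SO_of_record P hp3 D H hπ φ hloc hρ eL heL
    (GE6.Inst.RecordSO.recordStmt_SO P hp3 hsq hpM hSu hX hordbar D)

/-- **N8b, SO(a), at a bundle of level `M₀ * p` LITERALLY** (`hno` at the level `M₀` below `p`). -/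
theorem nodeStmt_SOa {M₀ : ℕ} [NeZero (M₀ * p)] (P : Pkg p W hcard₁ hker (M₀ * p) A)
    (hp3 : Ok3W p W) (hsq : Squarefree (M₀ * p)) (hSu : P.Su = ∅)
    (hno : ¬ W.IsResiduallyModularOfLevel p M₀)
    (hordbar : (GaloisRepAdic.ofResidualGaloisRep P.rhobar).IsOrdinaryAt p)
    (D : DeformationRingData P.O P.rhobar (condSO P.O p P.Smin ∅))
    (H : HeckeGaloisRepDatum (M₀ * p) (↑P.S0 : Set ℕ) P.O P.theta (Tloc P.O P.theta))
    (hπ : H.π = piT P.O P.theta)
    (φ : D.R →ₐ[P.O] Tloc P.O P.theta)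
    (hloc : IsLocalHom (φ : D.R →+* Tloc P.O P.theta))
    (hρ : (D.ρ.baseChangeAlong (φ : D.R →+* Tloc P.O P.theta) hloc).IsEquiv H.ρ)
    (eL : Mbase P ≃ₗ[P.O] LTP P)
    (heL : ∀ (s : I0 W p (M₀ * p)) (y : Mbase P),
      eL (actBase P (MvPolynomial.X s) y)
        = piT P.O P.theta (heckeAlgebra.T s.2.1 s.2.2.2.1 (pr0_notMem_S0 P s)) • eL y) :
    NodeStmt P hp3 (condSO P.O p P.Smin) D φ (LTP P) eL :=
  nodeStmt_SO P hp3 hsq (Dvd.intro_left M₀ rfl) hSu
    (by rw [Nat.mul_div_cancel M₀ hpF.out.pos]; exact hno) hordbar D H hπ φ hloc hρ eL heL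

end GE6.Inst.NodeSO

end Fermat.Agent.GE8.P3B
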