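/-
GATE-E / E6 ENGINE-INST, node N8b, strict-ordinary branch SO(a), FINAL, EVERY ODD `p` (helper95,
over helper74's `GE6/Inst/NodeSOaFinal`): **`P3B.SOaPlug.NodeSOaStmt p`** — HAND-WRITTEN twin of
`Fermat.Agent.GE6.Inst.NodeSOaFinal` over the P3B tree (helper6's generated twins of `TwPGen` /
`RecordSO` / `NodeSO`, helper11's hand twin of `GE/Engine/SOaPlug`).

NOT mechanical: the twin `SOaPlug.NodeSOaStmt p` has NO `hp3` binder (the original binds
`hp3 : p ≠ 3` BEFORE `W`); the relaxed `p ≠ 3` is `Ok3W.of_semistable hW`, so `p = 3` is included.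

* **`nodeSOaStmt p`** : `P3B.GE.Engine.SOaPlug.NodeSOaStmt p` = twin `NodeSO.nodeStmt_SO` at
  `A := 1`, with `hSu := su_eq_empty P hmin`,
  `hordbar := StrictPkg.isOrdinaryAt_rhobar P (BaseOdd.hordbar_of_mult P.hΔ hW hmult)`.
-/
import Fermat.Agent.GE8.P3B.GE6.Inst.NodeSO
import Fermat.Agent.GE8.P3B.GE.Engine.SOaPlug
import Fermat.Agent.GE8.P3B.Ok3W

set_option autoImplicit false
set_option linter.unusedSectionVars false
set_option linter.unusedVariables false
set_option linter.style.haveILetI false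
set_option linter.dupNamespace false

namespace Fermat.Agent.GE8.P3B

namespace GE6.Inst.NodeSOaFinal

/-- **E6 N8b-SO, closed, every odd `p`**: helper11's twin `NodeSOaStmt p`. -/
theorem nodeSOaStmt (p : ℕ) [hpF : Fact p.Prime] :
    Fermat.Agent.GE8.P3B.GE.Engine.SOaPlug.NodeSOaStmt p := by
  intro W hΔ hW hirr hcard₁ hker M _ hsq hpM hRM hmult hno hmin
  refine ⟨1, le_rfl, fun P D H hπ φ hφ hloc hρ eL heL => ?_⟩
  exact Fermat.Agent.GE8.P3B.GE6.Inst.NodeSO.nodeStmt_SO P (Ok3W.of_semistable hW) hsq hpM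
    (Fermat.Agent.GE.Engine.su_eq_empty P hmin) hno
    (Fermat.Agent.GB.ResOrd.StrictPkg.isOrdinaryAt_rhobar P
      (Fermat.Agent.GE8.Deside.BaseOdd.hordbar_of_mult P.hΔ hW hmult))
    D H hπ φ hloc hρ eL heL

end GE6.Inst.NodeSOaFinal

end Fermat.Agent.GE8.P3B
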