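/-
GATE-E / ENGINE-INST (helper49), item (iv): **(1pt) for ONE module, directly on B3's big level
`Plug.bigLevel Sy 𝔪 H h k`** (no framed step, no character module) = the binder `h1` of
`UnitInst.hunit_of_labelled` at the object of record of ENGINE-INST item (i)
(helper51: `F := mapBase (Plug.bigLevel …) …`, same `M`, same `D`).

GATE-B's `GB/P5/H1Plug.h1_plug` lives on the two quotient modules `(Plug.tw … s k c).L1 / .Lχ` of
the big level at `s + k`.  Here `s = 0`: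

* `transport_occ` / `conjHom` : abstract transport of an algebra action and of the "occurs in
  `M / (D - 1) M`" condition along a linear equivalence intertwining the diamonds;
* `h1_big0` : (1pt) on `bigLevel Sy 𝔪 H h (0 + k)` for the diamond `Fin.natAdd 0 i`, through the
  equivalence `fmk : B.M ≃ FamCoinv (frD B) γ` (`γ : Fin 0 → O`, the quotient by `⊥`),
  `LowerTwSkip.exists_lower_point_skip` at `s = 0` and helper66
  `OnePtEnd.chi_point_eq_one_of_Tloc_point_gen`;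
* **`h1_big`** : the same on `bigLevel Sy 𝔪 H h k` for `i : Fin k` (substitution `k = 0 + k'`).

Binders = those of `H1Plug.h1_plug` for ONE module: `T a a_D`, G3 `ρQ S twT hchar`, G2 generator
description `dℓ hdℓ idx hidx ha` (`ha` WITHOUT `fmk`: `a (twT (formsGenS Ntop S l)) x = x'`),
residual side `ev hevC hker𝔪 ρbar habs hfrob`.
-/
import Mathlib
import Fermat.Agent.GE8.P3B.GB.P5.H1Plug
import Fermat.Agent.GE8.P3B.StepGen
import Fermat.Agent.GE8.P3B.Ok3W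

/- TWIN (helper6 B4 generator; conventions of helper24 / helper86) of `Fermat.Agent.GE6.Inst.OnePtBig` with `p ≠ 3` relaxed to `Ok3A Sy 𝔪 p` / `Ok3W p W` (RISK-5 fix (B), step B4); everything below lives in the wrapper namespace `Fermat.Agent.GE8.P3B`. -/
set_option linter.dupNamespace false
open Fermat Fermat.Agent Fermat.Agent.Common_helper32 Fermat.Agent.GB Fermat.Agent.GB.B3 Fermat.Agent.GB.B3.ChiLevelMulti Fermat.Agent.GB.B3.CycInst Fermat.Agent.GB.B3.EisGamma0 Fermat.Agent.GB.B3.GamH Fermat.Agent.GB.B3.HeckeAct Fermat.Agent.GB.B3.HeckeActH Fermat.Agent.GB.B3.RealLevel Fermat.Agent.GB.B3.TWChars Fermat.Agent.GB.B3.TWLevel Fermat.Agent.GB.B4 Fermat.Agent.GB.B4.Datum Fermat.Agent.GB.B4.Datum.Carrier Fermat.Agent.GB.P5 Fermat.Agent.GB.P5.OnePtEnd Fermat.Agent.GJ Fermat.Agent.GJ.J2 Fermat.Agent.GJ.J2.Lat Fermat.Agent.GJ.J2.ZStruct Fermat.Agent.GM Fermat.Agent.GM.B Fermat.Agent.GM.EisClass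 Fermat.Agent.S16_helper49

namespace Fermat.Agent.GE8.P3B

set_option autoImplicit false
set_option linter.unusedSectionVars false
set_option linter.unusedVariables false
set_option linter.style.haveILetI false

open scoped MatrixGroups
open CongruenceSubgroup Matrix Matrix.SpecialLinearGroup ModularCurve.Period CuspForm Polynomial
open S16_helper49 GM.B GM.EisClass
open GB.B3 GB.B3.EisGamma0 GB.B3.GamH
open GB.B3.RealLevel GB.B3.HeckeActH GB.B3.HeckeAct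
open GB.B3.CycInst GB.B3.StepInst GB.B3.TWLevel
open GB.B3.ChiLevelMulti
open GB.B3.Tower GB.B3.Final GB.B3.TWChars
open GB.B3.FinalTW GB.B3.Plug
open GJ.J2.ZStruct GJ.J2.Lat
open GB.B4.Datum.Carrier
open Common_helper32
open GB.P5.LowerTwSkip GB.P5.LowerInputs GB.P5.TwSkip
open GB.P5.OnePtEnd GB.P5.H1Plug

namespace GE6.Inst.OnePtBig

/-! ### abstract transport along a linear equivalence -/

section Transport

variable {O : Type*} [CommRing O] {M M' : Type*} [AddCommGroup M] [Module O M]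
  [AddCommGroup M'] [Module O M'] {T : Type*} [CommRing T] [Algebra O T]

/-- the action transported along a linear equivalence -/
noncomputable def conjHom (e : M ≃ₗ[O] M') (a : T →ₐ[O] Module.End O M) :
    T →ₐ[O] Module.End O M' :=
  ((e.conjAlgEquiv O : Module.End O M ≃ₐ[O] Module.End O M') : Module.End O M →ₐ[O] _).comp a

theorem conjHom_apply (e : M ≃ₗ[O] M') (a : T →ₐ[O] Module.End O M) (t : T) (x : M) :
    conjHom e a t (e x) = e (a t x) := by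
  show e (a t (e.symm (e x))) = e (a t x)
  rw [e.symm_apply_apply]

theorem conjHom_comm (e : M ≃ₗ[O] M') (a : T →ₐ[O] Module.End O M) (D : Module.End O M)
    (D' : Module.End O M') (hD : ∀ x, e (D x) = D' (e x)) (t : T) (h : a t * D = D * a t) :
    conjHom e a t * D' = D' * conjHom e a t := by
  refine LinearMap.ext fun y => ?_
  obtain ⟨x, rfl⟩ := e.surjective y
  rw [Module.End.mul_apply, Module.End.mul_apply, ← hD, conjHom_apply, conjHom_apply, ← hD]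
  exact congrArg e (LinearMap.congr_fun h x)

/-- the "occurs in `M / (D - 1) M`" condition is transported -/
theorem transport_occ (e : M ≃ₗ[O] M') (a : T →ₐ[O] Module.End O M) (D : Module.End O M)
    (D' : Module.End O M') (hD : ∀ x, e (D x) = D' (e x))
    {Ω : Type*} [CommRing Ω] [Algebra O Ω] (θ : T →ₐ[O] Ω)
    (hocc : ∀ t : T, (∀ m, a t m ∈ LinearMap.range (D - 1)) → θ t = 0) :
    ∀ t : T, (∀ m, conjHom e a t m ∈ LinearMap.range (D' - 1)) → θ t = 0 := by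
  intro t ht
  refine hocc t fun m => ?_
  obtain ⟨y', hy'⟩ := ht (e m)
  obtain ⟨y, rfl⟩ := e.surjective y'
  refine ⟨y, ?_⟩
  apply e.injective
  rw [conjHom_apply] at hy'
  rw [← hy', LinearMap.sub_apply, LinearMap.sub_apply, Module.End.one_apply, Module.End.one_apply,
    map_sub, hD]

end Transport

variable {N p : ℕ} [NeZero N] [hpF : Fact p.Prime] {K : ℕ} {r e N' : ℕ → ℕ}
variable (Sy : Symbols N)
variable {O : Type} [CommRing O] [IsDomain O] [IsDiscreteValuationRing O]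
  [IsAdicComplete (IsLocalRing.maximalIdeal O) O] [Finite (IsLocalRing.ResidueField O)]
  [CharZero O] [Module.IsTorsionFree ℤ O]
variable (𝔪 : Ideal (Sy.𝕋 O)) [𝔪.IsMaximal]
variable (H : PrimeData N p K r e N') {ϖ : O} {s0 : Sy.ι₁} (h : Hyp Sy 𝔪 p ϖ s0)

/-- the quotient by the empty family of framed diamonds is the module itself -/
noncomputable def fmkEquiv (k : ℕ) (γ : Fin 0 → O) :
    (bigLevel Sy 𝔪 H h (0 + k)).M ≃ₗ[O]
      FamCoinv (frD (s := 0) (k := k) (bigLevel Sy 𝔪 H h (0 + k))) γ :=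
  (Submodule.quotEquivOfEqBot _ (by
    unfold famRange
    exact iSup_of_empty _)).symm

theorem fmkEquiv_apply (k : ℕ) (γ : Fin 0 → O) (x : (bigLevel Sy 𝔪 H h (0 + k)).M) :
    fmkEquiv Sy 𝔪 H h k γ x
      = fmk (frD (s := 0) (k := k) (bigLevel Sy 𝔪 H h (0 + k))) γ x := rfl

/-- **(1pt) on the big level at `0 + k`.** -/
theorem h1_big0 (k : ℕ) (hN : Squarefree N) (hsk : 0 + k ≤ K)
    {T : Type} [CommRing T] [IsLocalRing T] [IsNoetherianRing T] [Algebra O T]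
    [Algebra.IsIntegral O T]
    (a : T →ₐ[O] Module.End O (bigLevel Sy 𝔪 H h (0 + k)).M)
    (i : Fin k)
    (a_D : ∀ t, a t * (bigLevel Sy 𝔪 H h (0 + k)).D (Fin.natAdd 0 i)
      = (bigLevel Sy 𝔪 H h (0 + k)).D (Fin.natAdd 0 i) * a t)
    -- G3
    (ρQ : GaloisRepAdic T)
    {Ntop : ℕ} [NeZero Ntop] (S : Finset ℕ) (hpS : p ∈ S)
    (hNtopS : ∀ q : ℕ, q.Prime → q ∣ Ntop → q ∈ S) (hNS : ∀ q : ℕ, q.Prime → q ∣ N → q ∈ S)
    (twT : CuspForm.heckeAlgebra Ntop 2 (↑S : Set ℕ) →+* T)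
    (hchar : ∀ (ℓ : ℕ) (hℓ : ℓ.Prime) (hℓN : ¬ ℓ ∣ Ntop) (hℓS : ℓ ∉ (↑S : Set ℕ))
      (A : ValuationSubring Qb), A.LiesOverPrime ℓ → ∀ σ : GQ, A.IsFrobeniusAt σ ℓ →
        LinearMap.charpoly (ρQ.ρ σ) =
          X ^ 2 - C (twT (heckeAlgebra.T hℓ hℓN hℓS)) * X + C ((ℓ : T)))
    -- G2 : the generators
    (dℓ : PrimesOff (↑S : Set ℕ) → Gamma0 N)
    (hdℓ : ∀ (l : PrimesOff (↑S : Set ℕ)) (u : (ZMod N)ˣ),
      (u : ZMod N) = ((l.1 : ℕ) : ZMod N) →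
      chi (Theta (Δs p e) H.psi (0 + k)) (dℓ l) ^ 2 * Theta (Δs p e) H.psi (0 + k) u = 1)
    (idx : PrimesOff (↑S : Set ℕ) → Sy.ι₁) (hidx : ∀ l, Sy.ℓ (idx l) = (l.1 : ℕ))
    (ha : ∀ (l : PrimesOff (↑S : Set ℕ)) (x x' : (bigLevel Sy 𝔪 H h (0 + k)).M),
      (bigReal Sy 𝔪 H h (0 + k)).ι x'
        = (diaLin O (Theta (Δs p e) H.psi (0 + k)) (dℓ l)
            * actH Sy O (Theta (Δs p e) H.psi (0 + k)) (MvPolynomial.X (Sum.inl (idx l))))
          ((bigReal Sy 𝔪 H h (0 + k)).ι x) →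
      a (twT (formsGenS Ntop (↑S : Set ℕ) l)) x = x')
    -- the residual side
    (ev : Sy.𝕋 O →+* IsLocalRing.ResidueField O)
    (hevC : ∀ c : O, ev (MvPolynomial.C c) = IsLocalRing.residue O c)
    (hker𝔪 : ∀ t : Sy.𝕋 O, t ∈ 𝔪 ↔ ev t = 0)
    (ρbar : ResidualGaloisRep (IsLocalRing.ResidueField O)) (habs : ρbar.IsAbsolutelyIrreducible)
    (hfrob : ∀ l : PrimesOff (↑S : Set ℕ),
      ∀ P : ValuationSubring Qb, P.LiesOverPrime (l.1 : ℕ) → ∀ σ : GQ,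
        P.IsFrobeniusAt σ (l.1 : ℕ) →
        ∃ d₀ : IsLocalRing.ResidueField O, LinearMap.charpoly (ρbar.ρ σ)
          = X ^ 2 - C (ev (MvPolynomial.X (Sum.inl (idx l)))) * X + C d₀)
    -- the point
    {Ω : Type} [CommRing Ω] [IsReduced Ω] [Nontrivial Ω] [Algebra O Ω]
    (h2 : ∀ c : Ω, (2 : Ω) * c = 0 → c = 0)
    (hrp : r (k - 1 - (i : ℕ)) ≠ p)
    (P : ValuationSubring Qb) (hP : P.LiesOverPrime (r (k - 1 - (i : ℕ))))
    (Bas : Module.Basis (Fin 2) T ρQ.V)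
    (χ : Fin 2 → P.decompositionSubgroup ℚ →* Tˣ)
    (hχ : ∀ (j : Fin 2) (σ : P.decompositionSubgroup ℚ),
      ρQ.ρ (σ : GQ) (Bas j) = (χ j σ : T) • Bas j)
    (σ : GQ) (hσ : σ ∈ P.inertiaSubgroupIn ℚ) (hσD : σ ∈ P.decompositionSubgroup ℚ)
    (θ : T →ₐ[O] Ω)
    (hocc : ∀ t : T, (∀ m, a t m ∈
        LinearMap.range ((bigLevel Sy 𝔪 H h (0 + k)).D (Fin.natAdd 0 i) - 1)) → θ t = 0)
    (j : Fin 2) : θ (χ j ⟨σ, hσD⟩ : T) = 1 := by
  have hik : k - 1 - (i : ℕ) < 0 + k := by have := i.2; omega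
  haveI : NeZero (lowN r N (0 + k) (k - 1 - (i : ℕ))) :=
    ⟨lowN_ne_zero H (0 + k) hsk _ hik⟩
  have hS'' : ∀ q : ℕ, q.Prime → q ∣ lowN r N (0 + k) (k - 1 - (i : ℕ)) → q ∈ (↑S : Set ℕ) :=
    fun q hq hqN => Finset.mem_coe.mpr (hNS q hq (prime_dvd_lowN H (0 + k) hsk _ hik hq hqN))
  have hpO : (p : O) ∈ IsLocalRing.maximalIdeal O := by
    rw [h.hmax]
    exact h.hpϖ
  -- the empty family of framed characters
  let γ : Fin 0 → O := fun v => v.elim0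
  let E := fmkEquiv Sy 𝔪 H h k γ
  have hED : ∀ x, E ((bigLevel Sy 𝔪 H h (0 + k)).D (Fin.natAdd 0 i) x)
      = quotDM (s := 0) (k := k) (bigLevel Sy 𝔪 H h (0 + k)) γ i (E x) := fun x => rfl
  -- the module half
  have key : ∃ θb : ↥(heckeAlgebra (lowN r N (0 + k) (k - 1 - (i : ℕ))) 2 (↑S : Set ℕ)) →+*
        IsLocalRing.ResidueField O,
      (∀ l : PrimesOff (↑S : Set ℕ),
        θb (formsGenS (lowN r N (0 + k) (k - 1 - (i : ℕ))) (↑S : Set ℕ) l)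
          = ev (MvPolynomial.X (Sum.inl (idx l)))) ∧
      ∃ θ₂ : Tloc O θb →ₐ[O] Ω,
        (∀ l : PrimesOff (↑S : Set ℕ),
          θ₂ (piT O θb (formsGenS (lowN r N (0 + k) (k - 1 - (i : ℕ))) (↑S : Set ℕ) l))
            = θ (twT (formsGenS Ntop (↑S : Set ℕ) l))) ∧
        ∀ x, θ₂ x ∈ θ.range := by
    refine exists_lower_point_skip (N'' := lowN r N (0 + k) (k - 1 - (i : ℕ)))
      Sy 𝔪 H h 0 k hN hsk i (k - 1 - (i : ℕ)) hik rfl rfl
      (↑S : Set ℕ) hS'' dℓ hdℓ ev hevC hker𝔪 idx hidx γ (fun v => v.elim0)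
      (conjHom E a)
      (fun t => conjHom_comm E a _ _ hED t (a_D t))
      (fun l => twT (formsGenS Ntop (↑S : Set ℕ) l)) ?_ θ
      (transport_occ E a _ _ hED θ hocc)
    intro l x x' hx
    have h1 := conjHom_apply E a (twT (formsGenS Ntop (↑S : Set ℕ) l)) x
    rw [ha l x x' hx] at h1
    exact h1
  obtain ⟨θb, hθb, θ₂, hmatch, -⟩ := key
  -- the Galois half
  exact chi_point_eq_one_of_Tloc_point_gen (p := p) ρQ twT hchar θb h.hp2 hpO hpS hNtopS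
    (fun q hq hqN => hNS q hq (prime_dvd_lowN H (0 + k) hsk _ hik hq hqN))
    ρbar habs (fun l => ev (MvPolynomial.X (Sum.inl (idx l)))) hθb hfrob θ θ₂ h2 hmatch
    (H.prime _ (lt_of_lt_of_le hik hsk)) hrp
    (dvd_skip H (0 + k) hsk _ hik rfl) (not_sq_dvd_skip H (0 + k) hsk _ hik rfl)
    P hP Bas χ hχ σ hσ hσD j

/-- **(1pt) on the big level `Plug.bigLevel Sy 𝔪 H h k`**, ONE module, the diamond `i : Fin k`
(at the prime `r (k - 1 - i)`: the newest step is in front). -/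
theorem h1_big (k : ℕ) (hN : Squarefree N) (hkK : k ≤ K)
    {T : Type} [CommRing T] [IsLocalRing T] [IsNoetherianRing T] [Algebra O T]
    [Algebra.IsIntegral O T]
    (a : T →ₐ[O] Module.End O (bigLevel Sy 𝔪 H h k).M)
    (i : Fin k)
    (a_D : ∀ t, a t * (bigLevel Sy 𝔪 H h k).D i = (bigLevel Sy 𝔪 H h k).D i * a t)
    -- G3
    (ρQ : GaloisRepAdic T)
    {Ntop : ℕ} [NeZero Ntop] (S : Finset ℕ) (hpS : p ∈ S)
    (hNtopS : ∀ q : ℕ, q.Prime → q ∣ Ntop → q ∈ S) (hNS : ∀ q : ℕ, q.Prime → q ∣ N → q ∈ S)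
    (twT : CuspForm.heckeAlgebra Ntop 2 (↑S : Set ℕ) →+* T)
    (hchar : ∀ (ℓ : ℕ) (hℓ : ℓ.Prime) (hℓN : ¬ ℓ ∣ Ntop) (hℓS : ℓ ∉ (↑S : Set ℕ))
      (A : ValuationSubring Qb), A.LiesOverPrime ℓ → ∀ σ : GQ, A.IsFrobeniusAt σ ℓ →
        LinearMap.charpoly (ρQ.ρ σ) =
          X ^ 2 - C (twT (heckeAlgebra.T hℓ hℓN hℓS)) * X + C ((ℓ : T)))
    -- G2 : the generators
    (dℓ : PrimesOff (↑S : Set ℕ) → Gamma0 N)
    (hdℓ : ∀ (l : PrimesOff (↑S : Set ℕ)) (u : (ZMod N)ˣ),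
      (u : ZMod N) = ((l.1 : ℕ) : ZMod N) →
      chi (Theta (Δs p e) H.psi k) (dℓ l) ^ 2 * Theta (Δs p e) H.psi k u = 1)
    (idx : PrimesOff (↑S : Set ℕ) → Sy.ι₁) (hidx : ∀ l, Sy.ℓ (idx l) = (l.1 : ℕ))
    (ha : ∀ (l : PrimesOff (↑S : Set ℕ)) (x x' : (bigLevel Sy 𝔪 H h k).M),
      (bigReal Sy 𝔪 H h k).ι x'
        = (diaLin O (Theta (Δs p e) H.psi k) (dℓ l)
            * actH Sy O (Theta (Δs p e) H.psi k) (MvPolynomial.X (Sum.inl (idx l))))
          ((bigReal Sy 𝔪 H h k).ι x) →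
      a (twT (formsGenS Ntop (↑S : Set ℕ) l)) x = x')
    -- the residual side
    (ev : Sy.𝕋 O →+* IsLocalRing.ResidueField O)
    (hevC : ∀ c : O, ev (MvPolynomial.C c) = IsLocalRing.residue O c)
    (hker𝔪 : ∀ t : Sy.𝕋 O, t ∈ 𝔪 ↔ ev t = 0)
    (ρbar : ResidualGaloisRep (IsLocalRing.ResidueField O)) (habs : ρbar.IsAbsolutelyIrreducible)
    (hfrob : ∀ l : PrimesOff (↑S : Set ℕ),
      ∀ P : ValuationSubring Qb, P.LiesOverPrime (l.1 : ℕ) → ∀ σ : GQ,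
        P.IsFrobeniusAt σ (l.1 : ℕ) →
        ∃ d₀ : IsLocalRing.ResidueField O, LinearMap.charpoly (ρbar.ρ σ)
          = X ^ 2 - C (ev (MvPolynomial.X (Sum.inl (idx l)))) * X + C d₀)
    -- the point
    {Ω : Type} [CommRing Ω] [IsReduced Ω] [Nontrivial Ω] [Algebra O Ω]
    (h2 : ∀ c : Ω, (2 : Ω) * c = 0 → c = 0)
    (hrp : r (k - 1 - (i : ℕ)) ≠ p)
    (P : ValuationSubring Qb) (hP : P.LiesOverPrime (r (k - 1 - (i : ℕ))))
    (Bas : Module.Basis (Fin 2) T ρQ.V)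
    (χ : Fin 2 → P.decompositionSubgroup ℚ →* Tˣ)
    (hχ : ∀ (j : Fin 2) (σ : P.decompositionSubgroup ℚ),
      ρQ.ρ (σ : GQ) (Bas j) = (χ j σ : T) • Bas j)
    (σ : GQ) (hσ : σ ∈ P.inertiaSubgroupIn ℚ) (hσD : σ ∈ P.decompositionSubgroup ℚ)
    (θ : T →ₐ[O] Ω)
    (hocc : ∀ t : T, (∀ m, a t m ∈
        LinearMap.range ((bigLevel Sy 𝔪 H h k).D i - 1)) → θ t = 0)
    (j : Fin 2) : θ (χ j ⟨σ, hσD⟩ : T) = 1 := by
  obtain ⟨k', rfl⟩ : ∃ k', k = 0 + k' := ⟨k, (Nat.zero_add k).symm⟩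
  have hi' : (i : ℕ) < k' := by have := i.2; omega
  have hi : Fin.natAdd 0 (⟨(i : ℕ), hi'⟩ : Fin k') = i := Fin.ext (by simp)
  have hidx' : 0 + k' - 1 - (i : ℕ) = k' - 1 - ((⟨(i : ℕ), hi'⟩ : Fin k') : ℕ) := by
    show 0 + k' - 1 - (i : ℕ) = k' - 1 - (i : ℕ)
    omega
  rw [hidx'] at hrp hP
  refine h1_big0 Sy 𝔪 H h k' hN hkK a ⟨(i : ℕ), hi'⟩ ?_ ρQ S hpS hNtopS hNS twT hchar dℓ hdℓ idx
    hidx ha ev hevC hker𝔪 ρbar habs hfrob h2 hrp P hP Bas χ hχ σ hσ hσD θ ?_ j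
  · rw [hi]
    exact a_D
  · rw [hi]
    exact hocc

end GE6.Inst.OnePtBig

end Fermat.Agent.GE8.P3B
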